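/-
Artin–Schreier tower calculus, step lemma (Mathlib only).

`K` a field with a valuation `v`, `F` a subfield all of whose nonzero elements have valuation an
integral power of `ϖ ^ p`, `Z` an element with `v Z = ϖ⁻¹` which is an affine transform of a
`p`-th root of an element of `F`, and `σ` a ring endomorphism of `K` fixing `F` with
`σ Z = ζ * Z + τ` (`τ ∈ F` a unit).  Then

* every element of `F(Z)` is `∑_{e<p} c e * Z ^ e` with `c e ∈ F`, and its valuation is the
  largest valuation of a term (`ValIn` for `F(Z)` with `ϖ`);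
* an integral element `z` of `F(Z)` with `v (σ z - z) < v lam` is congruent to an integral
  element of `F` modulo elements of valuation `< v lam` (`step_approx`).
-/
import Mathlib

set_option autoImplicit false

namespace Fermat.Agent.Padic.S33.AS

open Finset

variable {K : Type*} [Field K] {Γ₀ : Type*} [LinearOrderedCommGroupWithZero Γ₀]
  (v : Valuation K Γ₀)

/-- In a finite sum whose nonzero terms have pairwise distinct valuations, the valuation of the
sum is the largest valuation of a term. -/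
theorem exists_max_term {ι : Type*} [DecidableEq ι] (s : Finset ι) (f : ι → K) (hs : s.Nonempty)
    (h : ∀ i ∈ s, ∀ j ∈ s, i ≠ j → v (f i) = v (f j) → f i = 0) :
    ∃ i ∈ s, v (∑ j ∈ s, f j) = v (f i) ∧ ∀ j ∈ s, v (f j) ≤ v (f i) := by
  induction s using Finset.induction_on with
  | empty => exact absurd hs (by simp)
  | insert a s ha ih =>
    rcases s.eq_empty_or_nonempty with rfl | hne
    · exact ⟨a, by simp, by simp, by simp⟩
    · obtain ⟨i, his, hi, hmax⟩ := ih hne
        (fun i hi j hj => h i (mem_insert_of_mem hi) j (mem_insert_of_mem hj))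
      have hai : a ≠ i := fun e => ha (e ▸ his)
      rw [sum_insert ha]
      rcases lt_trichotomy (v (f a)) (v (f i)) with hlt | heq | hgt
      · refine ⟨i, mem_insert_of_mem his, ?_, ?_⟩
        · rw [← hi] at hlt ⊢
          exact v.map_add_eq_of_lt_right hlt
        · intro j hj
          rcases mem_insert.mp hj with rfl | hj
          · exact hlt.le
          · exact hmax j hj
      · have h0 := h a (mem_insert_self a s) i (mem_insert_of_mem his) hai heq
        refine ⟨i, mem_insert_of_mem his, ?_, ?_⟩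
        · rw [h0, zero_add, hi]
        · intro j hj
          rcases mem_insert.mp hj with rfl | hj
          · exact heq.le
          · exact hmax j hj
      · refine ⟨a, mem_insert_self a s, ?_, ?_⟩
        · rw [← hi] at hgt
          exact v.map_add_eq_of_lt_left hgt
        · intro j hj
          rcases mem_insert.mp hj with rfl | hj
          · exact le_rfl
          · exact (hmax j hj).trans hgt.le

/-- Every nonzero element of `F` has valuation an integral power of `ϖ`. -/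
def ValIn (F : Subfield K) (ϖ : Γ₀) : Prop := ∀ x ∈ F, x ≠ 0 → ∃ n : ℤ, v x = ϖ ^ n

/-- Re-expansion of a polynomial expression in `α * Z + β` in powers of `Z`. -/
theorem sum_affine_pow (p : ℕ) (c : ℕ → K) (α β Z : K) :
    ∑ e ∈ range p, c e * (α * Z + β) ^ e =
      ∑ j ∈ range p, (∑ e ∈ range p,
        if j ≤ e then c e * (e.choose j : K) * α ^ j * β ^ (e - j) else 0) * Z ^ j := by
  have h1 : ∀ e ∈ range p, c e * (α * Z + β) ^ e =
      ∑ j ∈ range p, (if j ≤ e then c e * (e.choose j : K) * α ^ j * β ^ (e - j) else 0) * Z ^ j := by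
    intro e he
    rw [add_pow, mul_sum]
    have hsub : range (e + 1) ⊆ range p := by
      intro j hj
      rw [mem_range] at hj he ⊢
      omega
    rw [← sum_subset hsub]
    · refine sum_congr rfl (fun j hj => ?_)
      have hje : j ≤ e := by rw [mem_range] at hj; omega
      rw [if_pos hje, mul_pow]
      ring
    · intro j _ hj
      have hje : ¬ j ≤ e := by rw [mem_range] at hj; omega
      rw [if_neg hje, zero_mul]
  rw [sum_congr rfl h1, sum_comm]
  refine sum_congr rfl (fun j _ => ?_)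
  rw [sum_mul]

section Repr

variable {p : ℕ} {F : Subfield K}

/-- Elements of `F(θ)` for `θ ^ p ∈ F` are polynomial expressions of degree `< p` in `θ`. -/
theorem exists_repr_root (hp : p ≠ 0) {θ c : K} (hc : c ∈ F) (h : θ ^ p = c) {x : K}
    (hx : x ∈ Subfield.closure ((F : Set K) ∪ {θ})) :
    ∃ d : ℕ → K, (∀ e, d e ∈ F) ∧ x = ∑ e ∈ range p, d e * θ ^ e := by
  classical
  let P : Polynomial F := Polynomial.X ^ p - Polynomial.C ⟨c, hc⟩
  have hPm : P.Monic := Polynomial.monic_X_pow_sub_C _ hp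
  have hPdeg : P.natDegree = p := Polynomial.natDegree_X_pow_sub_C
  have hroot : Polynomial.aeval θ P = 0 := by
    simp only [P, map_sub, map_pow, Polynomial.aeval_X, Polynomial.aeval_C]
    rw [h]
    exact sub_self c
  have hint : IsIntegral F θ := ⟨P, hPm, hroot⟩
  have hle : Subfield.closure ((F : Set K) ∪ {θ}) ≤ (IntermediateField.adjoin F {θ}).toSubfield := by
    rw [Subfield.closure_le]
    rintro y (hy | hy)
    · exact (IntermediateField.adjoin F {θ}).algebraMap_mem ⟨y, hy⟩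
    · rw [Set.mem_singleton_iff] at hy
      rw [hy]
      exact IntermediateField.mem_adjoin_simple_self F θ
  have hx' : x ∈ (IntermediateField.adjoin F {θ}).toSubalgebra := hle hx
  rw [IntermediateField.adjoin_simple_toSubalgebra_of_isAlgebraic hint.isAlgebraic,
    Algebra.adjoin_singleton_eq_range_aeval] at hx'
  obtain ⟨q, rfl⟩ := hx'
  have hP1 : P ≠ 1 := by
    intro h1
    have := congrArg Polynomial.natDegree h1
    rw [hPdeg, Polynomial.natDegree_one] at this
    exact hp this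
  have hdeg : (q %ₘ P).natDegree < p := by
    have := Polynomial.natDegree_modByMonic_lt q hPm hP1
    rwa [hPdeg] at this
  refine ⟨fun e => ((q %ₘ P).coeff e : K), fun e => ((q %ₘ P).coeff e).2, ?_⟩
  change Polynomial.aeval θ q = _
  rw [← Polynomial.aeval_modByMonic_eq_self_of_root (p := q) hroot,
    Polynomial.aeval_eq_sum_range' hdeg]
  refine sum_congr rfl (fun e _ => ?_)
  rw [Algebra.smul_def]
  rfl

/-- Elements of `F(Z)` for `(a * Z + b) ^ p ∈ F` are polynomial expressions of degree `< p`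
in `Z`. -/
theorem exists_repr (hp : p ≠ 0) {Z a b c : K} (ha : a ∈ F) (ha0 : a ≠ 0) (hb : b ∈ F)
    (hc : c ∈ F) (h : (a * Z + b) ^ p = c) {x : K}
    (hx : x ∈ Subfield.closure ((F : Set K) ∪ {Z})) :
    ∃ d : ℕ → K, (∀ e, d e ∈ F) ∧ x = ∑ e ∈ range p, d e * Z ^ e := by
  have hle : Subfield.closure ((F : Set K) ∪ {Z}) ≤
      Subfield.closure ((F : Set K) ∪ {a * Z + b}) := by
    rw [Subfield.closure_le]
    rintro y (hy | hy)
    · exact Subfield.subset_closure (Or.inl hy)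
    · rw [Set.mem_singleton_iff] at hy
      have hθ : a * Z + b ∈ Subfield.closure ((F : Set K) ∪ {a * Z + b}) :=
        Subfield.subset_closure (Or.inr rfl)
      have haF : a ∈ Subfield.closure ((F : Set K) ∪ {a * Z + b}) :=
        Subfield.subset_closure (Or.inl ha)
      have hbF : b ∈ Subfield.closure ((F : Set K) ∪ {a * Z + b}) :=
        Subfield.subset_closure (Or.inl hb)
      have : y = (a * Z + b - b) * a⁻¹ := by
        rw [hy, add_sub_cancel_right, mul_comm a Z, mul_assoc, mul_inv_cancel₀ ha0, mul_one]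
      rw [this]
      exact Subfield.mul_mem _ (Subfield.sub_mem _ hθ hbF) (Subfield.inv_mem _ haF)
  obtain ⟨d, hd, hxd⟩ := exists_repr_root hp hc h (hle hx)
  refine ⟨fun j => ∑ e ∈ range p,
    if j ≤ e then d e * (e.choose j : K) * a ^ j * b ^ (e - j) else 0, fun j => ?_, ?_⟩
  · refine Subfield.sum_mem _ (fun e _ => ?_)
    split_ifs
    · exact Subfield.mul_mem _ (Subfield.mul_mem _ (Subfield.mul_mem _ (hd e) (natCast_mem F _))
        (Subfield.pow_mem _ ha _)) (Subfield.pow_mem _ hb _)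
    · exact Subfield.zero_mem _
  · rw [hxd, sum_affine_pow]

end Repr

section Level

variable {p : ℕ} {F : Subfield K} {ϖ : Γ₀} {Z : K}

theorem ValIn.exists_mul (hF : ValIn v F (ϖ ^ p)) {x : K} (hx : x ∈ F) (hx0 : x ≠ 0) :
    ∃ n : ℤ, v x = ϖ ^ ((p : ℤ) * n) := by
  obtain ⟨n, hn⟩ := hF x hx hx0
  exact ⟨n, by rw [hn, ← zpow_natCast ϖ p, ← zpow_mul]⟩

/-- The valuation of a term `d * Z ^ e`. -/
theorem val_term (hϖ0 : ϖ ≠ 0) (hZ : v Z = ϖ⁻¹) {d : K} {n : ℤ}
    (hd : v d = ϖ ^ ((p : ℤ) * n)) (e : ℕ) :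
    v (d * Z ^ e) = ϖ ^ ((p : ℤ) * n - e) := by
  rw [map_mul, map_pow, hd, hZ, inv_pow, ← zpow_natCast ϖ e, ← zpow_neg, ← zpow_add₀ hϖ0,
    sub_eq_add_neg]

theorem zpow_inj_of_lt_one (hϖ0 : ϖ ≠ 0) (hϖ1 : ϖ < 1) {a b : ℤ} (h : ϖ ^ a = ϖ ^ b) : a = b :=
  zpow_right_injective₀ (zero_lt_iff.mpr hϖ0) hϖ1.ne h

theorem zpow_le_iff_of_lt_one (hϖ0 : ϖ ≠ 0) (hϖ1 : ϖ < 1) {a b : ℤ} : ϖ ^ a ≤ ϖ ^ b ↔ b ≤ a :=
  zpow_le_zpow_iff_right_of_lt_one₀ (zero_lt_iff.mpr hϖ0) hϖ1

theorem zpow_lt_iff_of_lt_one (hϖ0 : ϖ ≠ 0) (hϖ1 : ϖ < 1) {a b : ℤ} : ϖ ^ a < ϖ ^ b ↔ b < a :=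
  zpow_lt_zpow_iff_right_of_lt_one₀ (zero_lt_iff.mpr hϖ0) hϖ1

/-- Distinct terms `d e * Z ^ e`, `e < p`, have distinct valuations (or vanish). -/
theorem term_distinct (hϖ0 : ϖ ≠ 0) (hϖ1 : ϖ < 1) (hF : ValIn v F (ϖ ^ p)) (hZ : v Z = ϖ⁻¹)
    {d : ℕ → K} (hd : ∀ e, d e ∈ F) :
    ∀ i ∈ range p, ∀ j ∈ range p, i ≠ j → v (d i * Z ^ i) = v (d j * Z ^ j) →
      d i * Z ^ i = 0 := by
  intro i hi j hj hij h
  by_cases hdi : d i = 0
  · rw [hdi, zero_mul]
  by_cases hdj : d j = 0
  · rw [hdj, zero_mul, map_zero] at h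
    exact v.zero_iff.mp h
  exfalso
  obtain ⟨n, hn⟩ := hF.exists_mul v (hd i) hdi
  obtain ⟨m, hm⟩ := hF.exists_mul v (hd j) hdj
  rw [val_term v hϖ0 hZ hn, val_term v hϖ0 hZ hm] at h
  have h2 := zpow_inj_of_lt_one hϖ0 hϖ1 h
  rw [mem_range] at hi hj
  have h3 : (p : ℤ) ∣ ((i : ℤ) - j) := ⟨n - m, by linarith⟩
  have h4 : |((i : ℤ) - j)| < p := by
    rw [abs_lt]
    constructor <;> omega
  have h5 := Int.eq_zero_of_abs_lt_dvd h3 h4
  omega

/-- The valuation of `∑_{e<p} d e * Z ^ e` is the largest valuation of a term. -/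
theorem exists_term_eq (hp : p ≠ 0) (hϖ0 : ϖ ≠ 0) (hϖ1 : ϖ < 1) (hF : ValIn v F (ϖ ^ p))
    (hZ : v Z = ϖ⁻¹) {d : ℕ → K} (hd : ∀ e, d e ∈ F) :
    ∃ e ∈ range p, v (∑ j ∈ range p, d j * Z ^ j) = v (d e * Z ^ e) ∧
      ∀ j ∈ range p, v (d j * Z ^ j) ≤ v (d e * Z ^ e) :=
  exists_max_term v (range p) (fun e => d e * Z ^ e) ⟨0, mem_range.mpr (Nat.pos_of_ne_zero hp)⟩
    (term_distinct v hϖ0 hϖ1 hF hZ hd)

theorem term_le_of_sum_le (hp : p ≠ 0) (hϖ0 : ϖ ≠ 0) (hϖ1 : ϖ < 1) (hF : ValIn v F (ϖ ^ p))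
    (hZ : v Z = ϖ⁻¹) {d : ℕ → K} (hd : ∀ e, d e ∈ F) {B : Γ₀}
    (h : v (∑ j ∈ range p, d j * Z ^ j) ≤ B) {e : ℕ} (he : e < p) : v (d e * Z ^ e) ≤ B := by
  obtain ⟨e₀, _, h1, h2⟩ := exists_term_eq v hp hϖ0 hϖ1 hF hZ hd
  exact (h2 e (mem_range.mpr he)).trans (h1 ▸ h)

theorem term_lt_of_sum_lt (hp : p ≠ 0) (hϖ0 : ϖ ≠ 0) (hϖ1 : ϖ < 1) (hF : ValIn v F (ϖ ^ p))
    (hZ : v Z = ϖ⁻¹) {d : ℕ → K} (hd : ∀ e, d e ∈ F) {B : Γ₀}
    (h : v (∑ j ∈ range p, d j * Z ^ j) < B) {e : ℕ} (he : e < p) : v (d e * Z ^ e) < B := by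
  obtain ⟨e₀, _, h1, h2⟩ := exists_term_eq v hp hϖ0 hϖ1 hF hZ hd
  exact (h2 e (mem_range.mpr he)).trans_lt (h1 ▸ h)

/-- **Value group of the step.** If every element of `F' ⊇ F` is `∑_{e<p} d e * Z ^ e` with
`d e ∈ F`, then the nonzero elements of `F'` have valuations in `ϖ ^ ℤ`. -/
theorem valIn_step (hp : p ≠ 0) (hϖ0 : ϖ ≠ 0) (hϖ1 : ϖ < 1) (hF : ValIn v F (ϖ ^ p))
    (hZ : v Z = ϖ⁻¹) {F' : Subfield K}
    (hrepr : ∀ x ∈ F', ∃ d : ℕ → K, (∀ e, d e ∈ F) ∧ x = ∑ e ∈ range p, d e * Z ^ e) :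
    ValIn v F' ϖ := by
  intro x hx hx0
  obtain ⟨d, hd, rfl⟩ := hrepr x hx
  obtain ⟨e, _, h1, _⟩ := exists_term_eq v hp hϖ0 hϖ1 hF hZ hd
  have hde : d e ≠ 0 := by
    intro h0
    rw [h0, zero_mul, map_zero] at h1
    exact hx0 (v.zero_iff.mp h1)
  obtain ⟨n, hn⟩ := hF.exists_mul v (hd e) hde
  exact ⟨(p : ℤ) * n - e, by rw [h1, val_term v hϖ0 hZ hn]⟩

end Level

section Step

variable {p : ℕ} {F : Subfield K} {ϖ : Γ₀} {Z lam ζ τ : K}

theorem val_natCast_le_one (n : ℕ) : v (n : K) ≤ 1 := by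
  induction n with
  | zero => simp
  | succ n ih =>
    rw [Nat.cast_succ]
    exact (v.map_add _ _).trans (max_le ih (by rw [map_one]))

/-- Splitting off the first two terms of a truncated sum. -/
theorem sum_ite_split (p j : ℕ) (hj : j + 1 < p) (f : ℕ → K) :
    (∑ e ∈ range p, if j ≤ e then f e else 0) =
      f j + f (j + 1) + ∑ e ∈ range p, if j + 2 ≤ e then f e else 0 := by
  have h1 : ∀ e ∈ range p, (if j ≤ e then f e else 0) =
      (if e = j then f e else 0) + (if e = j + 1 then f e else 0) +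
        (if j + 2 ≤ e then f e else 0) := by
    intro e _
    by_cases h1 : e = j
    · subst h1; simp
    by_cases h2 : e = j + 1
    · subst h2; simp
    by_cases h3 : j + 2 ≤ e
    · have : j ≤ e := by omega
      simp [h1, h2, h3, this]
    · have : ¬ j ≤ e := by omega
      simp [h1, h2, h3, this]
  rw [sum_congr rfl h1, sum_add_distrib, sum_add_distrib, sum_ite_eq' (range p) j f,
    sum_ite_eq' (range p) (j + 1) f, if_pos (mem_range.mpr (by omega)),
    if_pos (mem_range.mpr hj)]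

/-- **Step lemma.** An integral element `z = ∑_{e<p} c e * Z ^ e` of `F(Z)` which is moved by
`σ` by less than `lam` is congruent to its constant coefficient modulo elements of valuation
`< v lam`. -/
theorem step_approx (hp : p ≠ 0) (hϖ0 : ϖ ≠ 0) (hϖ1 : ϖ < 1) (hF : ValIn v F (ϖ ^ p))
    (hZ : v Z = ϖ⁻¹) {N : ℤ} (hlam : v lam = ϖ ^ ((p : ℤ) * N))
    (hnat : ∀ e : ℕ, 0 < e → e < p → v (e : K) = 1)
    (hζF : ζ ∈ F) (hζ : v ζ = 1) (hζlam : ∀ j : ℕ, v (ζ ^ j - 1) ≤ v lam)
    (hτF : τ ∈ F) (hτ : v τ = 1)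
    (σ : K →+* K) (hσF : ∀ x ∈ F, σ x = x) (hσZ : σ Z = ζ * Z + τ)
    {c : ℕ → K} (hc : ∀ e, c e ∈ F)
    (hz : v (∑ e ∈ range p, c e * Z ^ e) ≤ 1)
    (hσz : v (σ (∑ e ∈ range p, c e * Z ^ e) - ∑ e ∈ range p, c e * Z ^ e) < v lam) :
    v (c 0) ≤ 1 ∧ v (∑ e ∈ range p, c e * Z ^ e - c 0) < v lam := by
  have hϖpos : (0 : Γ₀) < ϖ := zero_lt_iff.mpr hϖ0
  have hlam0 : (0 : Γ₀) < v lam := by rw [hlam]; exact zpow_pos hϖpos _
  -- the coefficients of `σ z - z`
  set D : ℕ → K := fun j => (∑ e ∈ range p,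
    if j ≤ e then c e * (e.choose j : K) * ζ ^ j * τ ^ (e - j) else 0) - c j with hD
  have hσsum : σ (∑ e ∈ range p, c e * Z ^ e) - ∑ e ∈ range p, c e * Z ^ e =
      ∑ j ∈ range p, D j * Z ^ j := by
    have h1 : σ (∑ e ∈ range p, c e * Z ^ e) = ∑ e ∈ range p, c e * (ζ * Z + τ) ^ e := by
      rw [map_sum]
      refine sum_congr rfl (fun e _ => ?_)
      rw [map_mul, map_pow, hσF _ (hc e), hσZ]
    rw [h1, sum_affine_pow, ← sum_sub_distrib]
    refine sum_congr rfl (fun j _ => ?_)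
    rw [hD, sub_mul]
  have hDF : ∀ j, D j ∈ F := by
    intro j
    refine Subfield.sub_mem _ (Subfield.sum_mem _ (fun e _ => ?_)) (hc j)
    split_ifs
    · exact Subfield.mul_mem _ (Subfield.mul_mem _ (Subfield.mul_mem _ (hc e) (natCast_mem F _))
        (Subfield.pow_mem _ hζF _)) (Subfield.pow_mem _ hτF _)
    · exact Subfield.zero_mem _
  rw [hσsum] at hσz
  -- bounds for the terms
  have hcz : ∀ e, e < p → v (c e) ≤ ϖ ^ e := by
    intro e he
    have h := term_le_of_sum_le v hp hϖ0 hϖ1 hF hZ hc hz he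
    rw [map_mul, map_pow, hZ, inv_pow, mul_inv_le_iff₀ (pow_pos hϖpos e), one_mul] at h
    exact h
  have hDz : ∀ j, j < p → v (D j) < v lam * ϖ ^ j := by
    intro j hj
    have h := term_lt_of_sum_lt v hp hϖ0 hϖ1 hF hZ hDF hσz hj
    rw [map_mul, map_pow, hZ, inv_pow, mul_inv_lt_iff₀ (pow_pos hϖpos j)] at h
    exact h
  have hpow_le : ∀ j : ℕ, ϖ ^ j ≤ 1 := fun j => pow_le_one₀ hϖpos.le hϖ1.le
  have hpZ : (0 : ℤ) < p := by exact_mod_cast Nat.pos_of_ne_zero hp
  have hstep1 : ϖ ^ ((p : ℤ) * (N + 1)) < ϖ ^ ((p : ℤ) * N) := by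
    rw [zpow_lt_iff_of_lt_one hϖ0 hϖ1]
    nlinarith
  -- the key claim
  have key : ∀ m : ℕ, ∀ e, 1 ≤ e → e < p → p ≤ e + m → v (c e) ≤ ϖ ^ ((p : ℤ) * (N + 1)) := by
    intro m
    induction m with
    | zero => intro e _ he hpe; omega
    | succ m ih =>
      intro e he1 hep _
      obtain ⟨j, rfl⟩ : ∃ j, e = j + 1 := ⟨e - 1, by omega⟩
      -- the relation for `D j`
      set f : ℕ → K := fun e => c e * (e.choose j : K) * ζ ^ j * τ ^ (e - j) with hf
      have hsplit := sum_ite_split p j hep f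
      set R : K := ∑ e ∈ range p, if j + 2 ≤ e then f e else 0 with hR
      have hfj : f j = c j * ζ ^ j := by
        simp [hf]
      have hfj1 : f (j + 1) = c (j + 1) * ((j + 1 : ℕ) : K) * ζ ^ j * τ := by
        simp [hf, Nat.choose_succ_self_right]
      have hrel : c (j + 1) * ((j + 1 : ℕ) : K) * ζ ^ j * τ = D j - c j * (ζ ^ j - 1) - R := by
        have : D j = f j + f (j + 1) + R - c j := by
          rw [hD]
          simp only
          rw [← hsplit]
        rw [this, hfj, hfj1]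
        ring
      have hvL : v (c (j + 1) * ((j + 1 : ℕ) : K) * ζ ^ j * τ) = v (c (j + 1)) := by
        rw [map_mul, map_mul, map_mul, map_pow, hζ, hτ, hnat (j + 1) (by omega) hep, one_pow,
          mul_one, mul_one, mul_one]
      -- the three bounds
      have hb1 : v (D j) < v lam :=
        (hDz j (by omega)).trans_le (mul_le_of_le_one_right hlam0.le (hpow_le j))
      have hb2 : v (c j * (ζ ^ j - 1)) < v lam := by
        rcases Nat.eq_zero_or_pos j with rfl | hj
        · simp [hlam0]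
        · rw [map_mul]
          calc v (c j) * v (ζ ^ j - 1) ≤ ϖ ^ j * v lam :=
                mul_le_mul' (hcz j (by omega)) (hζlam j)
            _ < 1 * v lam := by
                apply mul_lt_mul_of_pos_right _ hlam0
                exact pow_lt_one₀ hϖpos.le hϖ1 (by omega)
            _ = v lam := one_mul _
      have hb3 : v R < v lam := by
        rw [hR]
        refine v.map_sum_lt hlam0.ne' (fun e he => ?_)
        split_ifs with h2
        · have hce : v (c e) ≤ ϖ ^ ((p : ℤ) * (N + 1)) :=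
            ih e (by omega) (mem_range.mp he) (by omega)
          have : v (f e) ≤ v (c e) := by
            rw [hf]
            simp only
            rw [map_mul, map_mul, map_mul, map_pow, map_pow, hζ, hτ, one_pow, one_pow, mul_one,
              mul_one]
            exact mul_le_of_le_one_right zero_le (val_natCast_le_one v _)
          rw [hlam]
          exact (this.trans hce).trans_lt hstep1
        · rw [map_zero]; exact hlam0
      have hlt : v (c (j + 1)) < v lam := by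
        rw [← hvL, hrel]
        refine lt_of_le_of_lt (v.map_sub _ _) (max_lt ?_ hb3)
        exact lt_of_le_of_lt (v.map_sub _ _) (max_lt hb1 hb2)
      -- integrality
      by_cases h0 : c (j + 1) = 0
      · rw [h0, map_zero]; exact zero_le
      obtain ⟨n, hn⟩ := hF.exists_mul v (hc (j + 1)) h0
      rw [hn, hlam, zpow_lt_iff_of_lt_one hϖ0 hϖ1] at hlt
      rw [hn, zpow_le_iff_of_lt_one hϖ0 hϖ1]
      have : N < n := by
        by_contra hcon
        push Not at hcon
        nlinarith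
      nlinarith
  refine ⟨by simpa using hcz 0 (Nat.pos_of_ne_zero hp), ?_⟩
  obtain ⟨p', rfl⟩ := Nat.exists_eq_succ_of_ne_zero hp
  rw [sum_range_succ', pow_zero, mul_one, add_sub_cancel_right]
  refine v.map_sum_lt hlam0.ne' (fun e he => ?_)
  rw [mem_range] at he
  have hce := key (p' + 1) (e + 1) (by omega) (by omega) (by omega)
  rw [map_mul, map_pow, hZ, inv_pow, mul_inv_lt_iff₀ (pow_pos hϖpos _)]
  refine hce.trans_lt ?_
  rw [hlam, ← zpow_natCast ϖ (e + 1), ← zpow_add₀ hϖ0, zpow_lt_iff_of_lt_one hϖ0 hϖ1]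
  push_cast
  have : (e : ℤ) + 1 < (p' : ℤ) + 1 := by omega
  push_cast at hpZ
  nlinarith

end Step

end Fermat.Agent.Padic.S33.AS
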