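/-
Artin–Schreier tower calculus, the abstract tower lemma (Mathlib only).

`F₀ ⊆ K` a subfield whose nonzero elements have valuations in `ϖ₀ ^ ℤ`, `θ 0, …, θ (n-1)` with
`θ i ^ p ∈ F₀`, ring endomorphisms `σ i` of `K` preserving `v`, fixing `F₀`, with
`σ i (θ j) = ζ ^ δ_ij * θ j`.  Suppose that "depth elements" `Z i` are given with
`θ i = a i * Z i + b i`, `a i ∈ F₀ˣ`, `b i ∈ F₀(θ l : l < i)`, `(ζ - 1) * b i / a i` a unit and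
`v (Z i) ^ p ^ (i + 1) = ϖ₀⁻¹`.  Then an integral element of `F₀(θ 0, …, θ (n-1))` which is moved
by every `σ i` by less than `lam` is congruent to an integral element of `F₀` modulo elements of
valuation `< v lam` (`tower_approx_top`).

Also: the cyclic ("très ramifié") step `cyclic_moved`.
-/
import Mathlib
import Fermat.Agent.Padic.S33.ASStep

set_option autoImplicit false

namespace Fermat.Agent.Padic.S33.AS

open Finset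

variable {K : Type*} [Field K] {Γ₀ : Type*} [LinearOrderedCommGroupWithZero Γ₀]
  (v : Valuation K Γ₀)

theorem pow_inj_val {a b : Γ₀} {n : ℕ} (hn : n ≠ 0) (h : a ^ n = b ^ n) : a = b :=
  (pow_left_inj₀ zero_le zero_le hn).mp h

theorem lt_one_of_pow_lt_one {a : Γ₀} {n : ℕ} (h : a ^ n < 1) : a < 1 := by
  by_contra hcon
  exact absurd h (not_lt.mpr (one_le_pow₀ (not_lt.mp hcon)))

section Lvl

variable {n : ℕ}

/-- The `i`-th level of the tower: `F₀(θ l : l < i)`. -/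
def Lvl (F₀ : Subfield K) (θ : Fin n → K) (i : ℕ) : Subfield K :=
  Subfield.closure ((F₀ : Set K) ∪ θ '' {l : Fin n | (l : ℕ) < i})

variable (F₀ : Subfield K) (θ : Fin n → K)

theorem le_Lvl (i : ℕ) : F₀ ≤ Lvl F₀ θ i :=
  fun _ hx => Subfield.subset_closure (Or.inl hx)

theorem Lvl_zero : Lvl F₀ θ 0 = F₀ := by
  unfold Lvl
  have : {l : Fin n | (l : ℕ) < 0} = ∅ := by ext l; simp
  rw [this, Set.image_empty, Set.union_empty, Subfield.closure_eq]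

theorem gen_mem_Lvl {l : Fin n} {i : ℕ} (h : (l : ℕ) < i) : θ l ∈ Lvl F₀ θ i :=
  Subfield.subset_closure (Or.inr ⟨l, h, rfl⟩)

theorem Lvl_succ_le (i : Fin n) {Z a b : K} (ha : a ∈ Lvl F₀ θ i) (hb : b ∈ Lvl F₀ θ i)
    (h : θ i = a * Z + b) :
    Lvl F₀ θ ((i : ℕ) + 1) ≤ Subfield.closure ((Lvl F₀ θ i : Set K) ∪ {Z}) := by
  have h0 : ∀ y ∈ Lvl F₀ θ i, y ∈ Subfield.closure ((Lvl F₀ θ i : Set K) ∪ {Z}) :=
    fun y hy => Subfield.subset_closure (Or.inl hy)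
  have hZ : Z ∈ Subfield.closure ((Lvl F₀ θ i : Set K) ∪ {Z}) :=
    Subfield.subset_closure (Or.inr rfl)
  show Subfield.closure _ ≤ _
  rw [Subfield.closure_le]
  rintro y (hy | ⟨l, hl, rfl⟩)
  · exact h0 y (le_Lvl F₀ θ i hy)
  · rcases Nat.lt_succ_iff_lt_or_eq.mp hl with h1 | h1
    · exact h0 _ (gen_mem_Lvl F₀ θ h1)
    · have : l = i := Fin.ext h1
      rw [this, h]
      exact Subfield.add_mem _ (Subfield.mul_mem _ (h0 a ha) hZ) (h0 b hb)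

theorem Lvl_top : Lvl F₀ θ n = Subfield.closure ((F₀ : Set K) ∪ Set.range θ) := by
  unfold Lvl
  have : {l : Fin n | (l : ℕ) < n} = Set.univ := by ext l; simp
  rw [this, Set.image_univ]

theorem fix_Lvl (σ : K →+* K) (hσF : ∀ x ∈ F₀, σ x = x) (i : ℕ)
    (hσθ : ∀ l : Fin n, (l : ℕ) < i → σ (θ l) = θ l) : ∀ x ∈ Lvl F₀ θ i, σ x = x := by
  intro x hx
  have : Lvl F₀ θ i ≤ RingHom.eqLocusField σ (RingHom.id K) := by
    show Subfield.closure _ ≤ _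
    rw [Subfield.closure_le]
    rintro y (hy | ⟨l, hl, rfl⟩)
    · exact hσF y hy
    · exact hσθ l hl
  exact this hx

end Lvl

/-- **Tower lemma**, inductive form. -/
theorem tower_approx {p : ℕ} (hp : p ≠ 0) {n : ℕ} {F₀ : Subfield K} {ϖ₀ : Γ₀} {lam ζ : K}
    (hϖ0 : ϖ₀ ≠ 0) (hϖ1 : ϖ₀ < 1) (hF₀ : ValIn v F₀ ϖ₀) {M : ℕ} (hlam : v lam = ϖ₀ ^ M)
    (hnat : ∀ e : ℕ, 0 < e → e < p → v (e : K) = 1)
    (hζF : ζ ∈ F₀) (hζ : v ζ = 1) (hζlam : ∀ j : ℕ, v (ζ ^ j - 1) ≤ v lam)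
    (θ : Fin n → K) (hθp : ∀ i, θ i ^ p ∈ F₀)
    (σ : Fin n → K →+* K) (hσv : ∀ i x, v (σ i x) = v x) (hσF : ∀ i, ∀ x ∈ F₀, σ i x = x)
    (hσθ : ∀ i j, σ i (θ j) = if i = j then ζ * θ j else θ j)
    (Z a b : Fin n → K)
    (hZ : ∀ i : Fin n, v (Z i) ^ p ^ ((i : ℕ) + 1) = ϖ₀⁻¹)
    (haF : ∀ i, a i ∈ F₀) (ha0 : ∀ i, a i ≠ 0)
    (hb : ∀ i : Fin n, b i ∈ Lvl F₀ θ i)
    (hθZ : ∀ i, θ i = a i * Z i + b i)
    (hτ : ∀ i, v ((ζ - 1) * b i / a i) = 1) :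
    ∀ i : ℕ, i ≤ n → (∃ ϖ : Γ₀, ϖ ^ p ^ i = ϖ₀ ∧ ValIn v (Lvl F₀ θ i) ϖ) ∧
      ∀ z ∈ Lvl F₀ θ i, v z ≤ 1 → (∀ j : Fin n, (j : ℕ) < i → v (σ j z - z) < v lam) →
        ∃ c ∈ F₀, v c ≤ 1 ∧ v (z - c) < v lam := by
  intro i
  induction i with
  | zero =>
    intro _
    rw [Lvl_zero]
    refine ⟨⟨ϖ₀, by simp, hF₀⟩, fun z hz hz1 _ => ⟨z, hz, hz1, ?_⟩⟩
    rw [sub_self, map_zero, hlam]
    exact pow_pos (zero_lt_iff.mpr hϖ0) _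
  | succ i ih =>
    intro hi
    obtain ⟨⟨ϖi, hϖi, hVi⟩, hApp⟩ := ih (by omega)
    set ι : Fin n := ⟨i, by omega⟩ with hι
    set ϖ : Γ₀ := (v (Z ι))⁻¹ with hϖ
    have hZι : v (Z ι) ^ p ^ (i + 1) = ϖ₀⁻¹ := hZ ι
    have hϖpow : ϖ ^ p ^ (i + 1) = ϖ₀ := by rw [hϖ, inv_pow, hZι, inv_inv]
    have hϖne : ϖ ≠ 0 := by
      intro h0
      rw [h0, zero_pow (pow_ne_zero _ hp)] at hϖpow
      exact hϖ0 hϖpow.symm
    have hϖlt : ϖ < 1 := lt_one_of_pow_lt_one (by rw [hϖpow]; exact hϖ1)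
    have hϖp : ϖ ^ p = ϖi := by
      apply pow_inj_val (pow_ne_zero i hp)
      rw [← pow_mul, ← pow_succ', hϖpow, hϖi]
    have hVi' : ValIn v (Lvl F₀ θ i) (ϖ ^ p) := by rw [hϖp]; exact hVi
    have hZv : v (Z ι) = ϖ⁻¹ := by rw [hϖ, inv_inv]
    have haL : a ι ∈ Lvl F₀ θ i := le_Lvl F₀ θ i (haF ι)
    have hbL : b ι ∈ Lvl F₀ θ i := hb ι
    have hrepr : ∀ x ∈ Lvl F₀ θ (i + 1), ∃ d : ℕ → K, (∀ e, d e ∈ Lvl F₀ θ i) ∧
        x = ∑ e ∈ range p, d e * Z ι ^ e := by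
      intro x hx
      exact exists_repr hp haL (ha0 ι) hbL (le_Lvl F₀ θ i (hθp ι)) (by rw [← hθZ ι])
        (Lvl_succ_le F₀ θ ι haL hbL (hθZ ι) hx)
    refine ⟨⟨ϖ, hϖpow, valIn_step v hp hϖne hϖlt hVi' hZv hrepr⟩, ?_⟩
    intro z hz hz1 hzσ
    obtain ⟨c, hc, rfl⟩ := hrepr z hz
    have hfix : ∀ x ∈ Lvl F₀ θ i, σ ι x = x := by
      refine fix_Lvl F₀ θ (σ ι) (hσF ι) i (fun l hl => ?_)
      rw [hσθ, if_neg]
      intro h
      rw [← h] at hl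
      simp [hι] at hl
    set τ : K := (ζ - 1) * b ι / a ι with hτdef
    have hτF : τ ∈ Lvl F₀ θ i :=
      Subfield.div_mem _ (Subfield.mul_mem _ (Subfield.sub_mem _ (le_Lvl F₀ θ i hζF)
        (Subfield.one_mem _)) hbL) haL
    have hσZ : σ ι (Z ι) = ζ * Z ι + τ := by
      have h1 : σ ι (θ ι) = ζ * θ ι := by rw [hσθ, if_pos rfl]
      rw [hθZ ι, map_add, map_mul, hfix _ haL, hfix _ hbL] at h1
      have ha := ha0 ι
      rw [hτdef]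
      field_simp
      linear_combination h1
    have hlam' : v lam = ϖ ^ ((p : ℤ) * ((p ^ i * M : ℕ) : ℤ)) := by
      rw [hlam, ← hϖpow, ← pow_mul, ← Nat.cast_mul, zpow_natCast]
      congr 1
      ring
    obtain ⟨h0, h1⟩ := step_approx v hp hϖne hϖlt hVi' hZv hlam' hnat (le_Lvl F₀ θ i hζF) hζ
      hζlam hτF (hτ ι) (σ ι) hfix hσZ hc hz1 (hzσ ι (by simp [hι]))
    have hmoved : ∀ j : Fin n, (j : ℕ) < i → v (σ j (c 0) - c 0) < v lam := by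
      intro j hj
      have h2 : σ j (c 0) - c 0 = σ j (c 0 - ∑ e ∈ range p, c e * Z ι ^ e) +
          ((σ j (∑ e ∈ range p, c e * Z ι ^ e) - ∑ e ∈ range p, c e * Z ι ^ e) +
            (∑ e ∈ range p, c e * Z ι ^ e - c 0)) := by
        rw [map_sub]; ring
      rw [h2]
      refine lt_of_le_of_lt (v.map_add _ _) (max_lt ?_
        (lt_of_le_of_lt (v.map_add _ _) (max_lt (hzσ j (by omega)) h1)))
      rw [hσv, ← neg_sub, Valuation.map_neg]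
      exact h1
    obtain ⟨c', hc'F, hc'1, hc'⟩ := hApp (c 0) (hc 0) h0 hmoved
    refine ⟨c', hc'F, hc'1, ?_⟩
    have h3 : ∑ e ∈ range p, c e * Z ι ^ e - c' =
        (∑ e ∈ range p, c e * Z ι ^ e - c 0) + (c 0 - c') := by ring
    rw [h3]
    exact lt_of_le_of_lt (v.map_add _ _) (max_lt h1 hc')

/-- **Tower lemma.** An integral element of `F₀(θ 0, …, θ (n-1))` moved by every `σ i` by less
than `lam` is congruent to an integral element of `F₀` modulo elements of valuation `< v lam`. -/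
theorem tower_approx_top {p : ℕ} (hp : p ≠ 0) {n : ℕ} {F₀ : Subfield K} {ϖ₀ : Γ₀} {lam ζ : K}
    (hϖ0 : ϖ₀ ≠ 0) (hϖ1 : ϖ₀ < 1) (hF₀ : ValIn v F₀ ϖ₀) {M : ℕ} (hlam : v lam = ϖ₀ ^ M)
    (hnat : ∀ e : ℕ, 0 < e → e < p → v (e : K) = 1)
    (hζF : ζ ∈ F₀) (hζ : v ζ = 1) (hζlam : ∀ j : ℕ, v (ζ ^ j - 1) ≤ v lam)
    (θ : Fin n → K) (hθp : ∀ i, θ i ^ p ∈ F₀)
    (σ : Fin n → K →+* K) (hσv : ∀ i x, v (σ i x) = v x) (hσF : ∀ i, ∀ x ∈ F₀, σ i x = x)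
    (hσθ : ∀ i j, σ i (θ j) = if i = j then ζ * θ j else θ j)
    (Z a b : Fin n → K)
    (hZ : ∀ i : Fin n, v (Z i) ^ p ^ ((i : ℕ) + 1) = ϖ₀⁻¹)
    (haF : ∀ i, a i ∈ F₀) (ha0 : ∀ i, a i ≠ 0)
    (hb : ∀ i : Fin n, b i ∈ Lvl F₀ θ i)
    (hθZ : ∀ i, θ i = a i * Z i + b i)
    (hτ : ∀ i, v ((ζ - 1) * b i / a i) = 1)
    {z : K} (hz : z ∈ Subfield.closure ((F₀ : Set K) ∪ Set.range θ)) (hz1 : v z ≤ 1)
    (hzσ : ∀ i, v (σ i z - z) < v lam) :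
    ∃ c ∈ F₀, v c ≤ 1 ∧ v (z - c) < v lam :=
  ((tower_approx v hp hϖ0 hϖ1 hF₀ hlam hnat hζF hζ hζlam θ hθp σ hσv hσF hσθ Z a b hZ haF ha0
    hb hθZ hτ) n le_rfl).2 z (by rw [Lvl_top]; exact hz) hz1 (fun j _ => hzσ j)

/-- **Cyclic step** ("très ramifié"): if `θ₀ ^ p ∈ F₀`, `v (θ₀ / lam) = ϖ⁻¹` with the value
group of `F₀` generated by `ϖ ^ p`, and `σ₀ θ₀ = ζ * θ₀`, then every integral element of
`F₀(θ₀)` is moved by `σ₀` by less than `lam`. -/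
theorem cyclic_moved {p : ℕ} (hp : p ≠ 0) {F₀ : Subfield K} {ϖ : Γ₀} {lam ζ θ₀ : K}
    (hϖ0 : ϖ ≠ 0) (hϖ1 : ϖ < 1) (hF₀ : ValIn v F₀ (ϖ ^ p)) (hlam0 : lam ≠ 0) (hlamF : lam ∈ F₀)
    (hθ₀ : v (θ₀ / lam) = ϖ⁻¹) (hθ₀p : θ₀ ^ p ∈ F₀)
    (hζlam : ∀ j : ℕ, v (ζ ^ j - 1) ≤ v lam)
    (σ₀ : K →+* K) (hσ₀F : ∀ x ∈ F₀, σ₀ x = x) (hσ₀θ₀ : σ₀ θ₀ = ζ * θ₀)
    {z : K} (hz : z ∈ Subfield.closure ((F₀ : Set K) ∪ {θ₀})) (hz1 : v z ≤ 1) :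
    v (σ₀ z - z) < v lam := by
  set Z : K := θ₀ / lam with hZdef
  have hθZ : θ₀ = lam * Z + 0 := by rw [hZdef, add_zero, mul_div_cancel₀ _ hlam0]
  have hle : Subfield.closure ((F₀ : Set K) ∪ {θ₀}) ≤ Subfield.closure ((F₀ : Set K) ∪ {Z}) := by
    rw [Subfield.closure_le]
    rintro y (hy | hy)
    · exact Subfield.subset_closure (Or.inl hy)
    · rw [Set.mem_singleton_iff] at hy
      rw [hy, hθZ, add_zero]
      exact Subfield.mul_mem _ (Subfield.subset_closure (Or.inl hlamF))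
        (Subfield.subset_closure (Or.inr rfl))
  obtain ⟨c, hc, rfl⟩ := exists_repr hp hlamF hlam0 (Subfield.zero_mem F₀) hθ₀p
    (by rw [← hθZ]) (hle hz)
  have hσZ : σ₀ Z = ζ * Z := by
    rw [hZdef, map_div₀, hσ₀θ₀, hσ₀F _ hlamF, mul_div_assoc]
  have hlamv : v lam ≠ 0 := (Valuation.ne_zero_iff v).mpr hlam0
  have hsum : σ₀ (∑ e ∈ range p, c e * Z ^ e) - ∑ e ∈ range p, c e * Z ^ e =
      ∑ e ∈ range p, (ζ ^ e - 1) * (c e * Z ^ e) := by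
    rw [map_sum, ← sum_sub_distrib]
    refine sum_congr rfl (fun e _ => ?_)
    rw [map_mul, map_pow, hσ₀F _ (hc e), hσZ]
    ring
  rw [hsum]
  refine Valuation.map_sum_lt v hlamv (fun e he => ?_)
  rw [mem_range] at he
  rcases Nat.eq_zero_or_pos e with rfl | he0
  · rw [pow_zero, sub_self, zero_mul, map_zero]
    exact zero_lt_iff.mpr hlamv
  have hle1 : v (c e * Z ^ e) ≤ 1 := term_le_of_sum_le v hp hϖ0 hϖ1 hF₀ hθ₀ hc hz1 he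
  have hlt1 : v (c e * Z ^ e) < 1 := by
    refine lt_of_le_of_ne hle1 (fun h1 => ?_)
    have hce : c e ≠ 0 := by
      intro h0
      rw [h0, zero_mul, map_zero] at h1
      exact zero_ne_one h1
    obtain ⟨m, hm⟩ := hF₀.exists_mul v (hc e) hce
    rw [val_term v hϖ0 hθ₀ hm, ← zpow_zero ϖ] at h1
    have h2 := zpow_inj_of_lt_one hϖ0 hϖ1 h1
    have h3 : (p : ℤ) ∣ (e : ℤ) := ⟨m, by linarith⟩
    have h4 := Int.le_of_dvd (by exact_mod_cast he0) h3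
    omega
  rw [map_mul]
  calc v (ζ ^ e - 1) * v (c e * Z ^ e) ≤ v lam * v (c e * Z ^ e) := mul_le_mul' (hζlam e) le_rfl
    _ < v lam := mul_lt_of_lt_one_right (zero_lt_iff.mpr hlamv) hlt1

end Fermat.Agent.Padic.S33.AS
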