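/-
Artin–Schreier generators of Kummer extensions (Mathlib only).

`K` a field with a valuation `v`, `p` a prime with `v p < 1`, `lam` with
`v p * v lam = v lam ^ p` (e.g. `lam = ζ - 1`, `ζ` a primitive `p`-th root of unity).  For
`θ ^ p = 1 + p * b` (`b` integral) the element `gen lam θ = (θ - 1) / lam` satisfies
`gen ^ p = ν * gen - ν * b / lam + (integral)`, `ν = nu p lam` a unit; for integral
combinations `𝒴_c = ∑ l, c l * gen lam (θ l)`:
`𝒴_c ^ p = ν * 𝒴_{c^p} - ν * (∑ l, c l ^ p * b l) / lam + (integral)` (`comb_eq`), hence the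
valuation of `𝒴_c` is determined by the first Frobenius form `∑ l, c l ^ p ^ j * b l` which is a
unit (`depth_val`).  Variant with one extra generator `θ₀ / lam`, `θ₀ ^ p = p * u₀`
(`tres_depth_val`).
-/
import Mathlib
import Fermat.Agent.Padic.S33.ASTower

set_option autoImplicit false

namespace Fermat.Agent.Padic.S33.AS

open Finset

variable {K : Type*} [Field K] {Γ₀ : Type*} [LinearOrderedCommGroupWithZero Γ₀]
  (v : Valuation K Γ₀)

theorem val_intCast_le_one (z : ℤ) : v (z : K) ≤ 1 := by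
  obtain ⟨n, rfl | rfl⟩ := Int.eq_nat_or_neg z
  · rw [Int.cast_natCast]; exact val_natCast_le_one v n
  · rw [Int.cast_neg, Int.cast_natCast, Valuation.map_neg]; exact val_natCast_le_one v n

section Cyclo

variable {p : ℕ}

theorem val_natCast_eq_one (hp : p.Prime) (hvp : v (p : K) < 1) {e : ℕ} (h0 : 0 < e)
    (he : e < p) : v (e : K) = 1 := by
  refine le_antisymm (val_natCast_le_one v e) (not_lt.mp (fun hlt => ?_))
  have hcop : Nat.Coprime e p :=
    Nat.Coprime.symm ((Nat.Prime.coprime_iff_not_dvd hp).mpr (Nat.not_dvd_of_pos_of_lt h0 he))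
  obtain ⟨x, y, hxy⟩ := Nat.isCoprime_iff_coprime.mpr hcop
  have h1 : (x : K) * (e : K) + (y : K) * (p : K) = 1 := by
    exact_mod_cast congrArg (Int.cast : ℤ → K) hxy
  have h2 : v ((x : K) * (e : K) + (y : K) * (p : K)) < 1 := by
    refine lt_of_le_of_lt (v.map_add _ _) (max_lt ?_ ?_)
    · rw [map_mul]
      exact lt_of_le_of_lt (mul_le_of_le_one_left' (val_intCast_le_one v x)) hlt
    · rw [map_mul]
      exact lt_of_le_of_lt (mul_le_of_le_one_left' (val_intCast_le_one v y)) hvp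
  rw [h1, map_one] at h2
  exact lt_irrefl _ h2

variable {ζ : K}

theorem val_zeta (hp : p ≠ 0) (hζ : ζ ^ p = 1) : v ζ = 1 := by
  apply pow_inj_val hp
  rw [← map_pow, hζ, map_one, one_pow]

theorem val_zeta_pow_sub_one_le (hp : p ≠ 0) (hζ : ζ ^ p = 1) (j : ℕ) :
    v (ζ ^ j - 1) ≤ v (ζ - 1) := by
  rw [← geom_sum_mul ζ j, map_mul]
  refine mul_le_of_le_one_left' (v.map_sum_le (fun i _ => ?_))
  rw [map_pow, val_zeta v hp hζ, one_pow]

theorem val_p_eq (hp : p.Prime) (hζ : ζ ^ p = 1) (hζ1 : ζ ≠ 1) :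
    v (p : K) = v (ζ - 1) ^ (p - 1) := by
  have : Fact p.Prime := ⟨hp⟩
  have : NeZero p := ⟨hp.ne_zero⟩
  have hprim : IsPrimitiveRoot ζ p := by
    have h := orderOf_eq_prime hζ hζ1
    rw [← h]; exact IsPrimitiveRoot.orderOf ζ
  have h1 : (p : K) = ∏ μ ∈ primitiveRoots p K, (1 - μ) := by
    have h := congrArg (Polynomial.eval 1)
      (Polynomial.cyclotomic_eq_prod_X_sub_primitiveRoots hprim)
    rw [Polynomial.eval_one_cyclotomic_prime, Polynomial.eval_prod] at h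
    rw [h]
    refine Finset.prod_congr rfl (fun μ _ => ?_)
    simp
  have h2 : ∀ μ ∈ primitiveRoots p K, v (1 - μ) = v (ζ - 1) := by
    intro μ hμ
    have hμ' : IsPrimitiveRoot μ p := (mem_primitiveRoots hp.pos).mp hμ
    obtain ⟨j, _, rfl⟩ := hprim.eq_pow_of_pow_eq_one hμ'.pow_eq_one
    obtain ⟨m, _, hm⟩ := hμ'.eq_pow_of_pow_eq_one hζ
    rw [← neg_sub, Valuation.map_neg]
    refine le_antisymm (val_zeta_pow_sub_one_le v hp.ne_zero hζ j) ?_
    have := val_zeta_pow_sub_one_le v hp.ne_zero hμ'.pow_eq_one m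
    rwa [hm] at this
  rw [h1, map_prod, Finset.prod_congr rfl h2, Finset.prod_const, hprim.card_primitiveRoots,
    Nat.totient_prime hp]

end Cyclo

/-- The data `(p, lam)`: `p` a prime with `v p < 1` and `lam ≠ 0` with
`v p * v lam = v lam ^ p`. -/
structure LamData (p : ℕ) (lam : K) : Prop where
  prime : p.Prime
  vp : v (p : K) < 1
  ne : lam ≠ 0
  eq : v (p : K) * v lam = v lam ^ p

theorem lamData_zeta {p : ℕ} {ζ : K} (hp : p.Prime) (hvp : v (p : K) < 1) (hζ : ζ ^ p = 1)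
    (hζ1 : ζ ≠ 1) : LamData v p (ζ - 1) where
  prime := hp
  vp := hvp
  ne := sub_ne_zero.mpr hζ1
  eq := by rw [val_p_eq v hp hζ hζ1, ← pow_succ, Nat.sub_add_cancel hp.pos]

namespace LamData

variable {v} {p : ℕ} {lam : K} (h : LamData v p lam)
include h

theorem lam_pos : 0 < v lam := zero_lt_iff.mpr ((Valuation.ne_zero_iff v).mpr h.ne)

theorem lam_lt : v lam < 1 := by
  by_contra hcon
  have h1 : v lam ≤ v lam ^ p := le_self_pow₀ (not_lt.mp hcon) h.prime.ne_zero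
  rw [← h.eq] at h1
  exact absurd h1 (not_le.mpr (mul_lt_of_lt_one_left h.lam_pos h.vp))

theorem p_le : v (p : K) ≤ v lam := by
  have h1 : v (p : K) * v lam ≤ v lam * v lam := by
    rw [h.eq, ← sq]
    exact pow_le_pow_of_le_one zero_le h.lam_lt.le h.prime.two_le
  exact le_of_mul_le_mul_right h1 h.lam_pos

theorem p_pos : 0 < v (p : K) := by
  rw [zero_lt_iff]
  intro h0
  have h1 := h.eq
  rw [h0, zero_mul] at h1
  exact (pow_ne_zero p h.lam_pos.ne') h1.symm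

theorem p_div : v (p : K) / v lam ^ p = (v lam)⁻¹ := by
  rw [← h.eq, div_eq_mul_inv, mul_inv, ← mul_assoc, mul_inv_cancel₀ h.p_pos.ne', one_mul]

theorem p_mul_inv_le : v (p : K) * (v lam)⁻¹ ≤ 1 := by
  calc v (p : K) * (v lam)⁻¹ ≤ v lam * (v lam)⁻¹ := mul_le_mul' h.p_le le_rfl
    _ = 1 := mul_inv_cancel₀ h.lam_pos.ne'

theorem one_lt_inv : 1 < (v lam)⁻¹ := (one_lt_inv₀ h.lam_pos).mpr h.lam_lt

end LamData

section Binom

variable {p : ℕ}

theorem sum_range_peel (f : ℕ → K) {p : ℕ} (hp : 0 < p) :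
    ∑ m ∈ range (p + 1), f m = f 0 + ∑ m ∈ range (p - 1), f (m + 1) + f p := by
  obtain ⟨q, rfl⟩ : ∃ q, p = q + 1 := ⟨p - 1, by omega⟩
  rw [Finset.sum_range_succ, Finset.sum_range_succ', Nat.add_sub_cancel]
  ring

theorem sum_range_peel2 (f : ℕ → K) {p : ℕ} (hp : 2 ≤ p) :
    ∑ m ∈ range (p + 1), f m = f 0 + f 1 + ∑ m ∈ range (p - 2), f (m + 2) + f p := by
  obtain ⟨q, rfl⟩ : ∃ q, p = q + 2 := ⟨p - 2, by omega⟩
  rw [Finset.sum_range_succ, Finset.sum_range_succ', Finset.sum_range_succ', Nat.add_sub_cancel]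
  ring

theorem val_choose_le (hp : p.Prime) {m : ℕ} (h0 : m ≠ 0) (hm : m < p) :
    v ((p.choose m : ℕ) : K) ≤ v (p : K) := by
  obtain ⟨t, ht⟩ := hp.dvd_choose_self h0 hm
  rw [ht, Nat.cast_mul, map_mul]
  exact mul_le_of_le_one_right' (val_natCast_le_one v t)

theorem pow_mul_pow_le {a b B : Γ₀} {i j n : ℕ} (hij : i + j = n) (ha : a ^ n ≤ B)
    (hb : b ^ n ≤ B) : a ^ i * b ^ j ≤ B := by
  rcases le_total a b with h | h
  · calc a ^ i * b ^ j ≤ b ^ i * b ^ j := mul_le_mul' (pow_le_pow_left₀ zero_le h i) le_rfl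
      _ = b ^ n := by rw [← pow_add, hij]
      _ ≤ B := hb
  · calc a ^ i * b ^ j ≤ a ^ i * a ^ j := mul_le_mul' le_rfl (pow_le_pow_left₀ zero_le h j)
      _ = a ^ n := by rw [← pow_add, hij]
      _ ≤ B := ha

/-- `(x + y) ^ p ≡ x ^ p + y ^ p` modulo `p * B`. -/
theorem val_add_pow_sub (hp : p.Prime) (x y : K) {B : Γ₀} (hx : v x ^ p ≤ B)
    (hy : v y ^ p ≤ B) : v ((x + y) ^ p - x ^ p - y ^ p) ≤ v (p : K) * B := by
  have key : (x + y) ^ p - x ^ p - y ^ p =
      ∑ m ∈ range (p - 1), x ^ (m + 1) * y ^ (p - (m + 1)) * (p.choose (m + 1) : K) := by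
    rw [add_pow, sum_range_peel _ hp.pos]
    simp only [pow_zero, Nat.sub_zero, Nat.choose_zero_right, Nat.cast_one, mul_one, one_mul,
      Nat.sub_self, Nat.choose_self]
    ring
  rw [key]
  refine v.map_sum_le (fun m hm => ?_)
  rw [mem_range] at hm
  rw [map_mul, map_mul, map_pow, map_pow, mul_comm]
  exact mul_le_mul' (val_choose_le v hp (Nat.succ_ne_zero m) (by omega))
    (pow_mul_pow_le (by omega) hx hy)

theorem val_sum_pow_le {ι : Type*} (s : Finset ι) (x : ι → K) {B : Γ₀} {n : ℕ} (hn : n ≠ 0)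
    (hx : ∀ i ∈ s, v (x i) ^ n ≤ B) : v (∑ i ∈ s, x i) ^ n ≤ B := by
  rcases s.eq_empty_or_nonempty with rfl | hs
  · simp [zero_pow hn]
  · obtain ⟨i₀, hi₀, hmax⟩ := Finset.exists_max_image s (fun i => v (x i)) hs
    exact (pow_le_pow_left₀ zero_le (v.map_sum_le hmax) n).trans (hx i₀ hi₀)

/-- `(∑ x i) ^ p ≡ ∑ x i ^ p` modulo `p * B`. -/
theorem val_sum_pow_sub (hp : p.Prime) {ι : Type*} (s : Finset ι) (x : ι → K) {B : Γ₀}
    (hx : ∀ i ∈ s, v (x i) ^ p ≤ B) :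
    v ((∑ i ∈ s, x i) ^ p - ∑ i ∈ s, x i ^ p) ≤ v (p : K) * B := by
  classical
  induction s using Finset.induction_on with
  | empty => simp [zero_pow hp.ne_zero]
  | insert a s ha ih =>
    rw [Finset.sum_insert ha, Finset.sum_insert ha]
    have hS : v (∑ i ∈ s, x i) ^ p ≤ B :=
      val_sum_pow_le v s x hp.ne_zero (fun i hi => hx i (mem_insert_of_mem hi))
    have h1 := val_add_pow_sub v hp (x a) (∑ i ∈ s, x i) (hx a (mem_insert_self a s)) hS
    have h2 := ih (fun i hi => hx i (mem_insert_of_mem hi))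
    have h3 : (x a + ∑ i ∈ s, x i) ^ p - (x a ^ p + ∑ i ∈ s, x i ^ p) =
        ((x a + ∑ i ∈ s, x i) ^ p - x a ^ p - (∑ i ∈ s, x i) ^ p) +
          ((∑ i ∈ s, x i) ^ p - ∑ i ∈ s, x i ^ p) := by ring
    rw [h3]
    exact (v.map_add _ _).trans (max_le h1 h2)

/-- For `θ ^ p = 1 + p * b`: `y = θ - 1` is integral and
`y ^ p + p * y - p * b ≡ 0` modulo `p * y ^ 2`. -/
theorem gen_aux (hp : p.Prime) (hvp : v (p : K) < 1) {θ b : K} (hb : v b ≤ 1)
    (hθ : θ ^ p = 1 + p * b) :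
    v (θ - 1) ≤ 1 ∧ v ((θ - 1) ^ p + p * (θ - 1) - p * b) ≤ v (p : K) * v (θ - 1) ^ 2 := by
  have hθ1 : v θ ≤ 1 := by
    by_contra hcon
    have h1 : 1 < v θ ^ p := one_lt_pow₀ (not_le.mp hcon) hp.ne_zero
    rw [← map_pow, hθ] at h1
    have h2 : v (1 + (p : K) * b) ≤ 1 := (v.map_add _ _).trans (max_le (by rw [map_one])
      (by rw [map_mul]; exact (mul_le_of_le_one_right' hb).trans hvp.le))
    exact absurd h1 (not_lt.mpr h2)
  have hy1 : v (θ - 1) ≤ 1 := (v.map_sub _ _).trans (max_le hθ1 (by rw [map_one]))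
  refine ⟨hy1, ?_⟩
  set y := θ - 1 with hy
  have hθy : θ = y + 1 := by rw [hy]; ring
  have key : y ^ p + p * y - p * b =
      - ∑ m ∈ range (p - 2), y ^ (m + 2) * (p.choose (m + 2) : K) := by
    have h1 : (y + 1) ^ p = 1 + p * b := by rw [← hθy]; exact hθ
    rw [add_pow, sum_range_peel2 _ hp.two_le] at h1
    simp only [one_pow, mul_one, pow_zero, Nat.choose_zero_right, Nat.cast_one, pow_one,
      Nat.choose_one_right, Nat.choose_self] at h1
    linear_combination h1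
  rw [key, Valuation.map_neg]
  refine v.map_sum_le (fun m hm => ?_)
  rw [mem_range] at hm
  rw [map_mul, map_pow, mul_comm]
  refine mul_le_mul' (val_choose_le v hp (by omega) (by omega)) ?_
  rw [pow_add]
  exact mul_le_of_le_one_left' (pow_le_one₀ zero_le hy1)

end Binom

/-- The unit `ν = -p * lam / lam ^ p` (`= -p / lam ^ (p - 1)`). -/
def nu (p : ℕ) (lam : K) : K := -(p : K) * lam / lam ^ p

/-- The Artin–Schreier generator `(θ - 1) / lam`. -/
def gen (lam θ : K) : K := (θ - 1) / lam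

section Gen

variable {v} {p : ℕ} {lam : K} (h : LamData v p lam)
include h

theorem val_nu : v (nu p lam) = 1 := by
  unfold nu
  rw [map_div₀, map_mul, Valuation.map_neg, map_pow, h.eq]
  exact div_self (pow_ne_zero _ h.lam_pos.ne')

theorem gen_pow_le {θ b : K} (hb : v b ≤ 1) (hθ : θ ^ p = 1 + p * b) :
    v (θ - 1) ^ p ≤ v (p : K) := by
  obtain ⟨hy1, hE⟩ := gen_aux v h.prime h.vp hb hθ
  have h1 : (θ - 1) ^ p = ((θ - 1) ^ p + p * (θ - 1) - p * b) + (p * b - p * (θ - 1)) := by ring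
  rw [← map_pow, h1]
  refine (v.map_add _ _).trans (max_le (hE.trans (mul_le_of_le_one_right'
    (pow_le_one₀ zero_le hy1))) ((v.map_sub _ _).trans (max_le ?_ ?_)))
  · rw [map_mul]; exact mul_le_of_le_one_right' hb
  · rw [map_mul]; exact mul_le_of_le_one_right' hy1

theorem gen_sq_le {θ b : K} (hb : v b ≤ 1) (hθ : θ ^ p = 1 + p * b) :
    v (θ - 1) ^ 2 ≤ v lam := by
  have h1 := gen_pow_le h hb hθ
  refine (pow_le_pow_iff_left₀ zero_le zero_le h.prime.ne_zero).mp ?_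
  calc (v (θ - 1) ^ 2) ^ p = (v (θ - 1) ^ p) ^ 2 := by rw [← pow_mul, ← pow_mul, mul_comm]
    _ ≤ v (p : K) ^ 2 := pow_le_pow_left₀ zero_le h1 2
    _ = v (p : K) * v (p : K) := sq _
    _ ≤ v (p : K) * v lam := mul_le_mul' le_rfl h.p_le
    _ = v lam ^ p := h.eq

theorem gen_lt_one {θ b : K} (hb : v b ≤ 1) (hθ : θ ^ p = 1 + p * b) : v (θ - 1) < 1 :=
  lt_one_of_pow_lt_one (lt_of_le_of_lt (gen_pow_le h hb hθ) h.vp)

theorem gen_val_pow_le {θ b : K} (hb : v b ≤ 1) (hθ : θ ^ p = 1 + p * b) :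
    v (gen lam θ) ^ p ≤ (v lam)⁻¹ := by
  unfold gen
  rw [map_div₀, div_pow, ← h.p_div, div_eq_mul_inv, div_eq_mul_inv]
  exact mul_le_mul' (gen_pow_le h hb hθ) le_rfl

/-- The Artin–Schreier equation of a generator, up to an integral error. -/
theorem gen_eq {θ b : K} (hb : v b ≤ 1) (hθ : θ ^ p = 1 + p * b) :
    v (gen lam θ ^ p - nu p lam * gen lam θ + nu p lam * b / lam) ≤ 1 := by
  have hl := h.ne
  have key : gen lam θ ^ p - nu p lam * gen lam θ + nu p lam * b / lam =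
      ((θ - 1) ^ p + p * (θ - 1) - p * b) / lam ^ p := by
    unfold gen nu
    rw [div_pow]
    field_simp
    ring
  rw [key, map_div₀, map_pow, div_le_one₀ (pow_pos h.lam_pos _)]
  calc v ((θ - 1) ^ p + p * (θ - 1) - p * b) ≤ v (p : K) * v (θ - 1) ^ 2 :=
        (gen_aux v h.prime h.vp hb hθ).2
    _ ≤ v (p : K) * v lam := mul_le_mul' le_rfl (gen_sq_le h hb hθ)
    _ = v lam ^ p := h.eq

/-- The extra ("très ramifié") generator: `v (θ₀ / lam) ^ p = (v lam)⁻¹` for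
`θ₀ ^ p = p * u₀`, `u₀` a unit. -/
theorem tres_val {θ₀ u₀ : K} (hθ₀ : θ₀ ^ p = p * u₀) (hu₀ : v u₀ = 1) :
    v (θ₀ / lam) ^ p = (v lam)⁻¹ := by
  rw [← map_pow, div_pow, hθ₀, map_div₀, map_mul, hu₀, mul_one, map_pow]
  exact h.p_div

variable {n : ℕ} (θ b : Fin n → K) (hb : ∀ l, v (b l) ≤ 1) (hθ : ∀ l, θ l ^ p = 1 + p * b l)
include hb hθ

theorem comb_pow_le (c : Fin n → K) (hc : ∀ l, v (c l) ≤ 1) :
    v (∑ l, c l * gen lam (θ l)) ^ p ≤ (v lam)⁻¹ := by
  refine val_sum_pow_le v univ _ h.prime.ne_zero (fun l _ => ?_)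
  rw [map_mul, mul_pow]
  exact (mul_le_of_le_one_left' (pow_le_one₀ zero_le (hc l))).trans
    (gen_val_pow_le h (hb l) (hθ l))

theorem comb_lt (c : Fin n → K) (hc : ∀ l, v (c l) ≤ 1) :
    v (∑ l, c l * gen lam (θ l)) < (v lam)⁻¹ := by
  by_contra hcon
  have h1 := pow_le_pow_left₀ zero_le (not_lt.mp hcon) p
  have h2 := h1.trans (comb_pow_le h θ b hb hθ c hc)
  exact absurd h2 (not_le.mpr (lt_self_pow₀ h.one_lt_inv h.prime.one_lt))

/-- **Artin–Schreier recursion** for integral combinations of generators. -/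
theorem comb_eq (c : Fin n → K) (hc : ∀ l, v (c l) ≤ 1) :
    v ((∑ l, c l * gen lam (θ l)) ^ p - nu p lam * (∑ l, c l ^ p * gen lam (θ l)) +
      nu p lam * (∑ l, c l ^ p * b l) / lam) ≤ 1 := by
  have h1 : v ((∑ l, c l * gen lam (θ l)) ^ p - ∑ l, (c l * gen lam (θ l)) ^ p) ≤ 1 := by
    refine (val_sum_pow_sub v h.prime univ _ (B := (v lam)⁻¹) (fun l _ => ?_)).trans
      h.p_mul_inv_le
    rw [map_mul, mul_pow]
    exact (mul_le_of_le_one_left' (pow_le_one₀ zero_le (hc l))).trans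
      (gen_val_pow_le h (hb l) (hθ l))
  have h2 : ∀ l, v (c l ^ p * (gen lam (θ l) ^ p - nu p lam * gen lam (θ l) +
      nu p lam * b l / lam)) ≤ 1 := by
    intro l
    rw [map_mul, map_pow]
    exact mul_le_one' (pow_le_one₀ zero_le (hc l)) (gen_eq h (hb l) (hθ l))
  have h3 : ∑ l, c l ^ p * (gen lam (θ l) ^ p - nu p lam * gen lam (θ l) +
      nu p lam * b l / lam) = ∑ l, (c l * gen lam (θ l)) ^ p -
        nu p lam * (∑ l, c l ^ p * gen lam (θ l)) + nu p lam * (∑ l, c l ^ p * b l) / lam := by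
    rw [Finset.mul_sum, Finset.mul_sum, Finset.sum_div, ← Finset.sum_sub_distrib,
      ← Finset.sum_add_distrib]
    exact Finset.sum_congr rfl (fun l _ => by ring)
  have key : (∑ l, c l * gen lam (θ l)) ^ p - nu p lam * (∑ l, c l ^ p * gen lam (θ l)) +
      nu p lam * (∑ l, c l ^ p * b l) / lam =
      ((∑ l, c l * gen lam (θ l)) ^ p - ∑ l, (c l * gen lam (θ l)) ^ p) +
        ∑ l, c l ^ p * (gen lam (θ l) ^ p - nu p lam * gen lam (θ l) +
          nu p lam * b l / lam) := by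
    rw [h3]; ring
  rw [key]
  exact (v.map_add _ _).trans (max_le h1 (v.map_sum_le (fun l _ => h2 l)))

/-- **Depth lemma.** If the Frobenius forms `∑ l, c l ^ p ^ j * b l`, `1 ≤ j ≤ m`, are divisible
by `lam` and the `(m+1)`-st is a unit, then `v (∑ l, c l * gen lam (θ l)) ^ p ^ (m + 1)` is
`(v lam)⁻¹`. -/
theorem depth_val (m : ℕ) : ∀ c : Fin n → K, (∀ l, v (c l) ≤ 1) →
    (∀ j, 1 ≤ j → j ≤ m → v (∑ l, c l ^ p ^ j * b l) ≤ v lam) →
    v (∑ l, c l ^ p ^ (m + 1) * b l) = 1 →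
    v (∑ l, c l * gen lam (θ l)) ^ p ^ (m + 1) = (v lam)⁻¹ := by
  induction m with
  | zero =>
    intro c hc _ hA
    rw [zero_add, pow_one] at hA ⊢
    have hE := comb_eq h θ b hb hθ c hc
    have hS' := comb_lt h θ b hb hθ (fun l => c l ^ p) (fun l => by rw [map_pow]; exact pow_le_one₀ zero_le (hc l))
    have hmain : v (-(nu p lam * (∑ l, c l ^ p * b l) / lam)) = (v lam)⁻¹ := by
      rw [Valuation.map_neg, map_div₀, map_mul, val_nu h, hA, one_mul, one_div]
    have hsplit : (∑ l, c l * gen lam (θ l)) ^ p =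
        -(nu p lam * (∑ l, c l ^ p * b l) / lam) +
          (nu p lam * (∑ l, c l ^ p * gen lam (θ l)) +
            ((∑ l, c l * gen lam (θ l)) ^ p - nu p lam * (∑ l, c l ^ p * gen lam (θ l)) +
              nu p lam * (∑ l, c l ^ p * b l) / lam)) := by ring
    rw [← map_pow, hsplit, Valuation.map_add_eq_of_lt_left, hmain]
    rw [hmain]
    refine lt_of_le_of_lt (v.map_add _ _) (max_lt ?_ (lt_of_le_of_lt hE h.one_lt_inv))
    rw [map_mul, val_nu h, one_mul]
    exact hS'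
  | succ m ih =>
    intro c hc hle hA
    have ih' := ih (fun l => c l ^ p) (fun l => by rw [map_pow]; exact pow_le_one₀ zero_le (hc l))
      (fun j h1 hj => by
        have := hle (j + 1) (by omega) (by omega)
        simpa only [← pow_mul, ← pow_succ'] using this)
      (by simpa only [← pow_mul, ← pow_succ'] using hA)
    have hS'gt : 1 < v (∑ l, c l ^ p * gen lam (θ l)) := by
      by_contra hcon
      have h1 := pow_le_one₀ (n := p ^ (m + 1)) zero_le (not_lt.mp hcon)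
      rw [ih'] at h1
      exact absurd h1 (not_le.mpr h.one_lt_inv)
    have hE := comb_eq h θ b hb hθ c hc
    have hA1 : v (∑ l, c l ^ p * b l) ≤ v lam := by
      have := hle 1 le_rfl (by omega)
      rwa [pow_one] at this
    have hsplit : (∑ l, c l * gen lam (θ l)) ^ p =
        nu p lam * (∑ l, c l ^ p * gen lam (θ l)) +
          (-(nu p lam * (∑ l, c l ^ p * b l) / lam) +
            ((∑ l, c l * gen lam (θ l)) ^ p - nu p lam * (∑ l, c l ^ p * gen lam (θ l)) +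
              nu p lam * (∑ l, c l ^ p * b l) / lam)) := by ring
    have hrest : v (-(nu p lam * (∑ l, c l ^ p * b l) / lam) +
        ((∑ l, c l * gen lam (θ l)) ^ p - nu p lam * (∑ l, c l ^ p * gen lam (θ l)) +
          nu p lam * (∑ l, c l ^ p * b l) / lam)) ≤ 1 := by
      refine (v.map_add _ _).trans (max_le ?_ hE)
      rw [Valuation.map_neg, map_div₀, map_mul, val_nu h, one_mul]
      exact (div_le_one₀ h.lam_pos).mpr hA1
    have hval : v ((∑ l, c l * gen lam (θ l)) ^ p) = v (∑ l, c l ^ p * gen lam (θ l)) := by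
      have hν : v (nu p lam * (∑ l, c l ^ p * gen lam (θ l))) =
          v (∑ l, c l ^ p * gen lam (θ l)) := by rw [map_mul, val_nu h, one_mul]
      rw [hsplit, Valuation.map_add_eq_of_lt_left, hν]
      rw [hν]
      exact lt_of_le_of_lt hrest hS'gt
    rw [pow_succ', pow_mul, ← map_pow, hval]
    exact ih'

/-- Artin–Schreier recursion with the extra generator. -/
theorem tres_comb_eq {θ₀ u₀ : K} (hθ₀ : θ₀ ^ p = p * u₀) (hu₀ : v u₀ = 1) (c₀ : K)
    (hc₀ : v c₀ ≤ 1) (c : Fin n → K) (hc : ∀ l, v (c l) ≤ 1) :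
    v ((c₀ * (θ₀ / lam) + ∑ l, c l * gen lam (θ l)) ^ p -
      nu p lam * (∑ l, c l ^ p * gen lam (θ l)) +
        nu p lam * (c₀ ^ p * u₀ + ∑ l, c l ^ p * b l) / lam) ≤ 1 := by
  have hl := h.ne
  have h1 : v ((c₀ * (θ₀ / lam) + ∑ l, c l * gen lam (θ l)) ^ p - (c₀ * (θ₀ / lam)) ^ p -
      (∑ l, c l * gen lam (θ l)) ^ p) ≤ 1 := by
    refine (val_add_pow_sub v h.prime _ _ (B := (v lam)⁻¹) ?_
      (comb_pow_le h θ b hb hθ c hc)).trans h.p_mul_inv_le
    rw [map_mul, mul_pow, tres_val h hθ₀ hu₀]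
    exact mul_le_of_le_one_left' (pow_le_one₀ zero_le hc₀)
  have h2 := comb_eq h θ b hb hθ c hc
  have h3 : (c₀ * (θ₀ / lam)) ^ p = -(nu p lam * (c₀ ^ p * u₀) / lam) := by
    rw [mul_pow, div_pow, hθ₀]
    unfold nu
    field_simp
  have key : (c₀ * (θ₀ / lam) + ∑ l, c l * gen lam (θ l)) ^ p -
      nu p lam * (∑ l, c l ^ p * gen lam (θ l)) +
        nu p lam * (c₀ ^ p * u₀ + ∑ l, c l ^ p * b l) / lam =
      ((c₀ * (θ₀ / lam) + ∑ l, c l * gen lam (θ l)) ^ p - (c₀ * (θ₀ / lam)) ^ p -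
        (∑ l, c l * gen lam (θ l)) ^ p) +
      ((∑ l, c l * gen lam (θ l)) ^ p - nu p lam * (∑ l, c l ^ p * gen lam (θ l)) +
        nu p lam * (∑ l, c l ^ p * b l) / lam) := by
    rw [h3]; ring
  rw [key]
  exact (v.map_add _ _).trans (max_le h1 h2)

/-- **Depth lemma with the extra generator.** -/
theorem tres_depth_val {θ₀ u₀ : K} (hθ₀ : θ₀ ^ p = p * u₀) (hu₀ : v u₀ = 1) (m : ℕ) (c₀ : K)
    (hc₀ : v c₀ ≤ 1) (c : Fin n → K) (hc : ∀ l, v (c l) ≤ 1)
    (h0 : v (c₀ ^ p * u₀ + ∑ l, c l ^ p * b l) ≤ v lam)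
    (hle : ∀ j, 1 ≤ j → j ≤ m → v (∑ l, c l ^ p ^ (j + 1) * b l) ≤ v lam)
    (hA : v (∑ l, c l ^ p ^ (m + 2) * b l) = 1) :
    v (c₀ * (θ₀ / lam) + ∑ l, c l * gen lam (θ l)) ^ p ^ (m + 2) = (v lam)⁻¹ := by
  have hd := depth_val h θ b hb hθ m (fun l => c l ^ p) (fun l => by rw [map_pow]; exact pow_le_one₀ zero_le (hc l))
    (fun j h1 hj => by
      have := hle j h1 hj
      simpa only [← pow_mul, ← pow_succ'] using this)
    (by simpa only [← pow_mul, ← pow_succ'] using hA)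
  have hS'gt : 1 < v (∑ l, c l ^ p * gen lam (θ l)) := by
    by_contra hcon
    have h1 := pow_le_one₀ (n := p ^ (m + 1)) zero_le (not_lt.mp hcon)
    rw [hd] at h1
    exact absurd h1 (not_le.mpr h.one_lt_inv)
  have hE := tres_comb_eq h θ b hb hθ hθ₀ hu₀ c₀ hc₀ c hc
  have hsplit : (c₀ * (θ₀ / lam) + ∑ l, c l * gen lam (θ l)) ^ p =
      nu p lam * (∑ l, c l ^ p * gen lam (θ l)) +
        (-(nu p lam * (c₀ ^ p * u₀ + ∑ l, c l ^ p * b l) / lam) +
          ((c₀ * (θ₀ / lam) + ∑ l, c l * gen lam (θ l)) ^ p -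
            nu p lam * (∑ l, c l ^ p * gen lam (θ l)) +
              nu p lam * (c₀ ^ p * u₀ + ∑ l, c l ^ p * b l) / lam)) := by ring
  have hrest : v (-(nu p lam * (c₀ ^ p * u₀ + ∑ l, c l ^ p * b l) / lam) +
      ((c₀ * (θ₀ / lam) + ∑ l, c l * gen lam (θ l)) ^ p -
        nu p lam * (∑ l, c l ^ p * gen lam (θ l)) +
          nu p lam * (c₀ ^ p * u₀ + ∑ l, c l ^ p * b l) / lam)) ≤ 1 := by
    refine (v.map_add _ _).trans (max_le ?_ hE)
    rw [Valuation.map_neg, map_div₀, map_mul, val_nu h, one_mul]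
    exact (div_le_one₀ h.lam_pos).mpr h0
  have hval : v ((c₀ * (θ₀ / lam) + ∑ l, c l * gen lam (θ l)) ^ p) =
      v (∑ l, c l ^ p * gen lam (θ l)) := by
    have hν : v (nu p lam * (∑ l, c l ^ p * gen lam (θ l))) =
        v (∑ l, c l ^ p * gen lam (θ l)) := by rw [map_mul, val_nu h, one_mul]
    rw [hsplit, Valuation.map_add_eq_of_lt_left, hν]
    rw [hν]
    exact lt_of_le_of_lt hrest hS'gt
  rw [show m + 2 = (m + 1) + 1 from rfl, pow_succ', pow_mul, ← map_pow, hval]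
  exact hd

end Gen

end Fermat.Agent.Padic.S33.AS
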