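/-
Semilinear algebra over a perfect field of characteristic `p` (Mathlib only).

For `b : Fin n → k` linearly independent over the prime field, the "Frobenius forms"
`a_j(c) = ∑ l, c l ^ (p ^ j) * b l` (`j ≥ 1`) have no common zero among the first `n` of them
(a Moore determinant statement, proved by descent along `c ↦ c ^ p - c`), and for every `i`
there is a vector supported on `[0, i]` with nonzero `i`-th coordinate killed by `a_1, …, a_i`
but not by `a_{i+1}`.
-/
import Mathlib

set_option autoImplicit false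
set_option linter.unusedSectionVars false

namespace Fermat.Agent.Padic.S33.AS

open Finset

variable {k : Type*} [Field k] (p : ℕ) [Fact p.Prime] [CharP k p] {n : ℕ}

/-- The Frobenius form `a_j(c) = ∑ l, c l ^ (p ^ j) * b l`. -/
def frobForm (b : Fin n → k) (j : ℕ) (c : Fin n → k) : k := ∑ l, c l ^ p ^ j * b l

theorem frobForm_sub (b : Fin n → k) (j : ℕ) (c c' : Fin n → k) :
    frobForm p b j (fun l => c l - c' l) = frobForm p b j c - frobForm p b j c' := by
  unfold frobForm
  rw [← sum_sub_distrib]
  refine sum_congr rfl (fun l _ => ?_)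
  rw [sub_pow_char_pow, sub_mul]

theorem frobForm_pow (b : Fin n → k) (j : ℕ) (c : Fin n → k) :
    frobForm p b j (fun l => c l ^ p) = frobForm p b (j + 1) c := by
  unfold frobForm
  refine sum_congr rfl (fun l _ => ?_)
  rw [← pow_mul, ← pow_succ']

theorem frobForm_div (b : Fin n → k) (j : ℕ) (c : Fin n → k) (a : k) :
    frobForm p b j (fun l => c l / a) = frobForm p b j c / a ^ p ^ j := by
  unfold frobForm
  rw [sum_div]
  refine sum_congr rfl (fun l _ => ?_)
  rw [div_pow]
  ring

/-- **Moore independence.** A vector supported on `[0, m)` killed by `a_1, …, a_m` is zero. -/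
theorem eq_zero_of_frobForm (b : Fin n → k)
    (hind : ∀ z : Fin n → ℤ, ∑ i, (z i : k) * b i = 0 → ∀ i, (p : ℤ) ∣ z i) :
    ∀ (m : ℕ) (c : Fin n → k), (∀ l : Fin n, m ≤ (l : ℕ) → c l = 0) →
      (∀ j, 1 ≤ j → j ≤ m → frobForm p b j c = 0) → c = 0 := by
  have hp : p.Prime := Fact.out
  intro m
  induction m with
  | zero => intro c hsupp _; funext l; exact hsupp l (Nat.zero_le _)
  | succ m ih =>
    intro c hsupp hc
    by_cases hm : m < n
    swap
    · exact ih c (fun l hl => absurd l.2 (by omega)) (fun j h1 hj => hc j h1 (by omega))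
    set lm : Fin n := ⟨m, hm⟩ with hlm
    by_cases hcm : c lm = 0
    · refine ih c (fun l hl => ?_) (fun j h1 hj => hc j h1 (by omega))
      rcases Nat.eq_or_lt_of_le hl with h | h
      · have : l = lm := Fin.ext h.symm
        rw [this]; exact hcm
      · exact hsupp l h
    exfalso
    set c' : Fin n → k := fun l => c l / c lm with hc'
    have hc'0 : ∀ j, 1 ≤ j → j ≤ m + 1 → frobForm p b j c' = 0 := by
      intro j h1 hj
      rw [hc', frobForm_div, hc j h1 hj, zero_div]
    have hc'm : c' lm = 1 := div_self hcm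
    set e : Fin n → k := fun l => c' l ^ p - c' l with he
    have he0 : e = 0 := by
      refine ih e (fun l hl => ?_) (fun j h1 hj => ?_)
      · rcases Nat.eq_or_lt_of_le hl with h | h
        · have : l = lm := Fin.ext h.symm
          rw [he]; simp only
          rw [this, hc'm, one_pow, sub_self]
        · rw [he]; simp only
          rw [hc']; simp only
          rw [hsupp l h, zero_div, zero_pow hp.ne_zero, sub_zero]
      · rw [he, frobForm_sub, frobForm_pow, hc'0 (j + 1) (by omega) (by omega),
          hc'0 j h1 (by omega), sub_zero]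
    have hfix : ∀ l, c' l ^ p = c' l := by
      intro l
      have := congrFun he0 l
      rw [he] at this
      exact sub_eq_zero.mp this
    have hint : ∀ l, ∃ z : ℤ, (z : k) = c' l := fun l =>
      (mem_bot_iff_intCast p k).mp ((Subfield.mem_bot_iff_pow_eq_self k p).mpr (hfix l))
    choose z hz using hint
    have h1 : ∑ i, (z i : k) * b i = 0 := by
      have := hc'0 1 le_rfl (by omega)
      unfold frobForm at this
      rw [← this]
      refine sum_congr rfl (fun l _ => ?_)
      rw [pow_one, hfix l, hz l]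
    have h2 := hind z h1 lm
    have h3 : (z lm : k) = 0 := (CharP.intCast_eq_zero_iff k p _).mpr h2
    rw [hz lm, hc'm] at h3
    exact one_ne_zero h3

/-- Iterated `p`-th roots in a perfect field. -/
theorem exists_pow_pow_eq (hperf : ∀ a : k, ∃ r : k, r ^ p = a) (j : ℕ) (a : k) :
    ∃ r : k, r ^ p ^ j = a := by
  induction j generalizing a with
  | zero => exact ⟨a, by simp⟩
  | succ j ih =>
    obtain ⟨r, hr⟩ := hperf a
    obtain ⟨s, hs⟩ := ih r
    exact ⟨s, by rw [pow_succ, pow_mul, hs, hr]⟩

/-- **Depth vectors.** For every `i` there is a vector supported on `[0, i]` with nonzero `i`-th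
coordinate, killed by `a_1, …, a_i` and not by `a_{i+1}`. -/
theorem exists_depth_vector (hperf : ∀ a : k, ∃ r : k, r ^ p = a) (b : Fin n → k)
    (hind : ∀ z : Fin n → ℤ, ∑ i, (z i : k) * b i = 0 → ∀ i, (p : ℤ) ∣ z i) (i : Fin n) :
    ∃ d : Fin n → k, (∀ l, i < l → d l = 0) ∧ d i ≠ 0 ∧
      (∀ j : ℕ, 1 ≤ j → j ≤ (i : ℕ) → frobForm p b j d = 0) ∧
      frobForm p b ((i : ℕ) + 1) d ≠ 0 := by
  classical
  have hroot : ∀ (j : ℕ) (l : Fin n), ∃ r : k, r ^ p ^ j = b l := fun j l =>
    exists_pow_pow_eq p hperf j (b l)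
  choose r hr using hroot
  -- the linear forms
  let ℓ : ℕ → (Fin n → k) →ₗ[k] k := fun j => ∑ l, r j l • LinearMap.proj l
  have hℓ : ∀ j c, ℓ j c = ∑ l, r j l * c l := by
    intro j c
    simp [ℓ, LinearMap.sum_apply]
  have hℓa : ∀ j c, frobForm p b j c = (ℓ j c) ^ p ^ j := by
    intro j c
    rw [hℓ, sum_pow_char_pow]
    unfold frobForm
    refine sum_congr rfl (fun l _ => ?_)
    rw [mul_pow, hr j l, mul_comm]
  let T : (Fin n → k) →ₗ[k] ({t : Fin n // t ≠ i} → k) :=
    LinearMap.pi (fun t => if (t : Fin n) < i then ℓ ((t : ℕ) + 1) else LinearMap.proj (t : Fin n))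
  have hdim : Module.finrank k ({t : Fin n // t ≠ i} → k) < Module.finrank k (Fin n → k) := by
    rw [Module.finrank_fintype_fun_eq_card, Module.finrank_fintype_fun_eq_card,
      Fintype.card_subtype_compl, Fintype.card_fin]
    simp only [Fintype.card_subtype, filter_eq', mem_univ, if_true, card_singleton]
    have := i.2
    omega
  obtain ⟨c, hcker, hc0⟩ := (Submodule.ne_bot_iff _).mp (LinearMap.ker_ne_bot_of_finrank_lt (f := T) hdim)
  have hT : ∀ t : {t : Fin n // t ≠ i},
      (if (t : Fin n) < i then ℓ ((t : ℕ) + 1) else LinearMap.proj (t : Fin n)) c = 0 := by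
    intro t
    have := congrFun (LinearMap.mem_ker.mp hcker) t
    simpa [T] using this
  have hsupp : ∀ l, i < l → c l = 0 := by
    intro l hl
    have := hT ⟨l, hl.ne'⟩
    rw [if_neg (not_lt.mpr hl.le)] at this
    simpa using this
  have hkill : ∀ j : ℕ, 1 ≤ j → j ≤ (i : ℕ) → frobForm p b j c = 0 := by
    intro j h1 hj
    have hjn : j - 1 < n := by have := i.2; omega
    have hlt : (⟨j - 1, hjn⟩ : Fin n) < i := by
      rw [Fin.lt_def]; simp only; omega
    have := hT ⟨⟨j - 1, hjn⟩, hlt.ne⟩
    rw [if_pos hlt] at this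
    simp only at this
    rw [show j - 1 + 1 = j by omega] at this
    rw [hℓa, this, zero_pow (pow_ne_zero _ (Fact.out : p.Prime).ne_zero)]
  refine ⟨c, hsupp, ?_, hkill, ?_⟩
  · intro hci
    refine hc0 (eq_zero_of_frobForm p b hind (i : ℕ) c (fun l hl => ?_) hkill)
    rcases Nat.eq_or_lt_of_le hl with h | h
    · have : l = i := Fin.ext h.symm
      rw [this]; exact hci
    · exact hsupp l (Fin.lt_def.mpr h)
  · intro hlast
    refine hc0 (eq_zero_of_frobForm p b hind ((i : ℕ) + 1) c (fun l hl => ?_) (fun j h1 hj => ?_))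
    · exact hsupp l (Fin.lt_def.mpr hl)
    · rcases Nat.eq_or_lt_of_le hj with h | h
      · rw [h]; exact hlast
      · exact hkill j h1 (by omega)

end Fermat.Agent.Padic.S33.AS
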