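/-
Artin–Schreier tower lemma for Kummer generators `θ i ^ p = 1 + p * b i` ("peu ramifié"
generators), Mathlib only.

Setting: `K` a field with a valuation `v`, `p` a prime with `v p < 1`, `ζ` a primitive `p`-th
root of unity, `F₀` a subfield containing `ζ` whose value group is generated by `v (ζ - 1)`
(think `F₀ = K₀(ζ)`, `K₀` the maximal unramified extension), `R ⊆ F₀` a subring of integral
elements with `v x < 1 → v x ≤ v (ζ - 1)` (think `R = O_{K₀}`) and a surjective residue map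
`red : R →+* k` onto a perfect field, `θ i ^ p = 1 + p * b i` with `b i ∈ F₀` congruent to
elements of `R` modulo `ζ - 1` whose residues are `𝔽_p`-linearly independent, and dual ring
endomorphisms `σ i` (`σ i (θ j) = ζ ^ δ_ij * θ j`, identity on `F₀`, preserving `v`).

* `tower_peu`: an integral `z ∈ F₀(θ 0, …, θ (n-1))` with `v (σ i z - z) < v (ζ - 1)` for all
  `i` is congruent to an integral element of `F₀` modulo elements of valuation `< v (ζ - 1)`.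
* `tower_tres`: the same over the base `F₀(θ₀)`, `θ₀ ^ p = p * u₀` (`u₀` a unit).
* `tower_tres_moved`: in that situation `v (σ₀ z - z) < v (ζ - 1)` for `σ₀` with
  `σ₀ θ₀ = ζ * θ₀` fixing `F₀`.
-/
import Mathlib
import Fermat.Agent.Padic.S33.ASGen
import Fermat.Agent.Padic.S33.FrobSpan

set_option autoImplicit false

namespace Fermat.Agent.Padic.S33.AS

open Finset

variable {K : Type*} [Field K] {Γ₀ : Type*} [LinearOrderedCommGroupWithZero Γ₀]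
  (v : Valuation K Γ₀)

section Aux

variable {v}

theorem fix_closure_singleton {F₀ : Subfield K} {θ₀ : K} (σ : K →+* K)
    (hσF : ∀ x ∈ F₀, σ x = x) (hσθ₀ : σ θ₀ = θ₀) :
    ∀ x ∈ Subfield.closure ((F₀ : Set K) ∪ {θ₀}), σ x = x := by
  intro x hx
  have : Subfield.closure ((F₀ : Set K) ∪ {θ₀}) ≤ RingHom.eqLocusField σ (RingHom.id K) := by
    rw [Subfield.closure_le]
    rintro y (hy | hy)
    · exact hσF y hy
    · rw [Set.mem_singleton_iff] at hy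
      rw [hy]
      exact hσθ₀
  exact this hx

/-- Elements of `F₀(θ₀)`, `θ₀ ^ p ∈ F₀`, as polynomial expressions in `θ₀ / lam`. -/
theorem repr_div {p : ℕ} (hp : p ≠ 0) {F₀ : Subfield K} {lam θ₀ : K} (hlam0 : lam ≠ 0)
    (hlamF : lam ∈ F₀) (hθ₀p : θ₀ ^ p ∈ F₀) {x : K}
    (hx : x ∈ Subfield.closure ((F₀ : Set K) ∪ {θ₀})) :
    ∃ d : ℕ → K, (∀ e, d e ∈ F₀) ∧ x = ∑ e ∈ range p, d e * (θ₀ / lam) ^ e := by
  have hθZ : θ₀ = lam * (θ₀ / lam) + 0 := by rw [add_zero, mul_div_cancel₀ _ hlam0]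
  have hle : Subfield.closure ((F₀ : Set K) ∪ {θ₀}) ≤
      Subfield.closure ((F₀ : Set K) ∪ {θ₀ / lam}) := by
    rw [Subfield.closure_le]
    rintro y (hy | hy)
    · exact Subfield.subset_closure (Or.inl hy)
    · rw [Set.mem_singleton_iff] at hy
      have hy' : y = lam * (θ₀ / lam) := by rw [hy, mul_div_cancel₀ _ hlam0]
      rw [hy']
      exact Subfield.mul_mem _ (Subfield.subset_closure (Or.inl hlamF))
        (Subfield.subset_closure (Or.inr rfl))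
  exact exists_repr hp hlamF hlam0 (Subfield.zero_mem F₀) hθ₀p (by rw [← hθZ]) (hle hx)

/-- The affine relation `θ i = a * Z + bt` between a generator and a depth element
`Z = W / lam + ∑ l, d l * gen lam (θ l)` (`d` supported on `[0, i]`, `d i` a unit). -/
theorem affine_data {F₀ : Subfield K} {lam : K} (hlam0 : lam ≠ 0) (hlamF : lam ∈ F₀) {n : ℕ}
    (θ : Fin n → K) (hθ1 : ∀ l, v (θ l - 1) < 1) (i : Fin n)
    (W : K) (hWF : W ∈ Lvl F₀ θ i) (hW : v W < 1) (d : Fin n → K) (hdF : ∀ l, d l ∈ F₀)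
    (hd1 : ∀ l, v (d l) ≤ 1) (hsupp : ∀ l, i < l → d l = 0) (hdi : v (d i) = 1) :
    ∃ a bt : K, a ∈ F₀ ∧ a ≠ 0 ∧ bt ∈ Lvl F₀ θ i ∧
      θ i = a * (W / lam + ∑ l, d l * gen lam (θ l)) + bt ∧ v (lam * bt / a) = 1 := by
  classical
  have hdi0 : d i ≠ 0 := by
    intro h0
    rw [h0, map_zero] at hdi
    exact zero_ne_one hdi
  set rest : K := ∑ l ∈ univ.erase i, d l * (θ l - 1) with hrest
  have hlamZ : lam * (W / lam + ∑ l, d l * gen lam (θ l)) =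
      W + (d i * (θ i - 1) + rest) := by
    rw [mul_add, mul_div_cancel₀ _ hlam0, Finset.mul_sum, hrest,
      Finset.add_sum_erase univ (fun l => d l * (θ l - 1)) (mem_univ i)]
    congr 1
    refine Finset.sum_congr rfl (fun l _ => ?_)
    unfold gen
    field_simp
  have hrestF : rest ∈ Lvl F₀ θ i := by
    refine Subfield.sum_mem _ (fun l hl => ?_)
    rcases lt_trichotomy l i with h | h | h
    · exact Subfield.mul_mem _ (le_Lvl F₀ θ i (hdF l))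
        (Subfield.sub_mem _ (gen_mem_Lvl F₀ θ (Fin.lt_def.mp h)) (Subfield.one_mem _))
    · exact absurd h (Finset.ne_of_mem_erase hl)
    · rw [hsupp l h, zero_mul]
      exact Subfield.zero_mem _
  have hrestv : v rest < 1 := by
    refine Valuation.map_sum_lt v one_ne_zero (fun l _ => ?_)
    rw [map_mul]
    exact lt_of_le_of_lt (mul_le_of_le_one_left' (hd1 l)) (hθ1 l)
  refine ⟨lam / d i, 1 - (W + rest) / d i, Subfield.div_mem _ hlamF (hdF i),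
    div_ne_zero hlam0 hdi0, ?_, ?_, ?_⟩
  · exact Subfield.sub_mem _ (Subfield.one_mem _)
      (Subfield.div_mem _ (Subfield.add_mem _ hWF hrestF) (le_Lvl F₀ θ i (hdF i)))
  · have h1 : lam / d i * (W / lam + ∑ l, d l * gen lam (θ l)) =
        (W + (d i * (θ i - 1) + rest)) / d i := by
      rw [← hlamZ]; ring
    rw [h1]
    field_simp
    ring
  · have h1 : lam * (1 - (W + rest) / d i) / (lam / d i) = d i * (1 - (W + rest) / d i) := by
      field_simp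
    rw [h1, map_mul, hdi, one_mul]
    apply Valuation.map_one_sub_of_lt
    rw [map_div₀, hdi, div_one]
    exact lt_of_le_of_lt (v.map_add _ _) (max_lt hW hrestv)

variable {R : Subring K} {k : Type*} [Field k] {lam : K}

/-- Residue criterion: for `A ≡ S` modulo `lam` with `S ∈ R`, `A` is divisible by `lam` if the
residue of `S` vanishes, and a unit otherwise. -/
theorem val_of_red (hR1 : ∀ x ∈ R, v x ≤ 1) (hR2 : ∀ x ∈ R, v x < 1 → v x ≤ v lam)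
    (red : R →+* k) (hker : ∀ x : R, red x = 0 ↔ v (x : K) < 1) (hlam1 : v lam < 1) (S : R)
    {A : K} (hA : v (A - S) ≤ v lam) :
    (red S = 0 → v A ≤ v lam) ∧ (red S ≠ 0 → v A = 1) := by
  have hAS : A = (S : K) + (A - S) := by ring
  constructor
  · intro h0
    rw [hAS]
    exact (v.map_add _ _).trans (max_le (hR2 _ S.2 ((hker S).mp h0)) hA)
  · intro h0
    have h1 : v (S : K) = 1 :=
      le_antisymm (hR1 _ S.2) (not_lt.mp (fun h => h0 ((hker S).mpr h)))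
    rw [hAS, Valuation.map_add_eq_of_lt_left, h1]
    rw [h1]
    exact lt_of_le_of_lt hA hlam1

/-- Residue criterion for the Frobenius forms. -/
theorem val_form_of_red (p : ℕ) (hR1 : ∀ x ∈ R, v x ≤ 1)
    (hR2 : ∀ x ∈ R, v x < 1 → v x ≤ v lam)
    (red : R →+* k) (hker : ∀ x : R, red x = 0 ↔ v (x : K) < 1) (hlam1 : v lam < 1) {n : ℕ}
    (b : Fin n → K) (b' : Fin n → R) (hbb' : ∀ i, v (b i - b' i) ≤ v lam) (d : Fin n → R)
    (j : ℕ) :
    (frobForm p (fun l => red (b' l)) j (fun l => red (d l)) = 0 →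
        v (∑ l, (d l : K) ^ p ^ j * b l) ≤ v lam) ∧
      (frobForm p (fun l => red (b' l)) j (fun l => red (d l)) ≠ 0 →
        v (∑ l, (d l : K) ^ p ^ j * b l) = 1) := by
  have hredS : frobForm p (fun l => red (b' l)) j (fun l => red (d l)) =
      red (∑ l, d l ^ p ^ j * b' l) := by
    unfold frobForm
    rw [map_sum]
    exact Finset.sum_congr rfl (fun l _ => by rw [map_mul, map_pow])
  rw [hredS]
  refine val_of_red hR1 hR2 red hker hlam1 _ ?_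
  have h1 : ∑ l, (d l : K) ^ p ^ j * b l - ((∑ l, d l ^ p ^ j * b' l : R) : K) =
      ∑ l, (d l : K) ^ p ^ j * (b l - b' l) := by
    push_cast
    rw [← Finset.sum_sub_distrib]
    exact Finset.sum_congr rfl (fun l _ => by ring)
  rw [h1]
  refine v.map_sum_le (fun l _ => ?_)
  rw [map_mul, map_pow]
  exact (mul_le_of_le_one_left' (pow_le_one₀ zero_le (hR1 _ (d l).2))).trans (hbb' l)

/-- Lifting a vector supported on `[0, i]` along the residue map, with the same support. -/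
theorem exists_lift (red : R →+* k) (hred : Function.Surjective red) {n : ℕ} (i : Fin n)
    (dbar : Fin n → k) (hsupp : ∀ l, i < l → dbar l = 0) :
    ∃ d : Fin n → R, (∀ l, i < l → d l = 0) ∧ (fun l => red (d l)) = dbar := by
  classical
  choose lift hlift using hred
  refine ⟨fun l => if i < l then 0 else lift (dbar l), fun l hl => if_pos hl,
    funext (fun l => ?_)⟩
  by_cases hl : i < l
  · simp only [if_pos hl, map_zero]
    exact (hsupp l hl).symm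
  · simp only [if_neg hl]
    exact hlift _

/-- Independence of the residues from the valuation form of the independence hypothesis. -/
theorem hind_red {p : ℕ} (red : R →+* k)
    (hker : ∀ x : R, red x = 0 ↔ v (x : K) < 1) (hlam1 : v lam < 1) {n : ℕ}
    (b : Fin n → K) (b' : Fin n → R) (hbb' : ∀ i, v (b i - b' i) ≤ v lam)
    (hind : ∀ m : Fin n → ℤ, v (∑ i, (m i : K) * b i) < 1 → ∀ i, (p : ℤ) ∣ m i) :
    ∀ m : Fin n → ℤ, ∑ i, (m i : k) * red (b' i) = 0 → ∀ i, (p : ℤ) ∣ m i := by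
  intro m hm
  apply hind m
  have h1 : red (∑ i, (m i : R) * b' i) = 0 := by
    rw [map_sum, ← hm]
    exact Finset.sum_congr rfl (fun i _ => by rw [map_mul, map_intCast])
  have h2 := (hker _).mp h1
  have h3 : ∑ i, (m i : K) * b i =
      ((∑ i, (m i : R) * b' i : R) : K) + ∑ i, (m i : K) * (b i - b' i) := by
    push_cast
    rw [← Finset.sum_add_distrib]
    exact Finset.sum_congr rfl (fun i _ => by ring)
  rw [h3]
  refine lt_of_le_of_lt (v.map_add _ _) (max_lt h2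
    (lt_of_le_of_lt (v.map_sum_le (fun i _ => ?_)) hlam1))
  rw [map_mul]
  exact (mul_le_of_le_one_left' (val_intCast_le_one v _)).trans (hbb' i)

theorem val_le_of_approx (hR1 : ∀ x ∈ R, v x ≤ 1) (hlam1 : v lam < 1) {x : K} (x' : R)
    (h : v (x - x') ≤ v lam) : v x ≤ 1 := by
  have h1 : x = (x - x') + x' := by ring
  rw [h1]
  exact (v.map_add _ _).trans (max_le (h.trans hlam1.le) (hR1 _ x'.2))

/-- The base of the "très ramifié" tower. -/
theorem tres_base {p : ℕ} (hL : LamData v p lam) {θ₀ u₀ : K} (hθ₀ : θ₀ ^ p = p * u₀)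
    (hu₀ : v u₀ = 1) :
    ∃ ϖ₀ : Γ₀, ϖ₀ ≠ 0 ∧ ϖ₀ < 1 ∧ ϖ₀ ^ p = v lam ∧ v (θ₀ / lam) = ϖ₀⁻¹ := by
  have ht₀p : v (θ₀ / lam) ^ p = (v lam)⁻¹ := tres_val hL hθ₀ hu₀
  have hϖ₀p : (v (θ₀ / lam))⁻¹ ^ p = v lam := by rw [inv_pow, ht₀p, inv_inv]
  refine ⟨(v (θ₀ / lam))⁻¹, ?_, ?_, hϖ₀p, (inv_inv _).symm⟩
  · intro h0
    rw [h0, zero_pow hL.prime.ne_zero] at hϖ₀p
    exact hL.lam_pos.ne' hϖ₀p.symm
  · exact lt_one_of_pow_lt_one (by rw [hϖ₀p]; exact hL.lam_lt)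

end Aux

/-- **Tower lemma, peu ramifié generators.** -/
theorem tower_peu {p : ℕ} (hp : p.Prime) (hvp : v (p : K) < 1) {ζ : K} (hζ : ζ ^ p = 1)
    (hζ1 : ζ ≠ 1) {F₀ : Subfield K} (hζF : ζ ∈ F₀) (hF₀ : ValIn v F₀ (v (ζ - 1)))
    (R : Subring K) (hRF : ∀ x ∈ R, x ∈ F₀) (hR1 : ∀ x ∈ R, v x ≤ 1)
    (hR2 : ∀ x ∈ R, v x < 1 → v x ≤ v (ζ - 1))
    {k : Type*} [Field k] [CharP k p] (red : R →+* k) (hred : Function.Surjective red)
    (hker : ∀ x : R, red x = 0 ↔ v (x : K) < 1) (hperf : ∀ a : k, ∃ r : k, r ^ p = a)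
    {n : ℕ} (θ b : Fin n → K) (hbF : ∀ i, b i ∈ F₀) (hθ : ∀ i, θ i ^ p = 1 + p * b i)
    (b' : Fin n → R) (hbb' : ∀ i, v (b i - b' i) ≤ v (ζ - 1))
    (hind : ∀ m : Fin n → ℤ, v (∑ i, (m i : K) * b i) < 1 → ∀ i, (p : ℤ) ∣ m i)
    (σ : Fin n → K →+* K) (hσv : ∀ i x, v (σ i x) = v x) (hσF : ∀ i, ∀ x ∈ F₀, σ i x = x)
    (hσθ : ∀ i j, σ i (θ j) = if i = j then ζ * θ j else θ j)
    {z : K} (hz : z ∈ Subfield.closure ((F₀ : Set K) ∪ Set.range θ)) (hz1 : v z ≤ 1)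
    (hzσ : ∀ i, v (σ i z - z) < v (ζ - 1)) :
    ∃ c ∈ F₀, v c ≤ 1 ∧ v (z - c) < v (ζ - 1) := by
  classical
  have : Fact p.Prime := ⟨hp⟩
  have hL : LamData v p (ζ - 1) := lamData_zeta v hp hvp hζ hζ1
  have hlamF : ζ - 1 ∈ F₀ := Subfield.sub_mem _ hζF (Subfield.one_mem _)
  have hb1 : ∀ l, v (b l) ≤ 1 := fun l => val_le_of_approx hR1 hL.lam_lt (b' l) (hbb' l)
  have hindβ := hind_red red hker hL.lam_lt b b' hbb' hind
  have hdv : ∀ i : Fin n, ∃ d : Fin n → R, (∀ l, i < l → d l = 0) ∧ v (d i : K) = 1 ∧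
      (∀ j : ℕ, 1 ≤ j → j ≤ (i : ℕ) → v (∑ l, (d l : K) ^ p ^ j * b l) ≤ v (ζ - 1)) ∧
      v (∑ l, (d l : K) ^ p ^ ((i : ℕ) + 1) * b l) = 1 := by
    intro i
    obtain ⟨dbar, hsupp, hdi, hkill, hlast⟩ :=
      exists_depth_vector p hperf (fun l => red (b' l)) hindβ i
    obtain ⟨d, hd0, hdred⟩ := exists_lift red hred i dbar hsupp
    refine ⟨d, hd0, ?_, fun j h1 hj => ?_, ?_⟩
    · refine le_antisymm (hR1 _ (d i).2) (not_lt.mp (fun h => hdi ?_))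
      rw [← hdred]
      exact (hker _).mpr h
    · exact (val_form_of_red p hR1 hR2 red hker hL.lam_lt b b' hbb' d j).1
        (by rw [hdred]; exact hkill j h1 hj)
    · exact (val_form_of_red p hR1 hR2 red hker hL.lam_lt b b' hbb' d ((i : ℕ) + 1)).2
        (by rw [hdred]; exact hlast)
  choose d hd0 hdi hdle hdA using hdv
  have hθ1 : ∀ l, v (θ l - 1) < 1 := fun l => gen_lt_one hL (hb1 l) (hθ l)
  have haff := fun i : Fin n => affine_data (v := v) hL.ne hlamF θ hθ1 i 0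
    (Subfield.zero_mem _) (by rw [map_zero]; exact zero_lt_one) (fun l => (d i l : K))
    (fun l => hRF _ (d i l).2) (fun l => hR1 _ (d i l).2)
    (fun l hl => by rw [hd0 i l hl]; rfl) (hdi i)
  choose a bt haF ha0 hbt hθZ hτ using haff
  refine tower_approx_top v hp.ne_zero (ϖ₀ := v (ζ - 1)) (M := 1) hL.lam_pos.ne' hL.lam_lt hF₀
    (pow_one _).symm (fun e => val_natCast_eq_one v hp hvp) hζF (val_zeta v hp.ne_zero hζ)
    (val_zeta_pow_sub_one_le v hp.ne_zero hζ) θ (fun i => ?_) σ hσv hσF hσθ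
    (fun i => 0 / (ζ - 1) + ∑ l, (d i l : K) * gen (ζ - 1) (θ l)) a bt (fun i => ?_) haF ha0
    hbt hθZ hτ hz hz1 hzσ
  · rw [hθ i]
    exact Subfield.add_mem _ (Subfield.one_mem _) (Subfield.mul_mem _ (natCast_mem F₀ p) (hbF i))
  · rw [zero_div, zero_add]
    exact depth_val hL θ b hb1 hθ i (fun l => (d i l : K)) (fun l => hR1 _ (d i l).2)
      (hdle i) (hdA i)

/-- **Tower lemma over the très ramifié base** `F₀(θ₀)`, `θ₀ ^ p = p * u₀`. -/
theorem tower_tres {p : ℕ} (hp : p.Prime) (hvp : v (p : K) < 1) {ζ : K} (hζ : ζ ^ p = 1)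
    (hζ1 : ζ ≠ 1) {F₀ : Subfield K} (hζF : ζ ∈ F₀) (hF₀ : ValIn v F₀ (v (ζ - 1)))
    (R : Subring K) (hRF : ∀ x ∈ R, x ∈ F₀) (hR1 : ∀ x ∈ R, v x ≤ 1)
    (hR2 : ∀ x ∈ R, v x < 1 → v x ≤ v (ζ - 1))
    {k : Type*} [Field k] [CharP k p] (red : R →+* k) (hred : Function.Surjective red)
    (hker : ∀ x : R, red x = 0 ↔ v (x : K) < 1) (hperf : ∀ a : k, ∃ r : k, r ^ p = a)
    {n : ℕ} (θ b : Fin n → K) (hbF : ∀ i, b i ∈ F₀) (hθ : ∀ i, θ i ^ p = 1 + p * b i)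
    (b' : Fin n → R) (hbb' : ∀ i, v (b i - b' i) ≤ v (ζ - 1))
    (hind : ∀ m : Fin n → ℤ, v (∑ i, (m i : K) * b i) < 1 → ∀ i, (p : ℤ) ∣ m i)
    {θ₀ u₀ : K} (hu₀F : u₀ ∈ F₀) (hθ₀ : θ₀ ^ p = p * u₀) (hu₀ : v u₀ = 1) (u₀' : R)
    (hu₀' : v (u₀ - u₀') ≤ v (ζ - 1))
    (σ : Fin n → K →+* K) (hσv : ∀ i x, v (σ i x) = v x) (hσF : ∀ i, ∀ x ∈ F₀, σ i x = x)
    (hσθ₀ : ∀ i, σ i θ₀ = θ₀)
    (hσθ : ∀ i j, σ i (θ j) = if i = j then ζ * θ j else θ j)
    {z : K}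
    (hz : z ∈ Subfield.closure ((Subfield.closure ((F₀ : Set K) ∪ {θ₀}) : Set K) ∪ Set.range θ))
    (hz1 : v z ≤ 1) (hzσ : ∀ i, v (σ i z - z) < v (ζ - 1)) :
    ∃ c ∈ Subfield.closure ((F₀ : Set K) ∪ {θ₀}), v c ≤ 1 ∧ v (z - c) < v (ζ - 1) := by
  classical
  have : Fact p.Prime := ⟨hp⟩
  have hL : LamData v p (ζ - 1) := lamData_zeta v hp hvp hζ hζ1
  have hlamF : ζ - 1 ∈ F₀ := Subfield.sub_mem _ hζF (Subfield.one_mem _)
  have hb1 : ∀ l, v (b l) ≤ 1 := fun l => val_le_of_approx hR1 hL.lam_lt (b' l) (hbb' l)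
  have hindβ := hind_red red hker hL.lam_lt b b' hbb' hind
  obtain ⟨ϖ₀, hϖ₀ne, hϖ₀lt, hϖ₀p, ht₀v⟩ := tres_base hL hθ₀ hu₀
  set F₁ : Subfield K := Subfield.closure ((F₀ : Set K) ∪ {θ₀}) with hF₁
  have hF₀₁ : ∀ x ∈ F₀, x ∈ F₁ := fun x hx => Subfield.subset_closure (Or.inl hx)
  have hθ₀F₁ : θ₀ ∈ F₁ := Subfield.subset_closure (Or.inr rfl)
  have hθ₀pF : θ₀ ^ p ∈ F₀ := by
    rw [hθ₀]
    exact Subfield.mul_mem _ (natCast_mem F₀ p) hu₀F
  have hF₁val : ValIn v F₁ ϖ₀ := valIn_step v hp.ne_zero hϖ₀ne hϖ₀lt (by rw [hϖ₀p]; exact hF₀)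
    ht₀v (fun x hx => repr_div hp.ne_zero hL.ne hlamF hθ₀pF hx)
  have hθ₀v : v θ₀ < 1 := by
    apply lt_one_of_pow_lt_one (n := p)
    rw [← map_pow, hθ₀, map_mul, hu₀, mul_one]
    exact hvp
  have hu₀'1 : v (u₀' : K) = 1 := by
    have h1 : (u₀' : K) = u₀ + -(u₀ - u₀') := by ring
    rw [h1, Valuation.map_add_eq_of_lt_left, hu₀]
    rw [Valuation.map_neg, hu₀]
    exact lt_of_le_of_lt hu₀' hL.lam_lt
  have hu₀'red : red u₀' ≠ 0 := by
    intro h0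
    have := (hker _).mp h0
    rw [hu₀'1] at this
    exact lt_irrefl _ this
  choose rt hrt using hperf
  have hdv : ∀ i : Fin n, ∃ (d : Fin n → R) (c₀ : R), (∀ l, i < l → d l = 0) ∧
      v (d i : K) = 1 ∧
      v ((c₀ : K) ^ p * u₀ + ∑ l, (d l : K) ^ p * b l) ≤ v (ζ - 1) ∧
      (∀ j : ℕ, 1 ≤ j → j ≤ (i : ℕ) → v (∑ l, (d l : K) ^ p ^ (j + 1) * b l) ≤ v (ζ - 1)) ∧
      v (∑ l, (d l : K) ^ p ^ ((i : ℕ) + 2) * b l) = 1 := by
    intro i
    obtain ⟨dbar', hsupp', hdi', hkill', hlast'⟩ :=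
      exists_depth_vector p (fun a => ⟨rt a, hrt a⟩) (fun l => red (b' l)) hindβ i
    have hsupp : ∀ l, i < l → rt (dbar' l) = 0 := by
      intro l hl
      have h1 : rt (dbar' l) ^ p = 0 := by rw [hrt]; exact hsupp' l hl
      exact pow_eq_zero_iff hp.ne_zero |>.mp h1
    obtain ⟨d, hd0, hdred⟩ := exists_lift red hred i (fun l => rt (dbar' l)) hsupp
    have hdredp : (fun l => red (d l) ^ p) = dbar' := by
      funext l
      have h1 : red (d l) = rt (dbar' l) := congrFun hdred l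
      rw [h1, hrt]
    have hform : ∀ j, frobForm p (fun l => red (b' l)) (j + 1) (fun l => red (d l)) =
        frobForm p (fun l => red (b' l)) j dbar' := by
      intro j
      rw [← frobForm_pow, hdredp]
    obtain ⟨c₀, hc₀⟩ := hred (rt (-(∑ l, red (d l) ^ p * red (b' l)) / red u₀'))
    refine ⟨d, c₀, hd0, ?_, ?_, fun j h1 hj => ?_, ?_⟩
    · refine le_antisymm (hR1 _ (d i).2) (not_lt.mp (fun h => hdi' ?_))
      rw [← hdredp]
      simp only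
      rw [(hker _).mpr h, zero_pow hp.ne_zero]
    · refine (val_of_red hR1 hR2 red hker hL.lam_lt (c₀ ^ p * u₀' + ∑ l, d l ^ p * b' l)
        ?_).1 ?_
      · have h1 : (c₀ : K) ^ p * u₀ + ∑ l, (d l : K) ^ p * b l -
            ((c₀ ^ p * u₀' + ∑ l, d l ^ p * b' l : R) : K) =
            (c₀ : K) ^ p * (u₀ - u₀') + ∑ l, (d l : K) ^ p * (b l - b' l) := by
          push_cast
          have h2 : ∑ l, (d l : K) ^ p * (b l - b' l) =
              ∑ l, (d l : K) ^ p * b l - ∑ l, (d l : K) ^ p * (b' l : K) := by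
            rw [← Finset.sum_sub_distrib]
            exact Finset.sum_congr rfl (fun l _ => by ring)
          rw [h2]
          ring
        rw [h1]
        refine (v.map_add _ _).trans (max_le ?_ (v.map_sum_le (fun l _ => ?_)))
        · rw [map_mul, map_pow]
          exact (mul_le_of_le_one_left' (pow_le_one₀ zero_le (hR1 _ c₀.2))).trans hu₀'
        · rw [map_mul, map_pow]
          exact (mul_le_of_le_one_left' (pow_le_one₀ zero_le (hR1 _ (d l).2))).trans (hbb' l)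
      · rw [map_add, map_mul, map_pow, hc₀, hrt, map_sum]
        have h3 : ∑ l, red (d l ^ p * b' l) = ∑ l, red (d l) ^ p * red (b' l) :=
          Finset.sum_congr rfl (fun l _ => by rw [map_mul, map_pow])
        rw [h3, div_mul_cancel₀ _ hu₀'red, neg_add_cancel]
    · exact (val_form_of_red p hR1 hR2 red hker hL.lam_lt b b' hbb' d (j + 1)).1
        (by rw [hform]; exact hkill' j h1 hj)
    · exact (val_form_of_red p hR1 hR2 red hker hL.lam_lt b b' hbb' d ((i : ℕ) + 1 + 1)).2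
        (by rw [hform]; exact hlast')
  choose d c₀ hd0 hdi hd00 hdle hdA using hdv
  have hθ1 : ∀ l, v (θ l - 1) < 1 := fun l => gen_lt_one hL (hb1 l) (hθ l)
  have hlamF₁ : ζ - 1 ∈ F₁ := hF₀₁ _ hlamF
  have haff := fun i : Fin n => affine_data (v := v) (F₀ := F₁) hL.ne hlamF₁ θ hθ1 i
    ((c₀ i : K) * θ₀)
    (le_Lvl F₁ θ i (Subfield.mul_mem _ (hF₀₁ _ (hRF _ (c₀ i).2)) hθ₀F₁))
    (by
      rw [map_mul]
      exact lt_of_le_of_lt (mul_le_of_le_one_left' (hR1 _ (c₀ i).2)) hθ₀v)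
    (fun l => (d i l : K))
    (fun l => hF₀₁ _ (hRF _ (d i l).2)) (fun l => hR1 _ (d i l).2)
    (fun l hl => by rw [hd0 i l hl]; rfl) (hdi i)
  choose a bt haF ha0 hbt hθZ hτ using haff
  have hσF₁ : ∀ i, ∀ x ∈ F₁, σ i x = x := fun i =>
    fix_closure_singleton (σ i) (hσF i) (hσθ₀ i)
  refine tower_approx_top v hp.ne_zero (ϖ₀ := ϖ₀) (M := p) hϖ₀ne hϖ₀lt hF₁val hϖ₀p.symm
    (fun e => val_natCast_eq_one v hp hvp) (hF₀₁ _ hζF) (val_zeta v hp.ne_zero hζ)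
    (val_zeta_pow_sub_one_le v hp.ne_zero hζ) θ (fun i => ?_) σ hσv hσF₁ hσθ
    (fun i => (c₀ i : K) * θ₀ / (ζ - 1) + ∑ l, (d i l : K) * gen (ζ - 1) (θ l)) a bt
    (fun i => ?_) haF ha0 hbt hθZ hτ hz hz1 hzσ
  · rw [hθ i]
    exact Subfield.add_mem _ (Subfield.one_mem _)
      (Subfield.mul_mem _ (natCast_mem F₁ p) (hF₀₁ _ (hbF i)))
  · have h1 := tres_depth_val hL θ b hb1 hθ hθ₀ hu₀ i (c₀ i : K) (hR1 _ (c₀ i).2)
      (fun l => (d i l : K)) (fun l => hR1 _ (d i l).2) (hd00 i) (hdle i) (hdA i)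
    rw [mul_div_assoc]
    apply pow_inj_val hp.ne_zero
    rw [← pow_mul, ← pow_succ, h1, inv_pow, hϖ₀p]

/-- **Très ramifié end game.** In the situation of `tower_tres`, a ring endomorphism `σ₀`
fixing `F₀` with `σ₀ θ₀ = ζ * θ₀` moves `z` by less than `ζ - 1`. -/
theorem tower_tres_moved {p : ℕ} (hp : p.Prime) (hvp : v (p : K) < 1) {ζ : K} (hζ : ζ ^ p = 1)
    (hζ1 : ζ ≠ 1) {F₀ : Subfield K} (hζF : ζ ∈ F₀) (hF₀ : ValIn v F₀ (v (ζ - 1)))
    (R : Subring K) (hRF : ∀ x ∈ R, x ∈ F₀) (hR1 : ∀ x ∈ R, v x ≤ 1)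
    (hR2 : ∀ x ∈ R, v x < 1 → v x ≤ v (ζ - 1))
    {k : Type*} [Field k] [CharP k p] (red : R →+* k) (hred : Function.Surjective red)
    (hker : ∀ x : R, red x = 0 ↔ v (x : K) < 1) (hperf : ∀ a : k, ∃ r : k, r ^ p = a)
    {n : ℕ} (θ b : Fin n → K) (hbF : ∀ i, b i ∈ F₀) (hθ : ∀ i, θ i ^ p = 1 + p * b i)
    (b' : Fin n → R) (hbb' : ∀ i, v (b i - b' i) ≤ v (ζ - 1))
    (hind : ∀ m : Fin n → ℤ, v (∑ i, (m i : K) * b i) < 1 → ∀ i, (p : ℤ) ∣ m i)
    {θ₀ u₀ : K} (hu₀F : u₀ ∈ F₀) (hθ₀ : θ₀ ^ p = p * u₀) (hu₀ : v u₀ = 1) (u₀' : R)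
    (hu₀' : v (u₀ - u₀') ≤ v (ζ - 1))
    (σ : Fin n → K →+* K) (hσv : ∀ i x, v (σ i x) = v x) (hσF : ∀ i, ∀ x ∈ F₀, σ i x = x)
    (hσθ₀ : ∀ i, σ i θ₀ = θ₀)
    (hσθ : ∀ i j, σ i (θ j) = if i = j then ζ * θ j else θ j)
    (σ₀ : K →+* K) (hσ₀v : ∀ x, v (σ₀ x) = v x) (hσ₀F : ∀ x ∈ F₀, σ₀ x = x)
    (hσ₀θ₀ : σ₀ θ₀ = ζ * θ₀)
    {z : K}
    (hz : z ∈ Subfield.closure ((Subfield.closure ((F₀ : Set K) ∪ {θ₀}) : Set K) ∪ Set.range θ))
    (hz1 : v z ≤ 1) (hzσ : ∀ i, v (σ i z - z) < v (ζ - 1)) :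
    v (σ₀ z - z) < v (ζ - 1) := by
  obtain ⟨c, hcF, hc1, hzc⟩ := tower_tres v hp hvp hζ hζ1 hζF hF₀ R hRF hR1 hR2 red hred hker
    hperf θ b hbF hθ b' hbb' hind hu₀F hθ₀ hu₀ u₀' hu₀' σ hσv hσF hσθ₀ hσθ hz hz1 hzσ
  have hL : LamData v p (ζ - 1) := lamData_zeta v hp hvp hζ hζ1
  have hlamF : ζ - 1 ∈ F₀ := Subfield.sub_mem _ hζF (Subfield.one_mem _)
  obtain ⟨ϖ₀, hϖ₀ne, hϖ₀lt, hϖ₀p, ht₀v⟩ := tres_base hL hθ₀ hu₀
  have hθ₀pF : θ₀ ^ p ∈ F₀ := by
    rw [hθ₀]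
    exact Subfield.mul_mem _ (natCast_mem F₀ p) hu₀F
  have hcyc := cyclic_moved v hp.ne_zero hϖ₀ne hϖ₀lt (by rw [hϖ₀p]; exact hF₀) hL.ne hlamF ht₀v
    hθ₀pF (val_zeta_pow_sub_one_le v hp.ne_zero hζ) σ₀ hσ₀F hσ₀θ₀ hcF hc1
  have h1 : σ₀ z - z = σ₀ (z - c) + ((σ₀ c - c) + (c - z)) := by
    rw [map_sub]; ring
  rw [h1]
  refine lt_of_le_of_lt (v.map_add _ _) (max_lt (by rw [hσ₀v]; exact hzc)
    (lt_of_le_of_lt (v.map_add _ _) (max_lt hcyc ?_)))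
  rw [← neg_sub, Valuation.map_neg]
  exact hzc

end Fermat.Agent.Padic.S33.AS
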