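/-
S33 (ordinary at `p ∥ N`), the ALGEBRA half of the glue (the "Nakayama step").

Let `T` be a reduced local ring, `V` free of rank two over `T` with an action of a group `G`,
`I ≤ G` normalised by `D ≤ G`.  Put `L := (I − 1)V`.  If

* some `(σ − 1)v`, `σ ∈ I`, is non-zero modulo `𝔪_T` (inertia acts non-trivially on the residual
  representation), and
* at every minimal prime `𝔭` of `T` there is a non-zero `I`-invariant `T`-linear functional
  `V → K` into a field `K` which is a `T`-algebra with kernel inside `𝔭`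
  (the representation at the point `𝔭` has non-zero `I`-coinvariants),

then `V/L` is free of rank one: `L` is a `D`-stable line `T ∙ b 0` of a basis `b`, and `I` acts
trivially on `V/L` (`exists_line_of_coinvariants`).

For a Hecke–Galois datum and `p` odd the first hypothesis always holds (the determinant is the
cyclotomic character, which is ramified at `p`): `isOrdinaryAt_of_points`.
-/
import Mathlib
import Fermat.Prelude.Def_GaloisRep_LocalConditions
import Fermat.Agent.S31.Cong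
import Fermat.Agent.TW.Local.InertiaCyclo

set_option autoImplicit false

namespace Fermat.Agent.Padic.S33

local notation "Qb" => AlgebraicClosure ℚ
local notation "GQ" => (AlgebraicClosure ℚ ≃ₐ[ℚ] AlgebraicClosure ℚ)

section Abstract

variable {T : Type} [CommRing T]
  {V : Type} [AddCommGroup V] [Module T V]
  {G : Type} [Group G]

/-- The augmentation submodule `(I − 1)V`. -/
def augSub (ρ : G →* Module.End T V) (I : Subgroup G) : Submodule T V :=
  Submodule.span T {x | ∃ σ ∈ I, ∃ v : V, x = ρ σ v - v}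

theorem sub_mem_augSub (ρ : G →* Module.End T V) (I : Subgroup G) {σ : G} (hσ : σ ∈ I) (v : V) :
    ρ σ v - v ∈ augSub ρ I :=
  Submodule.subset_span ⟨σ, hσ, v, rfl⟩

/-- `(I − 1)V` is stable under every group normalising `I`. -/
theorem apply_mem_augSub (ρ : G →* Module.End T V) (I D : Subgroup G)
    (hnorm : ∀ τ ∈ D, ∀ σ ∈ I, τ * σ * τ⁻¹ ∈ I) {τ : G} (hτ : τ ∈ D) {v : V}
    (hv : v ∈ augSub ρ I) : ρ τ v ∈ augSub ρ I := by
  unfold augSub at hv
  induction hv using Submodule.span_induction with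
  | mem x hx =>
    obtain ⟨σ, hσ, u, rfl⟩ := hx
    have e : ρ τ (ρ σ u - u) = ρ (τ * σ * τ⁻¹) (ρ τ u) - ρ τ u := by
      have h1 : ρ (τ * σ * τ⁻¹) (ρ τ u) = ρ τ (ρ σ u) := by
        rw [← Module.End.mul_apply, ← map_mul, inv_mul_cancel_right, map_mul,
          Module.End.mul_apply]
      rw [h1, map_sub]
    rw [e]
    exact sub_mem_augSub ρ I (hnorm τ hτ σ hσ) _
  | zero => rw [map_zero]; exact Submodule.zero_mem _
  | add x y _ _ hx hy => rw [map_add]; exact Submodule.add_mem _ hx hy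
  | smul a x _ hx => rw [map_smul]; exact Submodule.smul_mem _ a hx

/-- An `I`-invariant functional kills `(I − 1)V`. -/
theorem apply_eq_zero_of_mem_augSub (ρ : G →* Module.End T V) (I : Subgroup G) {K : Type}
    [Field K] [Algebra T K] (φ : V →ₗ[T] K) (hφ : ∀ σ ∈ I, ∀ v, φ (ρ σ v) = φ v) {x : V}
    (hx : x ∈ augSub ρ I) : φ x = 0 := by
  unfold augSub at hx
  induction hx using Submodule.span_induction with
  | mem x hx =>
    obtain ⟨σ, hσ, u, rfl⟩ := hx
    rw [map_sub, hφ σ hσ u, sub_self]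
  | zero => rw [map_zero]
  | add x y _ _ hx hy => rw [map_add, hx, hy, add_zero]
  | smul a x _ hx => rw [map_smul, hx, smul_zero]

/-- A vector outside `𝔪V` has a unit coordinate. -/
theorem exists_isUnit_repr [IsLocalRing T] (e : Module.Basis (Fin 2) T V) {w : V}
    (hw : w ∉ (IsLocalRing.maximalIdeal T) • (⊤ : Submodule T V)) :
    ∃ i, IsUnit (e.repr w i) := by
  by_contra hcon
  rw [not_exists] at hcon
  apply hw
  rw [← e.sum_repr w]
  refine Submodule.sum_mem _ fun i _ => ?_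
  exact Submodule.smul_mem_smul ((IsLocalRing.mem_maximalIdeal _).mpr (hcon i)) Submodule.mem_top

/-- If the `0`-th coordinate of `w` is a unit, every vector is a combination of `w` and `e 1`. -/
theorem exists_eq_smul_add (e : Module.Basis (Fin 2) T V) {w : V} (ha : IsUnit (e.repr w 0))
    (v : V) : ∃ c₀ c₁ : T, v = c₀ • w + c₁ • e 1 := by
  obtain ⟨a', ha'⟩ := ha.exists_left_inv
  obtain ⟨a, b, haeq, hw⟩ : ∃ a b : T, a = e.repr w 0 ∧ w = a • e 0 + b • e 1 :=
    ⟨_, _, rfl, by conv_lhs => rw [← e.sum_repr w, Fin.sum_univ_two]⟩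
  rw [← haeq] at ha'
  obtain ⟨x, y, hv⟩ : ∃ x y : T, v = x • e 0 + y • e 1 :=
    ⟨_, _, by conv_lhs => rw [← e.sum_repr v, Fin.sum_univ_two]⟩
  have h0 : e 0 = a' • w - (a' * b) • e 1 := by
    rw [hw, smul_add, smul_smul, smul_smul, ha', one_smul, add_sub_cancel_right]
  refine ⟨x * a', y - x * (a' * b), ?_⟩
  rw [hv]
  conv_lhs => rw [h0]
  rw [smul_sub, smul_smul, smul_smul, sub_smul]
  abel

/-- If the `0`-th coordinate of `w` is a unit, `w, e 1` is a basis. -/
theorem exists_basis_of_isUnit (e : Module.Basis (Fin 2) T V) {w : V}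
    (ha : IsUnit (e.repr w 0)) : ∃ b : Module.Basis (Fin 2) T V, b 0 = w ∧ b 1 = e 1 := by
  have hli : LinearIndependent T ![w, e 1] := by
    rw [LinearIndependent.pair_iff]
    intro s t hst
    have h0 := congrArg (fun x => e.repr x 0) hst
    have h1 := congrArg (fun x => e.repr x 1) hst
    simp only [map_add, map_smul, Finsupp.add_apply, Finsupp.smul_apply, smul_eq_mul,
      Module.Basis.repr_self, map_zero, Finsupp.zero_apply] at h0 h1
    rw [Finsupp.single_eq_of_ne (by decide), mul_zero, add_zero] at h0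
    rw [Finsupp.single_eq_same, mul_one] at h1
    have hs : s = 0 := by
      obtain ⟨a', ha'⟩ := ha.exists_right_inv
      calc s = s * (e.repr w 0 * a') := by rw [ha', mul_one]
        _ = (s * e.repr w 0) * a' := by ring
        _ = 0 := by rw [h0, zero_mul]
    refine ⟨hs, ?_⟩
    rw [hs, zero_mul, zero_add] at h1
    exact h1
  have hsp : ⊤ ≤ Submodule.span T (Set.range ![w, e 1]) := by
    intro v _
    obtain ⟨c₀, c₁, rfl⟩ := exists_eq_smul_add e ha v
    refine Submodule.add_mem _ (Submodule.smul_mem _ _ (Submodule.subset_span ⟨0, rfl⟩))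
      (Submodule.smul_mem _ _ (Submodule.subset_span ⟨1, rfl⟩))
  refine ⟨Module.Basis.mk hli hsp, ?_, ?_⟩
  · rw [Module.Basis.mk_apply]; rfl
  · rw [Module.Basis.mk_apply]; rfl

/-- The core of the Nakayama step, with a basis whose `0`-th coordinate of `w ∈ (I − 1)V` is a
unit. -/
theorem augSub_eq_span_of_isUnit [IsReduced T] (e : Module.Basis (Fin 2) T V)
    (ρ : G →* Module.End T V) (I : Subgroup G) {w : V} (hwL : w ∈ augSub ρ I)
    (ha : IsUnit (e.repr w 0))
    (hpt : ∀ 𝔭 ∈ minimalPrimes T, ∃ (K : Type) (_ : Field K) (_ : Algebra T K)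
      (φ : V →ₗ[T] K), RingHom.ker (algebraMap T K) ≤ 𝔭 ∧ φ ≠ 0 ∧
        ∀ σ ∈ I, ∀ v, φ (ρ σ v) = φ v) :
    augSub ρ I = Submodule.span T {w} := by
  -- `t • e 1 ∈ L` forces `t = 0`
  have hJ : ∀ t : T, t • e 1 ∈ augSub ρ I → t = 0 := by
    intro t ht
    have hmem : t ∈ sInf (minimalPrimes T) := by
      rw [Submodule.mem_sInf]
      intro 𝔭 h𝔭
      obtain ⟨K, _, _, φ, hker, hφ0, hφ⟩ := hpt 𝔭 h𝔭
      have hkill : ∀ x ∈ augSub ρ I, φ x = 0 := fun x hx =>
        apply_eq_zero_of_mem_augSub ρ I φ hφ hx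
      have hu : φ (e 1) ≠ 0 := by
        intro hu
        apply hφ0
        refine LinearMap.ext fun v => ?_
        obtain ⟨c₀, c₁, rfl⟩ := exists_eq_smul_add e ha v
        rw [map_add, map_smul, map_smul, hkill w hwL, hu, smul_zero, smul_zero, add_zero,
          LinearMap.zero_apply]
      have h1 := hkill _ ht
      rw [map_smul, Algebra.smul_def, mul_eq_zero] at h1
      exact hker (h1.resolve_right hu)
    have hrad : sInf (minimalPrimes T) = ⊥ := by
      unfold minimalPrimes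
      rw [Ideal.sInf_minimalPrimes]
      exact nilradical_eq_zero T
    rw [hrad] at hmem
    exact hmem
  apply le_antisymm
  · intro x hx
    obtain ⟨c₀, c₁, rfl⟩ := exists_eq_smul_add e ha x
    have h1 : c₁ • e 1 ∈ augSub ρ I := by
      have := Submodule.sub_mem _ hx (Submodule.smul_mem _ c₀ hwL)
      rwa [add_sub_cancel_left] at this
    rw [hJ c₁ h1, zero_smul, add_zero]
    exact Submodule.smul_mem _ _ (Submodule.mem_span_singleton_self w)
  · rw [Submodule.span_singleton_le_iff_mem]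
    exact hwL

/-- **The Nakayama step.** `T` reduced local, `V` free of rank two, `I` normalised by `D`.  If
inertia acts non-trivially modulo `𝔪` and the coinvariants are non-zero at every minimal prime,
then `(I − 1)V` is a `D`-stable line spanned by a basis vector, with `I` trivial on the
quotient. -/
theorem exists_line_of_coinvariants [IsLocalRing T] [IsReduced T]
    (e : Module.Basis (Fin 2) T V)
    (ρ : G →* Module.End T V) (I D : Subgroup G)
    (hnorm : ∀ τ ∈ D, ∀ σ ∈ I, τ * σ * τ⁻¹ ∈ I)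
    (hram : ∃ σ ∈ I, ∃ v : V, ρ σ v - v ∉ (IsLocalRing.maximalIdeal T) • (⊤ : Submodule T V))
    (hpt : ∀ 𝔭 ∈ minimalPrimes T, ∃ (K : Type) (_ : Field K) (_ : Algebra T K)
      (φ : V →ₗ[T] K), RingHom.ker (algebraMap T K) ≤ 𝔭 ∧ φ ≠ 0 ∧
        ∀ σ ∈ I, ∀ v, φ (ρ σ v) = φ v) :
    ∃ L : Submodule T V, (∃ b : Module.Basis (Fin 2) T V, L = Submodule.span T {b 0}) ∧
      (∀ σ ∈ D, ∀ v ∈ L, ρ σ v ∈ L) ∧ (∀ σ ∈ I, ∀ v : V, ρ σ v - v ∈ L) := by
  classical
  obtain ⟨σ₀, hσ₀, v₀, hw⟩ := hram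
  obtain ⟨i, hi⟩ := exists_isUnit_repr e hw
  -- move the unit coordinate to position `0`
  set e' : Module.Basis (Fin 2) T V := e.reindex (Equiv.swap i 0) with he'
  have hi' : IsUnit (e'.repr (ρ σ₀ v₀ - v₀) 0) := by
    rw [he', Module.Basis.repr_reindex_apply, Equiv.symm_swap, Equiv.swap_apply_right]
    exact hi
  have hwL : ρ σ₀ v₀ - v₀ ∈ augSub ρ I := sub_mem_augSub ρ I hσ₀ v₀
  obtain ⟨b, hb0, -⟩ := exists_basis_of_isUnit e' hi'
  refine ⟨augSub ρ I, ⟨b, ?_⟩, fun σ hσ v hv => apply_mem_augSub ρ I D hnorm hσ hv,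
    fun σ hσ v => sub_mem_augSub ρ I hσ v⟩
  rw [hb0]
  exact augSub_eq_span_of_isUnit e' ρ I hwL hi' hpt

end Abstract

section Hecke

variable {p : ℕ} {N : ℕ} [NeZero N] {S : Finset ℕ}
  {𝒪 : Type} [CommRing 𝒪] [IsDomain 𝒪] [IsDiscreteValuationRing 𝒪]
  [IsAdicComplete (IsLocalRing.maximalIdeal 𝒪) 𝒪]
  {θ : CuspForm.heckeAlgebra N 2 (↑S : Set ℕ) →+* IsLocalRing.ResidueField 𝒪}
  {T : Type} [CommRing T] [IsLocalRing T] [IsNoetherianRing T]
  [IsAdicComplete (IsLocalRing.maximalIdeal T) T] [Algebra 𝒪 T] [IsLocalHom (algebraMap 𝒪 T)]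
  [Module.Finite 𝒪 T] [Module.Free 𝒪 T]

/-- Inertia at an odd prime `p` acts non-trivially on the residual representation of a
Hecke–Galois datum: some `σ ∈ I_P` has `det ρ(σ) ≢ 1` modulo the maximal ideal (the determinant
is the cyclotomic character and inertia moves `ζ_p`). -/
theorem exists_inertia_det_sub_one_not_mem (hp : p.Prime) (hp2 : p ≠ 2)
    (hp𝒪 : (p : 𝒪) ∈ IsLocalRing.maximalIdeal 𝒪) (hpS : p ∈ S)
    (H : CuspForm.HeckeGaloisRepDatum N (↑S : Set ℕ) 𝒪 θ T)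
    (P : ValuationSubring Qb) (hP : P.LiesOverPrime p) :
    ∃ σ ∈ P.inertiaSubgroupIn ℚ,
      LinearMap.det (H.ρ.ρ σ) - 1 ∉ IsLocalRing.maximalIdeal T := by
  have : Fact p.Prime := ⟨hp⟩
  obtain ⟨ζ, hζ⟩ := Fermat.Agent.ESJ.Rep.Cyclo.exists_primitiveRoot p 1
  rw [pow_one] at hζ
  obtain ⟨σ, hσ, hne⟩ := Fermat.Agent.TW.KummerP.exists_mem_inertia_apply_ne p hp2 P hP hζ
  refine ⟨σ, hσ, fun hdet => ?_⟩
  obtain ⟨c, hc⟩ : ∃ c : ℤ_[p], c = ((Fermat.Agent.ESJ.Rep.cyclo p σ : ℤ_[p]ˣ) : ℤ_[p]) :=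
    ⟨_, rfl⟩
  obtain ⟨a, ha⟩ : ∃ a : ℕ, a = (PadicInt.toZModPow 1 c).val := ⟨_, rfl⟩
  have hspec : σ ζ = ζ ^ a := by
    rw [ha, hc]
    exact Fermat.Agent.ESJ.Rep.Cyclo.cyclo_spec p 1 σ ζ (by rw [pow_one]; exact hζ.pow_eq_one)
  have hmem : (a : ℤ_[p]) - c ∈ Ideal.span {(p : ℤ_[p]) ^ 1} := by
    have : NeZero (p ^ 1) := ⟨pow_ne_zero _ hp.ne_zero⟩
    rw [← PadicInt.ker_toZModPow, RingHom.mem_ker, map_sub, map_natCast, ha,
      ZMod.natCast_zmod_val, sub_self]
  rw [hc] at hmem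
  have h1 := Fermat.Agent.S31.det_sub_natCast_mem hp𝒪 hpS H 1 σ a hmem
  rw [pow_one] at h1
  have hpT : (p : T) ∈ IsLocalRing.maximalIdeal T :=
    Fermat.Agent.S31.natCast_mem_maximalIdeal hp𝒪
  have h2 : (a : T) - 1 ∈ IsLocalRing.maximalIdeal T := by
    have := Ideal.sub_mem _ hdet h1
    rwa [sub_sub_sub_cancel_left] at this
  have hndvd : ¬ (p : ℤ) ∣ (a : ℤ) - 1 := by
    intro hdvd
    apply hne
    rw [hspec]
    have hmod : a ≡ 1 [MOD p] := by
      rw [← Int.natCast_modEq_iff]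
      exact (Int.modEq_iff_dvd.mpr (by simpa using hdvd)).symm
    have e : ∀ k : ℕ, ζ ^ (k % p) = ζ ^ k := fun k => by
      conv_lhs => rw [hζ.eq_orderOf]
      exact pow_mod_orderOf ζ k
    rw [← e a, show a % p = 1 % p from hmod, e 1, pow_one]
  have hcop : IsCoprime (p : ℤ) ((a : ℤ) - 1) :=
    (Nat.prime_iff_prime_int.mp hp).irreducible.coprime_iff_not_dvd.mpr hndvd
  obtain ⟨x, y, hxy⟩ := hcop
  have h3 : (1 : T) ∈ IsLocalRing.maximalIdeal T := by
    have e : (1 : T) = (x : T) * (p : T) + (y : T) * ((a : T) - 1) := by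
      have := congrArg (Int.cast : ℤ → T) hxy
      push_cast at this
      exact this.symm
    rw [e]
    exact Ideal.add_mem _ (Ideal.mul_mem_left _ _ hpT) (Ideal.mul_mem_left _ _ h2)
  exact (Ideal.ne_top_iff_one _).mp (IsLocalRing.maximalIdeal.isMaximal T).ne_top h3

/-- Inertia at an odd prime `p` moves some vector of a Hecke–Galois datum modulo `𝔪`. -/
theorem exists_inertia_sub_not_mem (hp : p.Prime) (hp2 : p ≠ 2)
    (hp𝒪 : (p : 𝒪) ∈ IsLocalRing.maximalIdeal 𝒪) (hpS : p ∈ S)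
    (H : CuspForm.HeckeGaloisRepDatum N (↑S : Set ℕ) 𝒪 θ T)
    (P : ValuationSubring Qb) (hP : P.LiesOverPrime p) :
    ∃ σ ∈ P.inertiaSubgroupIn ℚ, ∃ v : H.ρ.V,
      H.ρ.ρ σ v - v ∉ (IsLocalRing.maximalIdeal T) • (⊤ : Submodule T H.ρ.V) := by
  obtain ⟨σ, hσ, hdet⟩ := exists_inertia_det_sub_one_not_mem hp hp2 hp𝒪 hpS H P hP
  refine ⟨σ, hσ, ?_⟩
  by_contra hcon
  rw [not_exists] at hcon
  exact hdet (Fermat.Agent.S31.det_sub_one_mem _ _ fun v => not_not.mp (hcon v))

/-- The inertia group is normalised by the decomposition group. -/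
theorem conj_mem_inertia (P : ValuationSubring Qb) {τ σ : GQ}
    (hτ : τ ∈ P.decompositionSubgroup ℚ) (hσ : σ ∈ P.inertiaSubgroupIn ℚ) :
    τ * σ * τ⁻¹ ∈ P.inertiaSubgroupIn ℚ := by
  obtain ⟨σ', hσ', rfl⟩ := hσ
  have hn : (P.inertiaSubgroup ℚ).Normal := by
    unfold ValuationSubring.inertiaSubgroup
    exact MonoidHom.normal_ker _
  exact ⟨_, hn.conj_mem σ' hσ' ⟨τ, hτ⟩, rfl⟩

/-- **S33, algebra half of the glue.** For a Hecke–Galois datum with `T` reduced and `p` odd: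
if at every minimal prime of `T` the representation has a non-zero inertia-invariant functional
(non-zero `I_P`-coinvariants), then `ρ` is ordinary at `p`, with the line `(I_P − 1)V`. -/
theorem isOrdinaryAt_of_points [IsReduced T] (hp : p.Prime) (hp2 : p ≠ 2)
    (hp𝒪 : (p : 𝒪) ∈ IsLocalRing.maximalIdeal 𝒪) (hpS : p ∈ S)
    (H : CuspForm.HeckeGaloisRepDatum N (↑S : Set ℕ) 𝒪 θ T)
    (hpt : ∀ P : ValuationSubring Qb, P.LiesOverPrime p → ∀ 𝔭 ∈ minimalPrimes T,
      ∃ (K : Type) (_ : Field K) (_ : Algebra T K) (φ : H.ρ.V →ₗ[T] K),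
        RingHom.ker (algebraMap T K) ≤ 𝔭 ∧ φ ≠ 0 ∧
          ∀ σ ∈ P.inertiaSubgroupIn ℚ, ∀ v, φ (H.ρ.ρ σ v) = φ v) :
    H.ρ.IsOrdinaryAt p := by
  intro P hP
  let e : Module.Basis (Fin 2) T H.ρ.V := Module.finBasisOfFinrankEq T H.ρ.V H.ρ.finrank_eq
  exact exists_line_of_coinvariants e H.ρ.ρ (P.inertiaSubgroupIn ℚ) (P.decompositionSubgroup ℚ)
    (fun τ hτ σ hσ => conj_mem_inertia P hτ hσ)
    (exists_inertia_sub_not_mem hp hp2 hp𝒪 hpS H P hP) (hpt P hP)

end Hecke

end Fermat.Agent.Padic.S33
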