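import Mathlib
import Fermat.Agent.ESJ.Rep.DefsA

/-!
# S33: the local package at `P ∣ p` on an anemic Tate datum

`RedKer D P` is what the geometric side of S33 (bad reduction at `p ∥ N`: the two-component
model, the kernel of reduction and the leading-term calculus) must deliver about the Tate module
`D.Ta` of `J₀(N)` at a place `P` of `ℚ̄` above `p`: a saturated submodule `E ⊆ Ta` (the Tate
module of the kernel of reduction) such that

* (U1) inertia acts trivially on `Ta / E`;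
* (NC) there are no `I`-stable subgroups `p Ta ⊆ L ⊊ V ⊆ E + p Ta` with `I` acting on `L / p Ta`
  through the mod `p` cyclotomic character and trivially on `V / L`.

Consumer: `Padic/S33/Point.lean` (`exists_inertia_functional`).
Producer from statements on the torsion of `J₀(N)`: `Padic/S33/PkgOfGeo.lean`.
-/

set_option autoImplicit false

namespace Fermat.Agent.Padic.S33

open Fermat.Agent.ESJ.Rep

/-- **The local package at `P ∣ p`** (see the file header). -/
def RedKer {p N : ℕ} [Fact p.Prime] [NeZero N] (D : TateDatumA p N)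
    (P : ValuationSubring Qb) : Prop :=
  ∃ E : Submodule ℤ_[p] D.Ta,
    (∀ v : D.Ta, (p : ℤ_[p]) • v ∈ E → v ∈ E) ∧
    (∀ σ ∈ P.inertiaSubgroupIn ℚ, ∀ v : D.Ta, D.gal σ v - v ∈ E) ∧
    ∀ V L : AddSubgroup D.Ta, L ≤ V → (∀ w : D.Ta, (p : ℤ_[p]) • w ∈ L) →
      (∀ v ∈ V, ∃ e ∈ E, ∃ w : D.Ta, v = e + (p : ℤ_[p]) • w) →
      (∀ σ ∈ P.inertiaSubgroupIn ℚ, ∀ v ∈ V, D.gal σ v - v ∈ L) →
      (∀ σ ∈ P.inertiaSubgroupIn ℚ, ∀ a : ℕ, (∀ μ : Qb, μ ^ p = 1 → σ μ = μ ^ a) →
        ∀ v ∈ L, ∃ w : D.Ta, D.gal σ v - a • v = (p : ℤ_[p]) • w) →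
      V ≤ L

end Fermat.Agent.Padic.S33
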