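import Mathlib
import Fermat.Agent.Padic.S33.Pkg
import Fermat.Agent.ESJ.Rep.TateTors

/-!
# S33: the local package `RedKer` from statements on the torsion of `J₀(N)`

`U1g p P Kr` and `NCg p P Kr` are the two statements the geometric side of S33 proves about a
subgroup `Kr ⊆ J₀(N)(ℚ̄)` (the kernel of reduction at a place `P ∣ p`, `p ∥ N`):

* (U1g) the inertia group of `P` moves every `p`-power torsion point inside `Kr`;
* (NCg) there are no `I`-stable subgroups `L ⊊ V ⊆ Kr[p]` with `I` acting on `L` through the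
  mod `p` cyclotomic character and trivially on `V / L`.

`redKer_of_geo`: with torsion level maps `Ta / pⁿ ≅ J₀(N)[pⁿ]` of an anemic Tate datum `D`
(`ESJ.Rep.TorsLevelMaps D`), these give the package `RedKer D P` of `Padic/S33/Pkg.lean`, with
`E = {t | ∀ n, π n t ∈ Kr}`.
-/

set_option autoImplicit false

open scoped TensorProduct MatrixGroups
open CongruenceSubgroup ModularCurve AlgebraicCurve

namespace Fermat.Agent.Padic.S33

open Fermat.Agent.ESJ.Rep

/-- (U1g): inertia at `P` moves `p`-power torsion points of `J₀(N)` inside `Kr`. -/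
def U1g (p : ℕ) {N : ℕ} [NeZero N] (P : ValuationSubring Qb) (Kr : AddSubgroup (JZero N)) :
    Prop :=
  ∀ σ ∈ P.inertiaSubgroupIn ℚ, ∀ (x : JZero N) (k : ℕ), p ^ k • x = 0 → σ • x - x ∈ Kr

/-- (NCg): no inertia-stable `L ⊊ V ⊆ Kr[p]` with `I` acting on `L` through the mod `p`
cyclotomic character and trivially on `V / L`. -/
def NCg (p : ℕ) {N : ℕ} [NeZero N] (P : ValuationSubring Qb) (Kr : AddSubgroup (JZero N)) :
    Prop :=
  ∀ V L : AddSubgroup (JZero N), L ≤ V → V ≤ Kr → (∀ x ∈ V, p • x = 0) →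
    (∀ σ ∈ P.inertiaSubgroupIn ℚ, ∀ v ∈ V, σ • v - v ∈ L) →
    (∀ σ ∈ P.inertiaSubgroupIn ℚ, ∀ a : ℕ, (∀ μ : Qb, μ ^ p = 1 → σ μ = μ ^ a) →
      ∀ v ∈ L, σ • v = a • v) →
    V ≤ L

variable {p N : ℕ} [Fact p.Prime] [NeZero N]

/-- A `p`-adic integer is a natural number modulo `pⁿ`. -/
theorem exists_padicInt_eq_natCast_add (c : ℤ_[p]) (n : ℕ) :
    ∃ (m : ℕ) (c' : ℤ_[p]), c = (m : ℤ_[p]) + (p : ℤ_[p]) ^ n * c' := by
  have h := PadicInt.appr_spec n c
  obtain ⟨c', hc'⟩ := Ideal.mem_span_singleton'.mp h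
  exact ⟨c.appr n, c', by rw [mul_comm, hc']; ring⟩

/-- The level map of a scalar multiple. -/
theorem TorsLevel_pi_smul {D : TateDatumA p N} (T : TorsLevelMaps D) (n : ℕ) (c : ℤ_[p])
    (t : D.Ta) : ∃ m : ℕ, T.π n (c • t) = m • T.π n t := by
  obtain ⟨m, c', hc⟩ := exists_padicInt_eq_natCast_add c n
  refine ⟨m, ?_⟩
  have h0 : T.π n ((p : ℤ_[p]) ^ n • (c' • t)) = 0 := (T.ker n _).mpr ⟨_, rfl⟩
  have h1 : c • t = m • t + (p : ℤ_[p]) ^ n • (c' • t) := by
    rw [hc, add_smul, mul_smul, Nat.cast_smul_eq_nsmul]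
  rw [h1, map_add, h0, add_zero, map_nsmul]

/-- **The local package from the geometric statements.** -/
theorem redKer_of_geo {D : TateDatumA p N} (T : TorsLevelMaps D) (P : ValuationSubring Qb)
    (Kr : AddSubgroup (JZero N)) (hU : U1g p P Kr) (hNC : NCg p P Kr) : RedKer D P := by
  have hp : p.Prime := Fact.out
  let E : Submodule ℤ_[p] D.Ta :=
    { carrier := {t | ∀ n, T.π n t ∈ Kr}
      add_mem' := by
        intro a b ha hb n
        rw [map_add]
        exact Kr.add_mem (ha n) (hb n)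
      zero_mem' := by
        intro n
        rw [map_zero]
        exact Kr.zero_mem
      smul_mem' := by
        intro c t ht n
        obtain ⟨m, hm⟩ := TorsLevel_pi_smul T n c t
        show T.π n (c • t) ∈ Kr
        rw [hm]
        exact Kr.nsmul_mem (ht n) m }
  have hE : ∀ t : D.Ta, t ∈ E ↔ ∀ n, T.π n t ∈ Kr := fun t => Iff.rfl
  have hpsmul : ∀ v : D.Ta, (p : ℤ_[p]) • v = p • v := fun v => Nat.cast_smul_eq_nsmul ℤ_[p] p v
  refine ⟨E, ?_, ?_, ?_⟩
  · -- saturation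
    intro v hv
    rw [hE] at hv ⊢
    intro n
    have h1 := hv (n + 1)
    rw [hpsmul, map_nsmul, T.compat] at h1
    exact h1
  · -- (U1)
    intro σ hσ v
    rw [hE]
    intro n
    rw [map_sub, T.gal]
    exact hU σ hσ (T.π n v) n (T.pow_nsmul n v)
  · -- (NC)
    intro V L hLV hpL hVE hVL hLω
    have hker1 : ∀ w : D.Ta, T.π 1 ((p : ℤ_[p]) • w) = 0 := by
      intro w
      refine (T.ker 1 _).mpr ⟨w, ?_⟩
      rw [pow_one]
    have key : V.map (T.π 1) ≤ L.map (T.π 1) := by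
      refine hNC (V.map (T.π 1)) (L.map (T.π 1)) (AddSubgroup.map_mono hLV) ?_ ?_ ?_ ?_
      · rintro _ ⟨v, hv, rfl⟩
        obtain ⟨e, he, w, rfl⟩ := hVE v hv
        rw [map_add, hker1, add_zero]
        exact (hE e).mp he 1
      · rintro _ ⟨v, -, rfl⟩
        have := T.pow_nsmul 1 v
        rwa [pow_one] at this
      · rintro σ hσ _ ⟨v, hv, rfl⟩
        refine ⟨D.gal σ v - v, hVL σ hσ v hv, ?_⟩
        rw [map_sub, T.gal]
      · rintro σ hσ a ha _ ⟨v, hv, rfl⟩
        obtain ⟨w, hw⟩ := hLω σ hσ a ha v hv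
        have h1 : T.π 1 (D.gal σ v - a • v) = 0 := by rw [hw, hker1]
        rw [map_sub, T.gal, map_nsmul, sub_eq_zero] at h1
        exact h1
    intro v hv
    obtain ⟨l, hl, hlv⟩ := key ⟨v, hv, rfl⟩
    have h1 : T.π 1 (v - l) = 0 := by rw [map_sub, hlv, sub_self]
    obtain ⟨w, hw⟩ := (T.ker 1 _).mp h1
    rw [pow_one] at hw
    have h2 : v = l + (p : ℤ_[p]) • w := by rw [← hw]; abel
    rw [h2]
    exact L.add_mem hl (hpL w)

end Fermat.Agent.Padic.S33
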