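import Mathlib
import Fermat.Prelude.Def_GaloisRep_LocalConditions

/-!
# S33, REP half of the glue: a basis adapted to the residual ordinary line

`exists_adapted_basis`: if the residual representation of `ρ` is ordinary at `p`, then for every
`P ∣ p` there is a basis `b` of `ρ.V` such that for every `σ` in the inertia group of `P` the
second row of the matrix of `ρ σ` is `(0, 1)` modulo the maximal ideal.
-/

set_option autoImplicit false

open scoped TensorProduct
open IsLocalRing

namespace Fermat.Agent.Padic.S33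

local notation "Qb" => AlgebraicClosure ℚ
local notation "GQ" => (AlgebraicClosure ℚ ≃ₐ[ℚ] AlgebraicClosure ℚ)

/-- `v ↦ 1 ⊗ v` is onto `k ⊗ V`. -/
theorem one_tmul_surjective {T : Type*} [CommRing T] [IsLocalRing T] {V : Type*} [AddCommGroup V]
    [Module T V] (x : ResidueField T ⊗[T] V) : ∃ v : V, (1 : ResidueField T) ⊗ₜ[T] v = x := by
  induction x using TensorProduct.induction_on with
  | zero => exact ⟨0, TensorProduct.tmul_zero _ _⟩
  | tmul c v =>
    obtain ⟨t, rfl⟩ := residue_surjective c
    refine ⟨t • v, ?_⟩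
    rw [TensorProduct.tmul_smul, TensorProduct.smul_tmul', Algebra.smul_def, mul_one]
    rfl
  | add x y hx hy =>
    obtain ⟨v, rfl⟩ := hx
    obtain ⟨w, rfl⟩ := hy
    exact ⟨v + w, TensorProduct.tmul_add _ _ _⟩

/-- **A basis adapted to the residual ordinary line.** -/
theorem exists_adapted_basis {T : Type} [CommRing T] [IsLocalRing T] (ρ : GaloisRepAdic T)
    (p : ℕ) (hres : (GaloisRepAdic.ofResidualGaloisRep ρ.residual).IsOrdinaryAt p)
    (P : ValuationSubring Qb) (hP : P.LiesOverPrime p) :
    ∃ b : Module.Basis (Fin 2) T ρ.V, ∀ σ ∈ P.inertiaSubgroupIn ℚ,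
      LinearMap.toMatrix b b (ρ.ρ σ) 1 0 ∈ maximalIdeal T ∧
      LinearMap.toMatrix b b (ρ.ρ σ) 1 1 - 1 ∈ maximalIdeal T := by
  classical
  obtain ⟨L, ⟨bk, hL⟩, -, hI⟩ := hres P hP
  let bk' : Module.Basis (Fin 2) (ResidueField T) (ResidueField T ⊗[T] ρ.V) := bk
  choose v hv using fun i => one_tmul_surjective (bk' i)
  have hcomp : (TensorProduct.mk T (ResidueField T) ρ.V 1 ∘ v) = ⇑bk' := by
    funext i
    exact hv i
  have hfp : Module.FinitePresentation T ρ.V := Module.finitePresentation_of_projective _ _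
  obtain ⟨b, hb⟩ := Module.exists_basis_of_basis_baseChange v
    (by rw [hcomp]; exact bk'.linearIndependent) (by rw [hcomp]; exact bk'.span_eq)
    (Module.Flat.rTensor_preserves_injective_linearMap _ Subtype.val_injective)
  have hbk : ∀ i, (1 : ResidueField T) ⊗ₜ[T] b i = bk' i := fun i => by rw [hb i, hv i]
  have hsm : ∀ (c : T) (j : Fin 2),
      (1 : ResidueField T) ⊗ₜ[T] (c • b j) = residue T c • bk' j := by
    intro c j
    rw [← hbk j, TensorProduct.tmul_smul, TensorProduct.smul_tmul', TensorProduct.smul_tmul',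
      Algebra.smul_def, mul_one, smul_eq_mul, mul_one]
    rfl
  -- coordinates of `1 ⊗ x`
  have hrepr : ∀ (x : ρ.V) (i : Fin 2),
      bk'.repr ((1 : ResidueField T) ⊗ₜ[T] x) i = residue T (b.repr x i) := by
    intro x i
    conv_lhs => rw [← b.sum_repr x]
    rw [TensorProduct.tmul_sum, map_sum, Finsupp.finsetSum_apply]
    rw [Finset.sum_eq_single i]
    · rw [hsm, map_smul, Finsupp.smul_apply, Module.Basis.repr_self, Finsupp.single_eq_same,
        smul_eq_mul, mul_one]
    · intro j _ hji
      rw [hsm, map_smul, Finsupp.smul_apply, Module.Basis.repr_self,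
        Finsupp.single_apply, if_neg hji, smul_zero]
    · intro h
      exact absurd (Finset.mem_univ i) h
  refine ⟨b, fun σ hσ => ?_⟩
  have key : ∀ j : Fin 2, residue T (LinearMap.toMatrix b b (ρ.ρ σ) 1 j)
      = if j = 1 then 1 else 0 := by
    intro j
    have h1 := hI σ hσ (bk' j)
    rw [hL] at h1
    obtain ⟨c, hc⟩ := Submodule.mem_span_singleton.mp h1
    have hc' : c • bk' 0 = (ρ.ρ σ).baseChange (ResidueField T) (bk' j) - bk' j := hc
    rw [← hbk j, LinearMap.baseChange_tmul, hbk j] at hc'
    have h2 := congrArg (fun z => bk'.repr z 1) hc'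
    simp only [map_smul, map_sub, Finsupp.smul_apply, Finsupp.sub_apply,
      Module.Basis.repr_self] at h2
    rw [hrepr, Finsupp.single_eq_of_ne (by decide : (1 : Fin 2) ≠ 0), smul_zero] at h2
    rw [LinearMap.toMatrix_apply, sub_eq_zero.mp h2.symm, Finsupp.single_apply]
  constructor
  · have h := key 0
    rw [if_neg (by decide)] at h
    exact (residue_eq_zero_iff _).mp h
  · have h := key 1
    rw [if_pos rfl] at h
    rw [← residue_eq_zero_iff, map_sub, map_one, h, sub_self]

end Fermat.Agent.Padic.S33
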