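import Mathlib
import Fermat.Prelude.Def_CuspForm_HeckeGaloisRepDatum
import Fermat.Agent.ESJ.Rep.LiftChar
import Fermat.Agent.S22

/-!
# S33, REP half of the glue: the DVR point through a minimal prime

`exists_dvr_point`: for a minimal prime `𝔭` of the coefficient ring `T` of a Hecke–Galois datum
there are a complete discrete valuation ring `𝒪₁` of characteristic zero with finite residue
field, a LOCAL ring homomorphism `ψ : T → 𝒪₁` with kernel exactly `𝔭`, and a character `χ₁` of the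
full Hecke algebra with `χ₁ (T_ℓ) = ψ (π (T_ℓ))` for `ℓ ∉ S`.
-/

set_option autoImplicit false
set_option linter.style.haveILetI false

open IsLocalRing

namespace Fermat.Agent.Padic.S33

variable {p : ℕ} {N : ℕ} [NeZero N] {S : Finset ℕ}
  {𝒪 : Type} [CommRing 𝒪] [IsDomain 𝒪] [IsDiscreteValuationRing 𝒪]
  [IsAdicComplete (IsLocalRing.maximalIdeal 𝒪) 𝒪]
  {θ : CuspForm.heckeAlgebra N 2 (↑S : Set ℕ) →+* IsLocalRing.ResidueField 𝒪}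
  {T : Type} [CommRing T] [IsLocalRing T] [IsNoetherianRing T]
  [IsAdicComplete (IsLocalRing.maximalIdeal T) T] [Algebra 𝒪 T] [IsLocalHom (algebraMap 𝒪 T)]
  [Module.Finite 𝒪 T] [Module.Free 𝒪 T]

/-- **The DVR point through a minimal prime.** -/
theorem exists_dvr_point [Finite (IsLocalRing.ResidueField 𝒪)] [CharZero 𝒪]
    (hp𝒪 : (p : 𝒪) ∈ IsLocalRing.maximalIdeal 𝒪)
    (H : CuspForm.HeckeGaloisRepDatum N (↑S : Set ℕ) 𝒪 θ T) (𝔭 : Ideal T)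
    (h𝔭 : 𝔭 ∈ minimalPrimes T) :
    ∃ (𝒪₁ : Type) (_ : CommRing 𝒪₁) (_ : IsDomain 𝒪₁) (_ : IsDiscreteValuationRing 𝒪₁)
      (_ : IsAdicComplete (maximalIdeal 𝒪₁) 𝒪₁) (_ : Finite (ResidueField 𝒪₁))
      (_ : CharZero 𝒪₁) (ψ : T →+* 𝒪₁)
      (χ₁ : CuspForm.heckeAlgebra N 2 (∅ : Set ℕ) →+* 𝒪₁),
      RingHom.ker ψ = 𝔭 ∧ (∀ t ∈ maximalIdeal T, ψ t ∈ maximalIdeal 𝒪₁) ∧
      (p : 𝒪₁) ∈ maximalIdeal 𝒪₁ ∧
      ∀ (ℓ : ℕ) (hℓ : ℓ.Prime) (hℓN : ¬ ℓ ∣ N) (hℓS : ℓ ∉ (↑S : Set ℕ)),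
        χ₁ (CuspForm.heckeFormsGen N 2 ⟨ℓ, hℓ⟩) =
          ψ (H.π (CuspForm.heckeAlgebra.T hℓ hℓN hℓS)) := by
  classical
  haveI hprime : 𝔭.IsPrime := h𝔭.1.1
  -- `𝒪 → T ⧸ 𝔭` is injective
  have hinj : Function.Injective (algebraMap 𝒪 (T ⧸ 𝔭)) := by
    rw [injective_iff_map_eq_zero]
    intro x hx
    by_contra hx0
    have hmem : algebraMap 𝒪 T x ∈ 𝔭 := by
      rw [← Ideal.Quotient.eq_zero_iff_mem]
      exact hx
    have hnzd : algebraMap 𝒪 T x ∈ nonZeroDivisors T := by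
      rw [mem_nonZeroDivisors_iff_right]
      intro t ht
      rw [mul_comm, ← Algebra.smul_def] at ht
      exact (smul_eq_zero.mp ht).resolve_left hx0
    exact Set.disjoint_left.mp (Ideal.disjoint_nonZeroDivisors_of_mem_minimalPrimes h𝔭) hmem hnzd
  have hker : RingHom.ker (algebraMap 𝒪 (T ⧸ 𝔭)) ≤ RingHom.ker (RingHom.id 𝒪) := by
    intro x hx
    rw [RingHom.mem_ker] at hx ⊢
    rw [RingHom.id_apply]
    exact hinj (hx.trans (map_zero _).symm)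
  haveI : Module.Finite 𝒪 (T ⧸ 𝔭) :=
    Module.Finite.of_surjective (Ideal.Quotient.mkₐ 𝒪 𝔭).toLinearMap
      (Ideal.Quotient.mkₐ_surjective 𝒪 𝔭)
  obtain ⟨𝒪₁, i1, i2, i3, i4, i5, i6, i7, i8, i9, hinj₁, χ'', hχ''⟩ :=
    Fermat.Agent.Lib.DVRExt.exists_extension_ringHom 𝒪 (R := 𝒪) (R' := T ⧸ 𝔭) (RingHom.id 𝒪) hker
  -- the point `ψ₀ : T → 𝒪₁`
  let ψ₀ : T →+* 𝒪₁ := χ''.comp (Ideal.Quotient.mk 𝔭)
  have hψ₀alg : ∀ r : 𝒪, ψ₀ (algebraMap 𝒪 T r) = algebraMap 𝒪 𝒪₁ r := fun r => hχ'' r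
  have hχinj : Function.Injective χ'' := by
    rw [injective_iff_map_eq_zero]
    intro y hy
    have hbot : RingHom.ker χ'' = ⊥ := by
      apply Ideal.eq_bot_of_comap_eq_bot (R := 𝒪)
      rw [eq_bot_iff]
      intro r hr
      rw [Ideal.mem_comap, RingHom.mem_ker, hχ'' r, RingHom.id_apply] at hr
      exact hinj₁ (hr.trans (map_zero _).symm)
    have : y ∈ RingHom.ker χ'' := hy
    rwa [hbot] at this
  have hkerψ₀ : RingHom.ker ψ₀ = 𝔭 := by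
    ext t
    rw [RingHom.mem_ker]
    show χ'' (Ideal.Quotient.mk 𝔭 t) = 0 ↔ t ∈ 𝔭
    rw [← Ideal.Quotient.eq_zero_iff_mem]
    exact ⟨fun h => hχinj (h.trans (map_zero _).symm), fun h => by rw [h, map_zero]⟩
  -- the extension of the character to the full Hecke algebra
  let i : CuspForm.heckeAlgebra N 2 (↑S : Set ℕ) →+* CuspForm.heckeAlgebra N 2 (∅ : Set ℕ) :=
    (Subalgebra.inclusion (CuspForm.heckeAlgebra_mono (Set.empty_subset (↑S : Set ℕ)))).toRingHom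
  have hi : Function.Injective i :=
    Subalgebra.inclusion_injective (CuspForm.heckeAlgebra_mono (Set.empty_subset (↑S : Set ℕ)))
  haveI : Module.Finite ℤ (CuspForm.heckeAlgebra N 2 (∅ : Set ℕ)) := Fermat.Agent.S22.result N 2 ∅
  obtain ⟨𝒪₂, j1, j2, j3, j4, j5, j6, j7, j8, j9, hinj₂, χ₂, hχ₂⟩ :=
    Fermat.Agent.ESJ.Rep.exists_extension_of_ringHom i hi 𝒪₁ (ψ₀.comp H.π)
  let ψ : T →+* 𝒪₂ := (algebraMap 𝒪₁ 𝒪₂).comp ψ₀
  have hψalg : ∀ r : 𝒪, ψ (algebraMap 𝒪 T r) = algebraMap 𝒪₁ 𝒪₂ (algebraMap 𝒪 𝒪₁ r) :=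
    fun r => congrArg (algebraMap 𝒪₁ 𝒪₂) (hψ₀alg r)
  refine ⟨𝒪₂, j1, j2, j3, j4, j5, j6, ψ, χ₂, ?_, ?_, ?_, ?_⟩
  · ext t
    rw [← hkerψ₀, RingHom.mem_ker, RingHom.mem_ker]
    show algebraMap 𝒪₁ 𝒪₂ (ψ₀ t) = 0 ↔ ψ₀ t = 0
    exact ⟨fun h => hinj₂ (h.trans (map_zero _).symm), fun h => by rw [h, map_zero]⟩
  · -- locality: the preimage of the maximal ideal is a prime over the maximal ideal of `𝒪`
    have hcomap : ((maximalIdeal 𝒪₂).comap ψ).comap (algebraMap 𝒪 T) = maximalIdeal 𝒪 := by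
      ext r
      rw [Ideal.mem_comap, Ideal.mem_comap, hψalg r, mem_maximalIdeal, mem_maximalIdeal,
        mem_nonunits_iff, mem_nonunits_iff, not_iff_not]
      constructor
      · intro h
        exact isUnit_of_map_unit (algebraMap 𝒪 𝒪₁) r (isUnit_of_map_unit (algebraMap 𝒪₁ 𝒪₂) _ h)
      · intro h
        exact (h.map (algebraMap 𝒪 𝒪₁)).map (algebraMap 𝒪₁ 𝒪₂)
    haveI : ((maximalIdeal 𝒪₂).comap ψ).IsPrime := Ideal.comap_isPrime ψ _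
    have hmax : ((maximalIdeal 𝒪₂).comap ψ).IsMaximal :=
      Ideal.isMaximal_of_isIntegral_of_isMaximal_comap (R := 𝒪) _
        (by rw [hcomap]; exact maximalIdeal.isMaximal 𝒪)
    have heq : (maximalIdeal 𝒪₂).comap ψ = maximalIdeal T := eq_maximalIdeal hmax
    intro t ht
    rw [← heq] at ht
    exact ht
  · have h1 : ¬ IsUnit (p : 𝒪) := hp𝒪
    have h2 : ¬ IsUnit (algebraMap 𝒪₁ 𝒪₂ (algebraMap 𝒪 𝒪₁ (p : 𝒪))) := fun h =>
      h1 (isUnit_of_map_unit (algebraMap 𝒪 𝒪₁) _ (isUnit_of_map_unit (algebraMap 𝒪₁ 𝒪₂) _ h))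
    rw [map_natCast, map_natCast] at h2
    exact h2
  · intro ℓ hℓ hℓN hℓS
    have hT : i (CuspForm.heckeAlgebra.T hℓ hℓN hℓS) =
        CuspForm.heckeAlgebra.T hℓ hℓN (Set.notMem_empty ℓ) := Subtype.ext rfl
    rw [CuspForm.heckeFormsGen_of_not_dvd (ℓ := ⟨ℓ, hℓ⟩) hℓN, ← hT, hχ₂]
    rfl

end Fermat.Agent.Padic.S33
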