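import Mathlib

/-!
# S33, REP half of the glue: pairings and projections to `M / p M` (Mathlib only)

For a `ℤ_p`-module `M` and a `ℤ_p`-algebra `A`:

* `pair A f : A ⊗ M → A` for a functional `f : M → ℤ_p` (`a ⊗ m ↦ f m • a`), its calculus and the
  coordinates of `A ⊗ M` in a basis of `M`;
* `ProjRel u x t` for an additive `u : A → 𝔽_p`: "`t ∈ M` represents the image of `x ∈ A ⊗ M` under
  `u ⊗ 1 : A ⊗ M → 𝔽_p ⊗ M = M / p M`", stated through functionals:
  `f t mod p = u (pair A f x)` for all `f`;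
* `exists_addHom_ne_zero`: the additive maps `A → 𝔽_p` killing the maximal ideal of a local ring
  of residue characteristic `p` separate the points of the residue field.
-/

set_option autoImplicit false
set_option linter.style.haveILetI false

open scoped TensorProduct

namespace Fermat.Agent.Padic.S33

section Pair

variable {R : Type*} [CommRing R] (A : Type*) [CommRing A] [Algebra R A]
  {M : Type*} [AddCommGroup M] [Module R M]

/-- The pairing of a functional on `M` with `A ⊗ M`: `a ⊗ m ↦ f m • a`. -/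
noncomputable def pair (f : M →ₗ[R] R) : A ⊗[R] M →ₗ[A] A :=
  (TensorProduct.AlgebraTensorModule.rid R A A).toLinearMap ∘ₗ f.baseChange A

theorem pair_tmul (f : M →ₗ[R] R) (a : A) (m : M) : pair A f (a ⊗ₜ[R] m) = f m • a := by
  rw [pair, LinearMap.comp_apply, LinearMap.baseChange_tmul]
  rfl

theorem pair_baseChange (f : M →ₗ[R] R) (g : M →ₗ[R] M) (x : A ⊗[R] M) :
    pair A f (g.baseChange A x) = pair A (f ∘ₗ g) x := by
  induction x using TensorProduct.induction_on with
  | zero => rw [map_zero, map_zero, map_zero]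
  | tmul a m => rw [LinearMap.baseChange_tmul, pair_tmul, pair_tmul, LinearMap.comp_apply]
  | add x y hx hy => rw [map_add, map_add, map_add, hx, hy]

theorem pair_add (f f' : M →ₗ[R] R) (x : A ⊗[R] M) :
    pair A (f + f') x = pair A f x + pair A f' x := by
  induction x using TensorProduct.induction_on with
  | zero => rw [map_zero, map_zero, map_zero, add_zero]
  | tmul a m => rw [pair_tmul, pair_tmul, pair_tmul, LinearMap.add_apply, add_smul]
  | add x y hx hy => rw [map_add, map_add, map_add, hx, hy]; abel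

theorem pair_smul (r : R) (f : M →ₗ[R] R) (x : A ⊗[R] M) :
    pair A (r • f) x = r • pair A f x := by
  induction x using TensorProduct.induction_on with
  | zero => rw [map_zero, map_zero, smul_zero]
  | tmul a m => rw [pair_tmul, pair_tmul, LinearMap.smul_apply, smul_eq_mul, mul_smul]
  | add x y hx hy => rw [map_add, map_add, hx, hy, smul_add]

theorem pair_zero (x : A ⊗[R] M) : pair A (0 : M →ₗ[R] R) x = 0 := by
  have h := pair_smul A (0 : R) (0 : M →ₗ[R] R) x
  rwa [zero_smul, zero_smul] at h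

theorem pair_sum {ι : Type*} (s : Finset ι) (f : ι → M →ₗ[R] R) (x : A ⊗[R] M) :
    pair A (∑ i ∈ s, f i) x = ∑ i ∈ s, pair A (f i) x := by
  classical
  induction s using Finset.induction_on with
  | empty => rw [Finset.sum_empty, Finset.sum_empty, pair_zero]
  | insert i s hi ih => rw [Finset.sum_insert hi, Finset.sum_insert hi, pair_add, ih]

/-- The pairing with a coordinate functional is the coordinate in the base-changed basis. -/
theorem pair_coord {ι : Type*} [Fintype ι] [DecidableEq ι] (b : Module.Basis ι R M) (i : ι)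
    (x : A ⊗[R] M) :
    pair A (b.coord i) x = (Algebra.TensorProduct.basis A b).repr x i := by
  induction x using TensorProduct.induction_on with
  | zero => rw [map_zero, map_zero, Finsupp.zero_apply]
  | tmul a m =>
    rw [pair_tmul, Algebra.TensorProduct.basis_repr_tmul, Finsupp.smul_apply,
      Finsupp.mapRange_apply, Module.Basis.coord_apply, Algebra.smul_def, smul_eq_mul, mul_comm]
  | add x y hx hy => rw [map_add, map_add, Finsupp.add_apply, hx, hy]

theorem pair_eq_sum {ι : Type*} [Fintype ι] (b : Module.Basis ι R M) (f : M →ₗ[R] R)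
    (x : A ⊗[R] M) : pair A f x = ∑ i, f (b i) • pair A (b.coord i) x := by
  conv_lhs => rw [← b.sum_dual_apply_smul_coord f]
  rw [pair_sum]
  exact Finset.sum_congr rfl fun i _ => pair_smul A _ _ x

/-- Divisibility in `A ⊗ M` is read off on the coordinates. -/
theorem exists_eq_smul_of_dvd_pair {ι : Type*} [Fintype ι] (b : Module.Basis ι R M) (ϖ : A)
    (x : A ⊗[R] M) (h : ∀ i, ϖ ∣ pair A (b.coord i) x) : ∃ y : A ⊗[R] M, x = ϖ • y := by
  classical
  choose c hc using h
  refine ⟨∑ i, c i • (Algebra.TensorProduct.basis A b) i, ?_⟩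
  rw [Finset.smul_sum]
  conv_lhs => rw [← (Algebra.TensorProduct.basis A b).sum_repr x]
  refine Finset.sum_congr rfl fun i _ => ?_
  rw [← pair_coord, hc i, mul_smul]

end Pair

section Proj

variable {p : ℕ} [Fact p.Prime] {A : Type*} [CommRing A] [Algebra ℤ_[p] A]
  {M : Type*} [AddCommGroup M] [Module ℤ_[p] M]

/-- `t ∈ M` represents the image of `x ∈ A ⊗ M` under `u ⊗ 1 : A ⊗ M → 𝔽_p ⊗ M = M / p M`. -/
def ProjRel (u : A →+ ZMod p) (x : A ⊗[ℤ_[p]] M) (t : M) : Prop :=
  ∀ f : M →ₗ[ℤ_[p]] ℤ_[p], PadicInt.toZMod (f t) = u (pair A f x)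

namespace ProjRel

variable {u : A →+ ZMod p} {x x' : A ⊗[ℤ_[p]] M} {t t' : M}

theorem add (h : ProjRel u x t) (h' : ProjRel u x' t') : ProjRel u (x + x') (t + t') :=
  fun f => by rw [map_add, map_add, map_add, map_add, h f, h' f]

theorem sub (h : ProjRel u x t) (h' : ProjRel u x' t') : ProjRel u (x - x') (t - t') :=
  fun f => by rw [map_sub, map_sub, map_sub, map_sub, h f, h' f]

theorem neg (h : ProjRel u x t) : ProjRel u (-x) (-t) :=
  fun f => by rw [map_neg, map_neg, map_neg, map_neg, h f]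

theorem nsmul (h : ProjRel u x t) (a : ℕ) : ProjRel u (a • x) (a • t) :=
  fun f => by rw [map_nsmul, map_nsmul, map_nsmul, map_nsmul, h f]

theorem map (h : ProjRel u x t) (g : M →ₗ[ℤ_[p]] M) : ProjRel u (g.baseChange A x) (g t) :=
  fun f => by
    rw [pair_baseChange]
    exact h (f ∘ₗ g)

theorem zero_smul (u : A →+ ZMod p) (w : M) :
    ProjRel u (0 : A ⊗[ℤ_[p]] M) ((p : ℤ_[p]) • w) :=
  fun f => by
    rw [map_zero, map_zero, map_smul, smul_eq_mul, map_mul, map_natCast, ZMod.natCast_self,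
      zero_mul]

theorem eq_zero_of_smul {w : M} (h : ProjRel u x ((p : ℤ_[p]) • w)) (f : M →ₗ[ℤ_[p]] ℤ_[p]) :
    u (pair A f x) = 0 := by
  rw [← h f, map_smul, smul_eq_mul, map_mul, map_natCast, ZMod.natCast_self, zero_mul]

/-- Existence of representatives. -/
theorem exists_projRel {ι : Type*} [Fintype ι] (b : Module.Basis ι ℤ_[p] M) (u : A →+ ZMod p)
    (hu : ∀ (z : ℤ_[p]) (a : A), u (z • a) = PadicInt.toZMod z * u a) (x : A ⊗[ℤ_[p]] M) :
    ∃ t : M, ProjRel u x t := by
  refine ⟨∑ i, (((u (pair A (b.coord i) x)).val : ℕ) : ℤ_[p]) • b i, fun f => ?_⟩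
  rw [pair_eq_sum A b f x, map_sum, map_sum, map_sum]
  refine Finset.sum_congr rfl fun i _ => ?_
  rw [map_smul, smul_eq_mul, map_mul, map_natCast, ZMod.natCast_zmod_val, hu, mul_comm]

/-- A representative of an element all of whose projections vanish is divisible by `p`. -/
theorem exists_eq_smul {ι : Type*} [Fintype ι] (b : Module.Basis ι ℤ_[p] M) (h : ProjRel u x t)
    (h0 : ∀ f : M →ₗ[ℤ_[p]] ℤ_[p], u (pair A f x) = 0) : ∃ w : M, t = (p : ℤ_[p]) • w := by
  have hc : ∀ i, ∃ c : ℤ_[p], b.coord i t = (p : ℤ_[p]) * c := by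
    intro i
    have h1 : PadicInt.toZMod (b.coord i t) = 0 := by rw [h (b.coord i), h0]
    have h2 : b.coord i t ∈ RingHom.ker (PadicInt.toZMod (p := p)) := h1
    rw [PadicInt.ker_toZMod, PadicInt.maximalIdeal_eq_span_p, Ideal.mem_span_singleton] at h2
    exact h2
  choose c hc using hc
  refine ⟨∑ i, c i • b i, ?_⟩
  conv_lhs => rw [← b.sum_repr t]
  rw [Finset.smul_sum]
  refine Finset.sum_congr rfl fun i _ => ?_
  rw [← mul_smul, ← hc i]
  rfl

/-- If all the projections of `x` along the functionals vanishing on a saturated submodule `E`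
vanish, its representatives lie in `E + p M`. -/
theorem exists_mem_add_smul [Module.Free ℤ_[p] M] [Module.Finite ℤ_[p] M]
    (E : Submodule ℤ_[p] M) (hsat : ∀ v : M, (p : ℤ_[p]) • v ∈ E → v ∈ E) (h : ProjRel u x t)
    (h0 : ∀ f : M →ₗ[ℤ_[p]] ℤ_[p], (∀ e ∈ E, f e = 0) → u (pair A f x) = 0) :
    ∃ e ∈ E, ∃ w : M, t = e + (p : ℤ_[p]) • w := by
  classical
  have hp : p.Prime := Fact.out
  -- saturation for all nonzero scalars
  have hsat' : ∀ (r : ℤ_[p]) (v : M), r ≠ 0 → r • v ∈ E → v ∈ E := by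
    intro r v hr hrv
    obtain ⟨n, w, hw⟩ := IsDiscreteValuationRing.eq_unit_mul_pow_irreducible hr
      (PadicInt.irreducible_p (p := p))
    have h1 : ((p : ℤ_[p]) ^ n) • v ∈ E := by
      have h2 : ((p : ℤ_[p]) ^ n) • v = ((w⁻¹ : ℤ_[p]ˣ) : ℤ_[p]) • (r • v) := by
        rw [← mul_smul, hw, ← mul_assoc, Units.inv_mul, one_mul]
      rw [h2]
      exact E.smul_mem _ hrv
    clear hw hrv
    induction n with
    | zero => simpa using h1
    | succ n ih =>
      apply ih
      apply hsat
      rw [← mul_smul, ← pow_succ']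
      exact h1
  have : Module.IsTorsionFree ℤ_[p] (M ⧸ E) := by
    refine Module.IsTorsionFree.of_smul_eq_zero fun r m hrm => ?_
    obtain ⟨v, rfl⟩ := E.mkQ_surjective m
    by_cases hr : r = 0
    · exact Or.inl hr
    · right
      rw [← map_smul, Submodule.mkQ_apply, Submodule.Quotient.mk_eq_zero] at hrm
      rw [Submodule.mkQ_apply, Submodule.Quotient.mk_eq_zero]
      exact hsat' r v hr hrm
  obtain ⟨n, q⟩ := Module.basisOfFiniteTypeTorsionFree' (R := ℤ_[p]) (M := M ⧸ E)
  have hc : ∀ i, ∃ c : ℤ_[p], q.coord i (E.mkQ t) = (p : ℤ_[p]) * c := by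
    intro i
    have hvan : ∀ e ∈ E, (q.coord i ∘ₗ E.mkQ) e = 0 := by
      intro e he
      rw [LinearMap.comp_apply, Submodule.mkQ_apply, (Submodule.Quotient.mk_eq_zero E).mpr he,
        map_zero]
    have h1 : PadicInt.toZMod ((q.coord i ∘ₗ E.mkQ) t) = 0 := by
      rw [h (q.coord i ∘ₗ E.mkQ), h0 _ hvan]
    have h2 : (q.coord i ∘ₗ E.mkQ) t ∈ RingHom.ker (PadicInt.toZMod (p := p)) := h1
    rw [PadicInt.ker_toZMod, PadicInt.maximalIdeal_eq_span_p, Ideal.mem_span_singleton] at h2
    exact h2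
  choose c hc using hc
  obtain ⟨w, hw⟩ := E.mkQ_surjective (∑ i, c i • q i)
  refine ⟨t - (p : ℤ_[p]) • w, ?_, w, by abel⟩
  rw [← Submodule.Quotient.mk_eq_zero E, ← Submodule.mkQ_apply, map_sub, map_smul, hw,
    sub_eq_zero, Finset.smul_sum]
  conv_lhs => rw [← q.sum_repr (E.mkQ t)]
  refine Finset.sum_congr rfl fun i _ => ?_
  rw [← mul_smul, ← hc i]
  rfl

end ProjRel

end Proj

section Sep

open IsLocalRing

/-- An additive map killing the maximal ideal of a `ℤ_p`-algebra of residue characteristic `p`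
is semilinear for `ℤ_p → 𝔽_p`. -/
theorem addHom_semilinear {p : ℕ} [Fact p.Prime] {A : Type*} [CommRing A] [IsLocalRing A]
    [Algebra ℤ_[p] A] (hp : (p : A) ∈ maximalIdeal A) (u : A →+ ZMod p)
    (hu : ∀ b ∈ maximalIdeal A, u b = 0) (z : ℤ_[p]) (a : A) :
    u (z • a) = PadicInt.toZMod z * u a := by
  have h1 := PadicInt.sub_zmodRepr_mem (x := z)
  rw [PadicInt.maximalIdeal_eq_span_p, Ideal.mem_span_singleton] at h1
  obtain ⟨z', hz'⟩ := h1
  have hz : z = (z.zmodRepr : ℤ_[p]) + (p : ℤ_[p]) * z' := by rw [← hz']; ring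
  have e1 : z • a = z.zmodRepr • a + (p : A) * (algebraMap ℤ_[p] A z' * a) := by
    conv_lhs => rw [hz]
    rw [add_smul, Nat.cast_smul_eq_nsmul]
    congr 1
    rw [Algebra.smul_def, map_mul, map_natCast, mul_assoc]
  have e2 : PadicInt.toZMod z = (z.zmodRepr : ZMod p) := by
    conv_lhs => rw [hz]
    rw [map_add, map_mul, map_natCast, map_natCast, ZMod.natCast_self, zero_mul, add_zero]
  rw [e1, map_add, hu _ (Ideal.mul_mem_right _ _ hp), add_zero, map_nsmul, e2, nsmul_eq_mul]

/-- The additive maps `A → 𝔽_p` killing the maximal ideal separate the points of the residue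
field. -/
theorem exists_addHom_ne_zero (p : ℕ) [Fact p.Prime] {A : Type*} [CommRing A] [IsLocalRing A]
    (hp : (p : A) ∈ maximalIdeal A) {a : A} (ha : a ∉ maximalIdeal A) :
    ∃ u : A →+ ZMod p, (∀ b ∈ maximalIdeal A, u b = 0) ∧ u a ≠ 0 := by
  have h0 : ((p : ℕ) : ResidueField A) = 0 := by
    have := (residue_eq_zero_iff (p : A)).mpr hp
    rwa [map_natCast] at this
  have hchar : CharP (ResidueField A) p :=
    (CharP.charP_iff_prime_eq_zero (Fact.out : p.Prime)).mpr h0
  letI : Algebra (ZMod p) (ResidueField A) := ZMod.algebra (ResidueField A) p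
  have hx : residue A a ≠ 0 := fun h => ha ((residue_eq_zero_iff a).mp h)
  obtain ⟨f, hf⟩ := Module.Projective.exists_dual_ne_zero (ZMod p) hx
  let g : ResidueField A →+ ZMod p := (f : ResidueField A →ₗ[ZMod p] ZMod p).toAddMonoidHom
  refine ⟨g.comp (residue A).toAddMonoidHom, fun b hb => ?_, hf⟩
  show g (residue A b) = 0
  rw [(residue_eq_zero_iff b).mpr hb, map_zero]

end Sep

end Fermat.Agent.Padic.S33
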