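import Mathlib
import Fermat.Agent.Padic.S33.PointPair

/-!
# S33, REP half of the glue: the end game (Mathlib only)

`exists_functional_of_nc`: let `j : 𝒪² → 𝒪 ⊗ Ta` be a primitive linear map, equivariant for a
representation `Mψ : G → GL₂(𝒪)` and the action of `G` on the `ℤ_p`-lattice `Ta`; let `I ⊆ G` act
through matrices which are `(a, *; 0, 1)` modulo the maximal ideal (`a` = the value of a
"character" `Om`), non-trivially; let `E ⊆ Ta` be a saturated submodule satisfying the clause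
(NC): there is no `I`-stable `L ⊊ V ⊆ (E + p Ta) / p Ta` with `I` acting on `L` through `Om` and
trivially on `V / L`.  Then `j` does not land in `𝒪 ⊗ E`: some functional `f` on `Ta` vanishing on
`E` has `(1 ⊗ f) ∘ j ≠ 0`.
-/

set_option autoImplicit false

open scoped TensorProduct
open IsLocalRing

namespace Fermat.Agent.Padic.S33

/-- **End game of the REP half of the S33 glue.** -/
theorem exists_functional_of_nc {p : ℕ} [Fact p.Prime] {G : Type*} [Group G]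
    {𝒪 : Type*} [CommRing 𝒪] [IsLocalRing 𝒪] [Algebra ℤ_[p] 𝒪]
    (hp : (p : 𝒪) ∈ maximalIdeal 𝒪) (ϖ : 𝒪) (hϖ : maximalIdeal 𝒪 = Ideal.span {ϖ})
    {Ta : Type*} [AddCommGroup Ta] [Module ℤ_[p] Ta] [Module.Free ℤ_[p] Ta]
    [Module.Finite ℤ_[p] Ta] (gal : G →* Module.End ℤ_[p] Ta) (I : Set G) (Om : G → ℕ → Prop)
    (E : Submodule ℤ_[p] Ta) (hsat : ∀ v : Ta, (p : ℤ_[p]) • v ∈ E → v ∈ E)
    (hnc : ∀ V L : AddSubgroup Ta, L ≤ V → (∀ w : Ta, (p : ℤ_[p]) • w ∈ L) →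
      (∀ v ∈ V, ∃ e ∈ E, ∃ w : Ta, v = e + (p : ℤ_[p]) • w) →
      (∀ σ ∈ I, ∀ v ∈ V, gal σ v - v ∈ L) →
      (∀ σ ∈ I, ∀ a : ℕ, Om σ a → ∀ v ∈ L, ∃ w : Ta, gal σ v - a • v = (p : ℤ_[p]) • w) →
      V ≤ L)
    (Mψ : G →* Matrix (Fin 2) (Fin 2) 𝒪)
    (j : (Fin 2 → 𝒪) →ₗ[𝒪] 𝒪 ⊗[ℤ_[p]] Ta)
    (hjeq : ∀ (g : G) (w : Fin 2 → 𝒪), j ((Mψ g).mulVec w) = (gal g).baseChange 𝒪 (j w))
    (hjprim : ∀ (w : Fin 2 → 𝒪) (y : 𝒪 ⊗[ℤ_[p]] Ta), j w = ϖ • y → ∀ i, ϖ ∣ w i)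
    (h10 : ∀ σ ∈ I, Mψ σ 1 0 ∈ maximalIdeal 𝒪)
    (h11 : ∀ σ ∈ I, Mψ σ 1 1 - 1 ∈ maximalIdeal 𝒪)
    (h00 : ∀ σ ∈ I, ∀ a : ℕ, Om σ a → Mψ σ 0 0 - (a : 𝒪) ∈ maximalIdeal 𝒪)
    (hne : ∃ σ ∈ I, ∃ a : ℕ, Om σ a ∧ (a : 𝒪) - 1 ∉ maximalIdeal 𝒪) :
    ∃ f : Ta →ₗ[ℤ_[p]] ℤ_[p], (∀ e ∈ E, f e = 0) ∧ ∃ w : Fin 2 → 𝒪, pair 𝒪 f (j w) ≠ 0 := by
  classical
  by_contra hcon
  have hcon' : ∀ f : Ta →ₗ[ℤ_[p]] ℤ_[p], (∀ e ∈ E, f e = 0) → ∀ w : Fin 2 → 𝒪,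
      pair 𝒪 f (j w) = 0 := by
    intro f hf w
    by_contra h
    exact hcon ⟨f, hf, w, h⟩
  set 𝔪 := maximalIdeal 𝒪 with h𝔪
  let bT := Module.Free.chooseBasis ℤ_[p] Ta
  obtain ⟨σ₀, hσ₀, a₀, hOm₀, ha₀⟩ := hne
  -- linearity of `j` in coordinates
  have hjsum : ∀ c : Fin 2 → 𝒪, j c = c 0 • j (Pi.single 0 1) + c 1 • j (Pi.single 1 1) := by
    intro c
    have hc : c = c 0 • (Pi.single 0 1 : Fin 2 → 𝒪) + c 1 • (Pi.single 1 1 : Fin 2 → 𝒪) := by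
      funext i
      fin_cases i <;> simp
    conv_lhs => rw [hc]
    rw [map_add, map_smul, map_smul]
  -- elements with coordinates in `𝔪` have all projections zero
  have hsmall : ∀ (u : 𝒪 →+ ZMod p), (∀ b ∈ 𝔪, u b = 0) → ∀ c : Fin 2 → 𝒪, (∀ i, c i ∈ 𝔪) →
      ∀ f : Ta →ₗ[ℤ_[p]] ℤ_[p], u (pair 𝒪 f (j c)) = 0 := by
    intro u hu c hc f
    apply hu
    rw [hjsum c, map_add, map_smul, map_smul, smul_eq_mul, smul_eq_mul]
    exact 𝔪.add_mem (𝔪.mul_mem_right _ (hc 0)) (𝔪.mul_mem_right _ (hc 1))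
  -- the key claim, for each additive character `u`
  have key : ∀ (u : 𝒪 →+ ZMod p), (∀ b ∈ 𝔪, u b = 0) → ∀ f : Ta →ₗ[ℤ_[p]] ℤ_[p],
      u (pair 𝒪 f (j ((Mψ σ₀).mulVec (Pi.single 1 1) - a₀ • Pi.single 1 1))) = 0 := by
    intro u hu f
    have husl := addHom_semilinear hp u hu
    let V : AddSubgroup Ta :=
      { carrier := {t | ∃ w : Fin 2 → 𝒪, ProjRel u (j w) t}
        zero_mem' := ⟨0, by
          have h := ProjRel.zero_smul (A := 𝒪) u (0 : Ta)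
          rwa [smul_zero, ← map_zero j] at h⟩
        add_mem' := by
          rintro t t' ⟨w, h⟩ ⟨w', h'⟩
          exact ⟨w + w', by rw [map_add]; exact h.add h'⟩
        neg_mem' := by
          rintro t ⟨w, h⟩
          exact ⟨-w, by rw [map_neg]; exact h.neg⟩ }
    let L : AddSubgroup Ta :=
      { carrier := {t | ∃ w : Fin 2 → 𝒪, w 1 ∈ 𝔪 ∧ ProjRel u (j w) t}
        zero_mem' := ⟨0, 𝔪.zero_mem, by
          have h := ProjRel.zero_smul (A := 𝒪) u (0 : Ta)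
          rwa [smul_zero, ← map_zero j] at h⟩
        add_mem' := by
          rintro t t' ⟨w, hw, h⟩ ⟨w', hw', h'⟩
          exact ⟨w + w', 𝔪.add_mem hw hw', by rw [map_add]; exact h.add h'⟩
        neg_mem' := by
          rintro t ⟨w, hw, h⟩
          exact ⟨-w, 𝔪.neg_mem hw, by rw [map_neg]; exact h.neg⟩ }
    have hVmem : ∀ t, t ∈ V ↔ ∃ w : Fin 2 → 𝒪, ProjRel u (j w) t := fun t => Iff.rfl
    have hLmem : ∀ t, t ∈ L ↔ ∃ w : Fin 2 → 𝒪, w 1 ∈ 𝔪 ∧ ProjRel u (j w) t := fun t => Iff.rfl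
    -- clause (d)
    have hd : ∀ σ ∈ I, ∀ a : ℕ, Om σ a → ∀ v ∈ L,
        ∃ w : Ta, gal σ v - a • v = (p : ℤ_[p]) • w := by
      intro σ hσ a ha v hv
      obtain ⟨w, hw1, h⟩ := (hLmem v).mp hv
      have hrel : ProjRel u (j ((Mψ σ).mulVec w - a • w)) (gal σ v - a • v) := by
        rw [map_sub, hjeq, map_nsmul]
        exact (h.map (gal σ)).sub (h.nsmul a)
      refine hrel.exists_eq_smul bT (hsmall u hu _ ?_)
      intro i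
      have e0 : ((Mψ σ).mulVec w - a • w) 0 = (Mψ σ 0 0 - (a : 𝒪)) * w 0 + Mψ σ 0 1 * w 1 := by
        rw [Pi.sub_apply, Pi.smul_apply, nsmul_eq_mul]
        simp only [Matrix.mulVec, dotProduct, Fin.sum_univ_two]
        ring
      have e1 : ((Mψ σ).mulVec w - a • w) 1 = Mψ σ 1 0 * w 0 + (Mψ σ 1 1 - (a : 𝒪)) * w 1 := by
        rw [Pi.sub_apply, Pi.smul_apply, nsmul_eq_mul]
        simp only [Matrix.mulVec, dotProduct, Fin.sum_univ_two]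
        ring
      fin_cases i
      · show ((Mψ σ).mulVec w - a • w) 0 ∈ 𝔪
        rw [e0]
        exact 𝔪.add_mem (𝔪.mul_mem_right _ (h00 σ hσ a ha)) (𝔪.mul_mem_left _ hw1)
      · show ((Mψ σ).mulVec w - a • w) 1 ∈ 𝔪
        rw [e1]
        exact 𝔪.add_mem (𝔪.mul_mem_right _ (h10 σ hσ)) (𝔪.mul_mem_left _ hw1)
    have hVL : V ≤ L := by
      refine hnc V L ?_ ?_ ?_ ?_ hd
      · intro t ht
        obtain ⟨w, -, h⟩ := (hLmem t).mp ht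
        exact (hVmem t).mpr ⟨w, h⟩
      · intro w'
        refine (hLmem _).mpr ⟨0, 𝔪.zero_mem, ?_⟩
        rw [map_zero]
        exact ProjRel.zero_smul u w'
      · intro v hv
        obtain ⟨w, h⟩ := (hVmem v).mp hv
        exact h.exists_mem_add_smul E hsat (fun f hf => by rw [hcon' f hf w, map_zero])
      · intro σ hσ v hv
        obtain ⟨w, h⟩ := (hVmem v).mp hv
        refine (hLmem _).mpr ⟨(Mψ σ).mulVec w - w, ?_, ?_⟩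
        · have e1 : ((Mψ σ).mulVec w - w) 1 = Mψ σ 1 0 * w 0 + (Mψ σ 1 1 - 1) * w 1 := by
            simp only [Pi.sub_apply, Matrix.mulVec, dotProduct, Fin.sum_univ_two]
            ring
          rw [e1]
          exact 𝔪.add_mem (𝔪.mul_mem_right _ (h10 σ hσ)) (𝔪.mul_mem_right _ (h11 σ hσ))
        · rw [map_sub, hjeq]
          exact (h.map (gal σ)).sub h
    obtain ⟨t, ht⟩ := ProjRel.exists_projRel bT u husl (j (Pi.single 1 1))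
    have htL : t ∈ L := hVL ((hVmem t).mpr ⟨_, ht⟩)
    obtain ⟨w', hw'⟩ := hd σ₀ hσ₀ a₀ hOm₀ t htL
    have hrel : ProjRel u (j ((Mψ σ₀).mulVec (Pi.single 1 1) - a₀ • Pi.single 1 1))
        (gal σ₀ t - a₀ • t) := by
      rw [map_sub, hjeq, map_nsmul]
      exact (ht.map (gal σ₀)).sub (ht.nsmul a₀)
    rw [hw'] at hrel
    exact hrel.eq_zero_of_smul f
  -- hence `j (Mψ σ₀ e₁ - a₀ e₁)` is divisible by `ϖ`
  have hdiv : ∀ f : Ta →ₗ[ℤ_[p]] ℤ_[p],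
      pair 𝒪 f (j ((Mψ σ₀).mulVec (Pi.single 1 1) - a₀ • Pi.single 1 1)) ∈ 𝔪 := by
    intro f
    by_contra hnot
    obtain ⟨u, hu, hune⟩ := exists_addHom_ne_zero p hp hnot
    exact hune (key u hu f)
  obtain ⟨y, hy⟩ := exists_eq_smul_of_dvd_pair 𝒪 bT ϖ
    (j ((Mψ σ₀).mulVec (Pi.single 1 1) - a₀ • Pi.single 1 1))
    (fun i => by
      have h := hdiv (bT.coord i)
      rw [hϖ, Ideal.mem_span_singleton] at h
      exact h)
  have h1 := hjprim _ y hy 1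
  have e1 : ((Mψ σ₀).mulVec (Pi.single 1 1) - a₀ • (Pi.single 1 1 : Fin 2 → 𝒪)) 1
      = Mψ σ₀ 1 1 - (a₀ : 𝒪) := by
    simp
  rw [e1] at h1
  have h2 : Mψ σ₀ 1 1 - (a₀ : 𝒪) ∈ 𝔪 := by
    rw [hϖ, Ideal.mem_span_singleton]
    exact h1
  apply ha₀
  have e2 : (a₀ : 𝒪) - 1 = (Mψ σ₀ 1 1 - 1) - (Mψ σ₀ 1 1 - (a₀ : 𝒪)) := by ring
  rw [e2]
  exact 𝔪.sub_mem (h11 σ₀ hσ₀) h2

end Fermat.Agent.Padic.S33
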