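import Mathlib
import Fermat.Agent.Lib.GalRep.BLR
import Fermat.Agent.ESJ.Rep.AdicQuad

/-!
# S33, REP half of the glue: the abstract core

* `exists_primitive_equivariant` : a saturated nonzero sublattice `X` of a lattice `Y` over a
  discrete valuation ring (`2` invertible) on which every `g ∈ G` satisfies the characteristic
  polynomial of `ρ g`, `ρ : G → GL₂(𝒪)` spanning `M₂(𝒪)`, receives an equivariant linear map
  `j : 𝒪² → X` which is primitive in `Y` (Boston–Lenstra–Ribet + Morita, `Lib/GalRep/BLR.lean`).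
* `exists_joint_quadratic` : two continuous lattices with the same Eichler–Shimura relations at
  the Frobenius lifts satisfy, for every `g`, a quadratic relation with the SAME linear
  coefficient (`AdicQuad.exists_quadratic_of_frob` on the product).
-/

set_option autoImplicit false

open scoped TensorProduct

namespace Fermat.Agent.Padic.S33

open Fermat.Agent.Lib.GalRep Fermat.Agent.ESJ.Rep

local notation "Qb" => AlgebraicClosure ℚ
local notation "GQ" => (AlgebraicClosure ℚ ≃ₐ[ℚ] AlgebraicClosure ℚ)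

/-- **Equivariant primitive vectors.**  Let `𝒪` be a discrete valuation ring in which `2` is a
unit, `Y` a finite free `𝒪`-module, `X ⊆ Y` a nonzero saturated submodule with an action `a` of
a group `G`, and `ρ : G → GL₂(𝒪)` a representation spanning `M₂(𝒪)` such that every `g`
satisfies the characteristic polynomial of `ρ g` on `X`.  Then there is an `𝒪`-linear map
`j : 𝒪² → X`, equivariant for `ρ` and `a`, such that `j w ∈ ϖ Y` only if `w ∈ ϖ 𝒪²`. -/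
theorem exists_primitive_equivariant {G : Type*} [Group G] {𝒪 : Type*} [CommRing 𝒪] [IsDomain 𝒪]
    [IsDiscreteValuationRing 𝒪] (h2 : IsUnit (2 : 𝒪))
    {Y : Type*} [AddCommGroup Y] [Module 𝒪 Y] [Module.Free 𝒪 Y] [Module.Finite 𝒪 Y]
    (X : Submodule 𝒪 Y) (hXne : X ≠ ⊥)
    (hsat : ∀ c : 𝒪, c ≠ 0 → ∀ y : Y, c • y ∈ X → y ∈ X)
    (a : G →* Module.End 𝒪 X)
    (ρ : G →* Matrix (Fin 2) (Fin 2) 𝒪) (hspan : Submodule.span 𝒪 (Set.range ρ) = ⊤)
    (hCH : ∀ g : G, a g * a g - (ρ g).trace • a g + (ρ g).det • (1 : Module.End 𝒪 X) = 0) :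
    ∃ j : (Fin 2 → 𝒪) →ₗ[𝒪] X,
      (∀ (g : G) (w : Fin 2 → 𝒪), j ((ρ g).mulVec w) = a g (j w)) ∧
      ∀ ϖ : 𝒪, Irreducible ϖ → ∀ (w : Fin 2 → 𝒪) (y : Y), (j w : Y) = ϖ • y → ∀ i, ϖ ∣ w i := by
  classical
  obtain ⟨X₀, Φ, hΦ⟩ := BLR.exists_equiv ρ a hCH h2 hspan
  -- `X₀ ≠ ⊥`
  have hX₀ : X₀ ≠ ⊥ := by
    intro h0
    apply hXne
    rw [Submodule.eq_bot_iff]
    intro x hx
    obtain ⟨v, hv⟩ := Φ.surjective (⟨x, hx⟩ : X)
    have hv0 : v = 0 := by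
      funext i
      have h1 : (v i : X) ∈ (⊥ : Submodule 𝒪 X) := h0 ▸ (v i).2
      exact Subtype.ext ((Submodule.mem_bot 𝒪).mp h1)
    rw [hv0, map_zero] at hv
    exact (congrArg Subtype.val hv).symm
  -- a basis of `X₀`
  obtain ⟨n, bX⟩ := Submodule.basisOfPid (Module.Free.chooseBasis 𝒪 Y) X
  obtain ⟨m, b₀⟩ := Submodule.basisOfPid bX X₀
  have hm : 0 < m := by
    rcases Nat.eq_zero_or_pos m with h | h
    · exfalso
      subst h
      apply hX₀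
      rw [Submodule.eq_bot_iff]
      intro x hx
      have h1 : b₀.repr (⟨x, hx⟩ : X₀) = 0 := Finsupp.ext fun i => i.elim0
      have h2 : (⟨x, hx⟩ : X₀) = 0 := b₀.repr.injective (h1.trans (map_zero _).symm)
      exact congrArg Subtype.val h2
    · exact h
  set x₀ : X₀ := b₀ ⟨0, hm⟩ with hx₀
  let j : (Fin 2 → 𝒪) →ₗ[𝒪] X :=
    { toFun := fun w => Φ (fun i => w i • x₀)
      map_add' := fun w w' => by
        rw [← map_add]
        congr 1
        funext i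
        simp only [Pi.add_apply, add_smul]
      map_smul' := fun c w => by
        rw [RingHom.id_apply, ← map_smul]
        congr 1
        funext i
        simp only [Pi.smul_apply, smul_eq_mul, mul_smul] }
  have hj : ∀ w, j w = Φ (fun i => w i • x₀) := fun w => rfl
  refine ⟨j, ?_, ?_⟩
  · intro g w
    rw [hj, hj, hΦ]
    congr 1
    funext i
    simp only [Matrix.mulVec, dotProduct, Finset.sum_smul, mul_smul]
  · intro ϖ hϖ w y hy i
    have hyX : y ∈ X := hsat ϖ hϖ.ne_zero y (by rw [← hy]; exact (j w).2)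
    obtain ⟨v, hv⟩ := Φ.surjective (⟨y, hyX⟩ : X)
    have h1 : j w = ϖ • Φ v := by
      apply Subtype.ext
      rw [hy, hv]
      rfl
    rw [hj, ← map_smul] at h1
    have h2 := congrFun (Φ.injective h1) i
    simp only [Pi.smul_apply] at h2
    have h3 := congrArg (fun z => b₀.repr z ⟨0, hm⟩) h2
    simp only [map_smul, Finsupp.smul_apply, smul_eq_mul, hx₀, Module.Basis.repr_self,
      Finsupp.single_eq_same, mul_one] at h3
    exact ⟨_, h3⟩

/-- A pair lies in `I • ⊤` as soon as both components do. -/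
theorem prod_mem_smul_top {𝒪 : Type*} [CommRing 𝒪] {W₁ W₂ : Type*} [AddCommGroup W₁]
    [Module 𝒪 W₁] [AddCommGroup W₂] [Module 𝒪 W₂] (I : Ideal 𝒪) {x : W₁} {y : W₂}
    (hx : x ∈ I • (⊤ : Submodule 𝒪 W₁)) (hy : y ∈ I • (⊤ : Submodule 𝒪 W₂)) :
    ((x, y) : W₁ × W₂) ∈ I • (⊤ : Submodule 𝒪 (W₁ × W₂)) := by
  have h1 : ((x, 0) : W₁ × W₂) ∈ I • (⊤ : Submodule 𝒪 (W₁ × W₂)) := by
    have h := Submodule.mem_map_of_mem (f := LinearMap.inl 𝒪 W₁ W₂) hx
    rw [Submodule.map_smul''] at h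
    exact Submodule.smul_mono le_rfl le_top h
  have h2 : ((0, y) : W₁ × W₂) ∈ I • (⊤ : Submodule 𝒪 (W₁ × W₂)) := by
    have h := Submodule.mem_map_of_mem (f := LinearMap.inr 𝒪 W₁ W₂) hy
    rw [Submodule.map_smul''] at h
    exact Submodule.smul_mono le_rfl le_top h
  have e : ((x, y) : W₁ × W₂) = (x, 0) + (0, y) := by simp
  rw [e]
  exact Submodule.add_mem _ h1 h2

/-- **Joint quadratic relation.**  Two continuous `𝒪`-lattices with the same Eichler–Shimura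
relations at the Frobenius lifts outside `S`: every `g ∈ G_ℚ` satisfies on both a quadratic
relation with the same linear coefficient and constant term the cyclotomic character. -/
theorem exists_joint_quadratic (hFrob : FrobDensity) {p : ℕ} [Fact p.Prime] (𝒪 : Type)
    [CommRing 𝒪] [IsDomain 𝒪] [IsDiscreteValuationRing 𝒪] [Algebra ℤ_[p] 𝒪]
    (hp : (p : 𝒪) ∈ IsLocalRing.maximalIdeal 𝒪) (S : Finset ℕ) (hpS : p ∈ S) (a : ℕ → 𝒪)
    (W₁ W₂ : Type) [AddCommGroup W₁] [Module 𝒪 W₁] [Module.Free 𝒪 W₁] [Module.Finite 𝒪 W₁]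
    [AddCommGroup W₂] [Module 𝒪 W₂] [Module.Free 𝒪 W₂] [Module.Finite 𝒪 W₂]
    (ρ₁ : GQ →* Module.End 𝒪 W₁) (ρ₂ : GQ →* Module.End 𝒪 W₂)
    (hc₁ : GaloisActionIsAdicContinuous 𝒪 ρ₁) (hc₂ : GaloisActionIsAdicContinuous 𝒪 ρ₂)
    (hq₁ : ∀ ℓ : ℕ, ℓ.Prime → ℓ ∉ S → ∀ A : ValuationSubring Qb, A.LiesOverPrime ℓ →
      ∀ σ : GQ, A.IsFrobeniusAt σ ℓ →
        ρ₁ σ * ρ₁ σ - a ℓ • ρ₁ σ + (ℓ : 𝒪) • (1 : Module.End 𝒪 W₁) = 0)
    (hq₂ : ∀ ℓ : ℕ, ℓ.Prime → ℓ ∉ S → ∀ A : ValuationSubring Qb, A.LiesOverPrime ℓ →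
      ∀ σ : GQ, A.IsFrobeniusAt σ ℓ →
        ρ₂ σ * ρ₂ σ - a ℓ • ρ₂ σ + (ℓ : 𝒪) • (1 : Module.End 𝒪 W₂) = 0) (g : GQ) :
    ∃ t : 𝒪,
      ρ₁ g * ρ₁ g - t • ρ₁ g +
        algebraMap ℤ_[p] 𝒪 ((cyclo p g : ℤ_[p]ˣ) : ℤ_[p]) • (1 : Module.End 𝒪 W₁) = 0 ∧
      ρ₂ g * ρ₂ g - t • ρ₂ g +
        algebraMap ℤ_[p] 𝒪 ((cyclo p g : ℤ_[p]ˣ) : ℤ_[p]) • (1 : Module.End 𝒪 W₂) = 0 := by
  let ρ : GQ →* Module.End 𝒪 (W₁ × W₂) :=
    { toFun := fun σ => (ρ₁ σ).prodMap (ρ₂ σ)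
      map_one' := by
        rw [map_one, map_one]
        exact LinearMap.prodMap_one
      map_mul' := fun σ τ => by
        rw [map_mul, map_mul]
        exact (LinearMap.prodMap_mul _ _ _ _).symm }
  have hρ : ∀ σ, ρ σ = (ρ₁ σ).prodMap (ρ₂ σ) := fun σ => rfl
  have hcont : GaloisActionIsAdicContinuous 𝒪 ρ := by
    intro n
    obtain ⟨L₁, hL₁, h₁⟩ := hc₁ n
    obtain ⟨L₂, hL₂, h₂⟩ := hc₂ n
    refine ⟨L₁ ⊔ L₂, IntermediateField.finiteDimensional_sup L₁ L₂, fun σ hσ v => ?_⟩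
    have e : ρ σ v - v = (ρ₁ σ v.1 - v.1, ρ₂ σ v.2 - v.2) := by
      rw [hρ]
      rfl
    rw [e]
    exact prod_mem_smul_top _
      (h₁ σ (fun x hx => hσ x ((le_sup_left : L₁ ≤ L₁ ⊔ L₂) hx)) v.1)
      (h₂ σ (fun x hx => hσ x ((le_sup_right : L₂ ≤ L₁ ⊔ L₂) hx)) v.2)
  have hquad : ∀ ℓ : ℕ, ℓ.Prime → ℓ ∉ S → ∀ A : ValuationSubring Qb, A.LiesOverPrime ℓ →
      ∀ σ : GQ, A.IsFrobeniusAt σ ℓ →
        ρ σ * ρ σ - a ℓ • ρ σ + (ℓ : 𝒪) • (1 : Module.End 𝒪 (W₁ × W₂)) = 0 := by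
    intro ℓ hℓ hℓS A hA σ hσ
    have e1 := hq₁ ℓ hℓ hℓS A hA σ hσ
    have e2 := hq₂ ℓ hℓ hℓS A hA σ hσ
    refine LinearMap.ext fun v => ?_
    have f1 := congrArg (fun f : Module.End 𝒪 W₁ => f v.1) e1
    have f2 := congrArg (fun f : Module.End 𝒪 W₂ => f v.2) e2
    simp only [LinearMap.add_apply, LinearMap.sub_apply, Module.End.mul_apply,
      LinearMap.smul_apply, Module.End.one_apply, LinearMap.zero_apply] at f1 f2
    rw [hρ]
    exact Prod.ext f1 f2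
  obtain ⟨t, ht⟩ := exists_quadratic_of_frob hFrob 𝒪 hp S hpS a (W₁ × W₂) ρ hcont hquad g
  refine ⟨t, ?_, ?_⟩
  · refine LinearMap.ext fun v => ?_
    have f := congrArg (fun f : Module.End 𝒪 (W₁ × W₂) => (f (v, 0)).1) ht
    rw [hρ] at f
    simpa using f
  · refine LinearMap.ext fun v => ?_
    have f := congrArg (fun f : Module.End 𝒪 (W₁ × W₂) => (f (0, v)).2) ht
    rw [hρ] at f
    simpa using f

end Fermat.Agent.Padic.S33
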