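import Mathlib
import Fermat.Agent.Padic.S33.PointCore
import Fermat.Agent.ESJ.Rep.AdicMod
import Fermat.Agent.ESJ.Rep.FrobDens
import Fermat.Agent.ESJ.Rep.Dichotomy
import Fermat.Agent.S31.Cong
import Fermat.Agent.Lib.GalRep.TraceRigid

/-!
# S33, REP half of the glue: the characteristic polynomial of `ρ_ψ` on the eigen-lattice

For a Hecke–Galois datum `H` over `T`, a local homomorphism `ψ : T → 𝒪₁` to a discrete valuation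
ring and a character `χ₁` of the full Hecke algebra compatible with `ψ ∘ π`:

* `matPsi H b ψ` : the matrices of `ρ_ψ = ρ ⊗_ψ 𝒪₁` in a basis `b` of `ρ.V`; they span `M₂(𝒪₁)`;
* `psi_det_eq_cyclo` : `ψ (det ρ g)` is the cyclotomic character;
* `rhoA_charpoly` : every `g ∈ G_ℚ` satisfies the characteristic polynomial of `ρ_ψ g` on the
  anemic eigen-lattice `AdicMod.latA D 𝒪₁ χ₁ ⊆ 𝒪₁ ⊗ Ta`.
-/

set_option autoImplicit false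
set_option linter.unusedSectionVars false

open scoped TensorProduct
open IsLocalRing

namespace Fermat.Agent.Padic.S33

open Fermat.Agent.ESJ.Rep Fermat.Agent.Lib.GalRep

variable {p : ℕ} {N : ℕ} [NeZero N] {S : Finset ℕ}
  {𝒪 : Type} [CommRing 𝒪] [IsDomain 𝒪] [IsDiscreteValuationRing 𝒪]
  [IsAdicComplete (IsLocalRing.maximalIdeal 𝒪) 𝒪]
  {θ : CuspForm.heckeAlgebra N 2 (↑S : Set ℕ) →+* IsLocalRing.ResidueField 𝒪}
  {T : Type} [CommRing T] [IsLocalRing T] [IsNoetherianRing T]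
  [IsAdicComplete (IsLocalRing.maximalIdeal T) T] [Algebra 𝒪 T] [IsLocalHom (algebraMap 𝒪 T)]
  [Module.Finite 𝒪 T] [Module.Free 𝒪 T]
  {𝒪₁ : Type} [CommRing 𝒪₁]

/-- The matrices of `ρ ⊗_ψ 𝒪₁` in a basis of `ρ.V`. -/
noncomputable def matPsi (H : CuspForm.HeckeGaloisRepDatum N (↑S : Set ℕ) 𝒪 θ T)
    (b : Module.Basis (Fin 2) T H.ρ.V) (ψ : T →+* 𝒪₁) : GQ →* Matrix (Fin 2) (Fin 2) 𝒪₁ :=
  ψ.mapMatrix.toMonoidHom.comp (matOfBasis b H.ρ.ρ)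

theorem matPsi_apply (H : CuspForm.HeckeGaloisRepDatum N (↑S : Set ℕ) 𝒪 θ T)
    (b : Module.Basis (Fin 2) T H.ρ.V) (ψ : T →+* 𝒪₁) (g : GQ) (i j : Fin 2) :
    matPsi H b ψ g i j = ψ (LinearMap.toMatrix b b (H.ρ.ρ g) i j) := rfl

theorem matPsi_eq (H : CuspForm.HeckeGaloisRepDatum N (↑S : Set ℕ) 𝒪 θ T)
    (b : Module.Basis (Fin 2) T H.ρ.V) (ψ : T →+* 𝒪₁) (g : GQ) :
    matPsi H b ψ g = ψ.mapMatrix (LinearMap.toMatrix b b (H.ρ.ρ g)) := rfl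

theorem trace_matPsi (H : CuspForm.HeckeGaloisRepDatum N (↑S : Set ℕ) 𝒪 θ T)
    (b : Module.Basis (Fin 2) T H.ρ.V) (ψ : T →+* 𝒪₁) (g : GQ) :
    (matPsi H b ψ g).trace = ψ (LinearMap.toMatrix b b (H.ρ.ρ g)).trace := by
  rw [Matrix.trace_fin_two, Matrix.trace_fin_two, map_add, matPsi_apply, matPsi_apply]

theorem det_matPsi (H : CuspForm.HeckeGaloisRepDatum N (↑S : Set ℕ) 𝒪 θ T)
    (b : Module.Basis (Fin 2) T H.ρ.V) (ψ : T →+* 𝒪₁) (g : GQ) :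
    (matPsi H b ψ g).det = ψ (LinearMap.det (H.ρ.ρ g)) := by
  rw [← LinearMap.det_toMatrix b, matPsi_eq, RingHom.map_det]

/-- The matrices of `ρ_ψ` span `M₂(𝒪₁)` (residual absolute irreducibility). -/
theorem span_matPsi (H : CuspForm.HeckeGaloisRepDatum N (↑S : Set ℕ) 𝒪 θ T)
    (b : Module.Basis (Fin 2) T H.ρ.V) (ψ : T →+* 𝒪₁) :
    Submodule.span 𝒪₁ (Set.range (matPsi H b ψ)) = ⊤ := by
  classical
  have h := span_range_toMatrix_eq_top_of_residual_absIrr H.ρ H.residual_absIrr b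
  have key : ∀ Z ∈ Submodule.span T (Set.range fun g : GQ => LinearMap.toMatrix b b (H.ρ.ρ g)),
      ψ.mapMatrix Z ∈ Submodule.span 𝒪₁ (Set.range (matPsi H b ψ)) := by
    intro Z hZ
    induction hZ using Submodule.span_induction with
    | mem x hx =>
      obtain ⟨g, rfl⟩ := hx
      exact Submodule.subset_span ⟨g, rfl⟩
    | zero => rw [map_zero]; exact Submodule.zero_mem _
    | add x y _ _ hx hy => rw [map_add]; exact Submodule.add_mem _ hx hy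
    | smul c x _ hx =>
      have e : ψ.mapMatrix (c • x) = ψ c • ψ.mapMatrix x := by
        ext i j
        simp
      rw [e]
      exact Submodule.smul_mem _ _ hx
  rw [eq_top_iff]
  intro Y _
  have hY : Y = ∑ i, ∑ j, Y i j • ψ.mapMatrix (Matrix.single i j (1 : T)) := by
    conv_lhs => rw [Matrix.matrix_eq_sum_single Y]
    refine Finset.sum_congr rfl fun i _ => Finset.sum_congr rfl fun j _ => ?_
    ext k l
    simp [Matrix.single_apply]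
  rw [hY]
  exact Submodule.sum_mem _ fun i _ => Submodule.sum_mem _ fun j _ =>
    Submodule.smul_mem _ _ (key _ (by rw [h]; trivial))

/-- A local homomorphism maps `𝔪ⁿ` into `𝔪ⁿ`. -/
theorem map_mem_maximalIdeal_pow [IsLocalRing 𝒪₁] (ψ : T →+* 𝒪₁)
    (hloc : ∀ t ∈ maximalIdeal T, ψ t ∈ maximalIdeal 𝒪₁) (n : ℕ) {x : T}
    (hx : x ∈ maximalIdeal T ^ n) : ψ x ∈ maximalIdeal 𝒪₁ ^ n := by
  have h1 : (maximalIdeal T ^ n).map ψ ≤ maximalIdeal 𝒪₁ ^ n := by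
    rw [Ideal.map_pow]
    exact Ideal.pow_right_mono
      (Ideal.map_le_iff_le_comap.mpr fun t ht => Ideal.mem_comap.mpr (hloc t ht)) n
  exact h1 (Ideal.mem_map_of_mem ψ hx)

variable [IsDomain 𝒪₁] [IsDiscreteValuationRing 𝒪₁]

/-- `ψ ∘ det ρ` is the cyclotomic character. -/
theorem psi_det_eq_cyclo [Fact p.Prime] [Algebra ℤ_[p] 𝒪₁]
    (hp𝒪 : (p : 𝒪) ∈ maximalIdeal 𝒪) (hpS : p ∈ S)
    (H : CuspForm.HeckeGaloisRepDatum N (↑S : Set ℕ) 𝒪 θ T) (ψ : T →+* 𝒪₁)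
    (hloc : ∀ t ∈ maximalIdeal T, ψ t ∈ maximalIdeal 𝒪₁)
    (hp₁ : (p : 𝒪₁) ∈ maximalIdeal 𝒪₁) (g : GQ) :
    ψ (LinearMap.det (H.ρ.ρ g)) = algebraMap ℤ_[p] 𝒪₁ ((cyclo p g : ℤ_[p]ˣ) : ℤ_[p]) := by
  rw [← sub_eq_zero]
  refine AdicQuad.eq_zero_of_forall_mem_pow fun n => ?_
  set c : ℤ_[p] := ((cyclo p g : ℤ_[p]ˣ) : ℤ_[p]) with hc
  have h1 : c - (c.appr n : ℤ_[p]) ∈ Ideal.span {(p : ℤ_[p]) ^ n} := PadicInt.appr_spec n c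
  have h2 : ((c.appr n : ℕ) : ℤ_[p]) - c ∈ Ideal.span {(p : ℤ_[p]) ^ n} := by
    rw [← neg_sub]
    exact neg_mem h1
  have h3 := Fermat.Agent.S31.det_sub_natCast_mem hp𝒪 hpS H n g (c.appr n) h2
  have h4 := map_mem_maximalIdeal_pow ψ hloc n h3
  have h5 : algebraMap ℤ_[p] 𝒪₁ (c - (c.appr n : ℤ_[p])) ∈ maximalIdeal 𝒪₁ ^ n := by
    obtain ⟨z, hz⟩ := Ideal.mem_span_singleton.mp h1
    rw [hz, map_mul, map_pow, map_natCast]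
    exact Ideal.mul_mem_right _ _ (Ideal.pow_mem_pow hp₁ n)
  have e : ψ (LinearMap.det (H.ρ.ρ g)) - algebraMap ℤ_[p] 𝒪₁ c =
      ψ (LinearMap.det (H.ρ.ρ g) - (c.appr n : T)) -
        algebraMap ℤ_[p] 𝒪₁ (c - (c.appr n : ℤ_[p])) := by
    rw [map_sub, map_sub, map_natCast, map_natCast]
    ring
  rw [e]
  exact Ideal.sub_mem _ h4 h5

/-- **The characteristic polynomial of `ρ_ψ` on the anemic eigen-lattice.** -/
theorem rhoA_charpoly [Fact p.Prime] [CharZero 𝒪₁] [Algebra ℤ_[p] 𝒪₁]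
    (hp𝒪 : (p : 𝒪) ∈ maximalIdeal 𝒪) (hpS : p ∈ S)
    (hNS : ∀ q : ℕ, q.Prime → q ∣ N → q ∈ S)
    (H : CuspForm.HeckeGaloisRepDatum N (↑S : Set ℕ) 𝒪 θ T)
    (b : Module.Basis (Fin 2) T H.ρ.V) (D : TateDatumA p N) (ψ : T →+* 𝒪₁)
    (χ₁ : CuspForm.heckeAlgebra N 2 (∅ : Set ℕ) →+* 𝒪₁)
    (hloc : ∀ t ∈ maximalIdeal T, ψ t ∈ maximalIdeal 𝒪₁)
    (hp₁ : (p : 𝒪₁) ∈ maximalIdeal 𝒪₁)
    (hχ₁ : ∀ (ℓ : ℕ) (hℓ : ℓ.Prime) (hℓN : ¬ ℓ ∣ N) (hℓS : ℓ ∉ (↑S : Set ℕ)),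
      χ₁ (CuspForm.heckeFormsGen N 2 ⟨ℓ, hℓ⟩) =
        ψ (H.π (CuspForm.heckeAlgebra.T hℓ hℓN hℓS))) (g : GQ) :
    AdicMod.rhoA D 𝒪₁ χ₁ g * AdicMod.rhoA D 𝒪₁ χ₁ g
      - (matPsi H b ψ g).trace • AdicMod.rhoA D 𝒪₁ χ₁ g
      + (matPsi H b ψ g).det • (1 : Module.End 𝒪₁ (AdicMod.latA D 𝒪₁ χ₁)) = 0 := by
  classical
  set Mψ := matPsi H b ψ with hMψ
  let e : Matrix (Fin 2) (Fin 2) 𝒪₁ ≃ₐ[𝒪₁] Module.End 𝒪₁ (Fin 2 → 𝒪₁) := Matrix.toLinAlgEquiv'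
  let ρ₂ : GQ →* Module.End 𝒪₁ (Fin 2 → 𝒪₁) := (e : _ →* _).comp Mψ
  have hρ₂ : ∀ σ, ρ₂ σ = e (Mψ σ) := fun σ => rfl
  have he : ∀ (Z : Matrix (Fin 2) (Fin 2) 𝒪₁) (w : Fin 2 → 𝒪₁), e Z w = Z.mulVec w :=
    fun Z w => rfl
  let a : ℕ → 𝒪₁ := fun ℓ => if h : ℓ.Prime then AdicMod.ev 𝒪₁ χ₁ ⟨ℓ, h⟩ else 0
  -- continuity of `ρ₂`
  have hc₂ : GaloisActionIsAdicContinuous 𝒪₁ ρ₂ := by
    intro n
    obtain ⟨L, hL, h⟩ := H.ρ.isAdicContinuous n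
    refine ⟨L, hL, fun σ hσ w => ?_⟩
    have hd : ∀ i j, (Mψ σ - 1) i j ∈ maximalIdeal 𝒪₁ ^ n := by
      intro i j
      have h1 : (Mψ σ - 1) i j =
          ψ ((LinearMap.toMatrix b b (H.ρ.ρ σ) - 1) i j) := by
        rw [Matrix.sub_apply, Matrix.sub_apply, map_sub, hMψ, matPsi_apply, Matrix.one_apply,
          Matrix.one_apply]
        split_ifs <;> simp
      rw [h1]
      apply map_mem_maximalIdeal_pow ψ hloc n
      have h2 : (LinearMap.toMatrix b b (H.ρ.ρ σ) - 1) i j =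
          b.repr (H.ρ.ρ σ (b j) - b j) i := by
        rw [Matrix.sub_apply, LinearMap.toMatrix_apply, map_sub, Finsupp.sub_apply,
          Module.Basis.repr_self, Matrix.one_apply, Finsupp.single_apply]
        congr 1
        by_cases hij : i = j
        · rw [if_pos hij, if_pos hij.symm]
        · rw [if_neg hij, if_neg (Ne.symm hij)]
      rw [h2]
      exact AdicQuad.repr_mem_of_mem_smul_top b _ (h σ hσ (b j)) i
    have h3 : ρ₂ σ w - w = (Mψ σ - 1).mulVec w := by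
      rw [hρ₂, he, Matrix.sub_mulVec, Matrix.one_mulVec]
    rw [h3]
    apply Dichotomy.pi_mem_smul_top
    intro i
    rw [Matrix.mulVec, dotProduct]
    exact Ideal.sum_mem _ fun j _ => Ideal.mul_mem_right _ _ (hd i j)
  -- the Frobenius relations
  have hq₁ : ∀ ℓ : ℕ, ℓ.Prime → ℓ ∉ S → ∀ A : ValuationSubring Qb, A.LiesOverPrime ℓ →
      ∀ σ : GQ, A.IsFrobeniusAt σ ℓ →
        AdicMod.rhoA D 𝒪₁ χ₁ σ * AdicMod.rhoA D 𝒪₁ χ₁ σ - a ℓ • AdicMod.rhoA D 𝒪₁ χ₁ σ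
          + (ℓ : 𝒪₁) • (1 : Module.End 𝒪₁ (AdicMod.latA D 𝒪₁ χ₁)) = 0 := by
    intro ℓ hℓ hℓS A hA σ hσ
    have hℓN : ¬ ℓ ∣ N := fun hd => hℓS (hNS ℓ hℓ hd)
    have hℓp : ℓ ≠ p := fun h => hℓS (h ▸ hpS)
    have ha : a ℓ = AdicMod.ev 𝒪₁ χ₁ ⟨ℓ, hℓ⟩ := dif_pos hℓ
    rw [ha]
    exact AdicMod.rhoA_quadratic D 𝒪₁ χ₁ ⟨ℓ, hℓ⟩ hℓN hℓp A hA σ hσ
  have hq₂ : ∀ ℓ : ℕ, ℓ.Prime → ℓ ∉ S → ∀ A : ValuationSubring Qb, A.LiesOverPrime ℓ →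
      ∀ σ : GQ, A.IsFrobeniusAt σ ℓ →
        ρ₂ σ * ρ₂ σ - a ℓ • ρ₂ σ + (ℓ : 𝒪₁) • (1 : Module.End 𝒪₁ (Fin 2 → 𝒪₁)) = 0 := by
    intro ℓ hℓ hℓS A hA σ hσ
    have hℓN : ¬ ℓ ∣ N := fun hd => hℓS (hNS ℓ hℓ hd)
    have hℓS' : ℓ ∉ (↑S : Set ℕ) := fun h => hℓS (Finset.mem_coe.mp h)
    have ha : a ℓ = ψ (H.π (CuspForm.heckeAlgebra.T hℓ hℓN hℓS')) := by
      have h1 : a ℓ = AdicMod.ev 𝒪₁ χ₁ ⟨ℓ, hℓ⟩ := dif_pos hℓ
      rw [h1]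
      exact hχ₁ ℓ hℓ hℓN hℓS'
    have hch := H.charpoly_frob ℓ hℓ hℓN hℓS' A hA σ hσ
    rw [← LinearMap.charpoly_toMatrix (H.ρ.ρ σ) b] at hch
    obtain ⟨htr, hdet⟩ := Fermat.Agent.S31.trace_det_of_charpoly _ hch
    have h1 := Dichotomy.mat2_cayley (Mψ σ)
    rw [hMψ, trace_matPsi, det_matPsi, htr, ← LinearMap.det_toMatrix b, hdet, map_natCast, ← ha,
      ← hMψ] at h1
    have h2 := congrArg e h1
    rw [map_add, map_sub, map_mul, map_smul, map_smul, map_one, map_zero] at h2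
    exact h2
  obtain ⟨t, ht1, ht2⟩ := exists_joint_quadratic frobDensity 𝒪₁ hp₁ S hpS a
    (AdicMod.latA D 𝒪₁ χ₁) (Fin 2 → 𝒪₁) (AdicMod.rhoA D 𝒪₁ χ₁) ρ₂
    (AdicMod.rhoA_continuous D 𝒪₁ χ₁ hp₁) hc₂ hq₁ hq₂ g
  set c : 𝒪₁ := algebraMap ℤ_[p] 𝒪₁ ((cyclo p g : ℤ_[p]ˣ) : ℤ_[p]) with hc
  -- back to matrices
  have hm : Mψ g * Mψ g - t • Mψ g + c • (1 : Matrix (Fin 2) (Fin 2) 𝒪₁) = 0 := by
    apply e.injective
    rw [map_add, map_sub, map_mul, map_smul, map_smul, map_one, map_zero]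
    exact ht2
  have hdetc : (Mψ g).det = c := by
    rw [hMψ, det_matPsi]
    exact psi_det_eq_cyclo hp𝒪 hpS H ψ hloc hp₁ g
  have hcay := Dichotomy.mat2_cayley (Mψ g)
  rw [hdetc] at hcay
  have h3 : ((Mψ g).trace - t) • Mψ g = 0 := by
    have h4 : ((Mψ g).trace - t) • Mψ g =
        (Mψ g * Mψ g - t • Mψ g + c • (1 : Matrix (Fin 2) (Fin 2) 𝒪₁)) -
          (Mψ g * Mψ g - (Mψ g).trace • Mψ g + c • (1 : Matrix (Fin 2) (Fin 2) 𝒪₁)) := by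
      rw [sub_smul]
      abel
    rw [h4, hm, hcay, sub_zero]
  have h5 : ((Mψ g).trace - t) • (1 : Matrix (Fin 2) (Fin 2) 𝒪₁) = 0 := by
    have h6 : Mψ g * Mψ g⁻¹ = 1 := by rw [← map_mul, mul_inv_cancel, map_one]
    rw [← h6, ← smul_mul_assoc, h3, zero_mul]
  have h7 : (Mψ g).trace = t := by
    have h8 := congrFun (congrFun h5 0) 0
    rw [Matrix.smul_apply, Matrix.one_apply_eq, smul_eq_mul, mul_one, Matrix.zero_apply] at h8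
    exact sub_eq_zero.mp h8
  rw [hdetc, h7]
  exact ht1

end Fermat.Agent.Padic.S33
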