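import Mathlib
import Fermat.Agent.Padic.S33.Pkg
import Fermat.Agent.Padic.S33.PointRel
import Fermat.Agent.Padic.S33.PointEnd
import Fermat.Agent.Padic.S33.PointBasis
import Fermat.Agent.Padic.S33.PointDvr
import Fermat.Agent.ESJ.Rep.ZpAlg
import Fermat.Agent.TW.Local.InertiaCyclo

/-!
# S33, REP half of the glue: nonzero inertia coinvariants at every minimal prime

`exists_inertia_functional`: let `H` be a Hecke–Galois datum of level `N` over `T` whose residual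
representation is ordinary at the odd prime `p`, `D` an anemic Tate datum, `P ∣ p` a place with
the local package `RedKer D P` (`Padic/S33/Pkg.lean`: the Tate module `E` of the kernel of
reduction with (U1) and (NC)).  Then for every minimal prime `𝔭` of `T` there are a field `K ⊇
T ⧸ 𝔭` and a nonzero `T`-linear functional `φ : ρ.V → K` invariant under the inertia group of `P`:
the representation `ρ ⊗ κ(𝔭)` has nonzero inertia coinvariants.

Proof.  `𝒪₁` a discrete valuation ring with a local `ψ : T → 𝒪₁`, `ker ψ = 𝔭` (`PointDvr`);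
`X = AdicMod.latA ⊆ 𝒪₁ ⊗ Ta` the anemic eigen-lattice of `ψ ∘ π`; every `g` satisfies on `X` the
characteristic polynomial of `ρ_ψ g` (`PointRel`), so by Boston–Lenstra–Ribet there is a
primitive equivariant `j : 𝒪₁² → 𝒪₁ ⊗ Ta` (`PointCore`).  For a functional `f` on `Ta` vanishing on
`E`, `(1 ⊗ f) ∘ j` is inertia invariant by (U1); the end game (`PointEnd`, using (NC), the
residual ordinary line and `ω ≠ 1` on inertia) shows that one of them is nonzero.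
-/

set_option autoImplicit false
set_option linter.unusedSectionVars false
set_option linter.style.haveILetI false

open scoped TensorProduct
open IsLocalRing

namespace Fermat.Agent.Padic.S33

open Fermat.Agent.ESJ.Rep Fermat.Agent.Lib.GalRep

variable {p : ℕ} {N : ℕ} [NeZero N] {S : Finset ℕ}
  {𝒪 : Type} [CommRing 𝒪] [IsDomain 𝒪] [IsDiscreteValuationRing 𝒪]
  [IsAdicComplete (IsLocalRing.maximalIdeal 𝒪) 𝒪]
  {θ : CuspForm.heckeAlgebra N 2 (↑S : Set ℕ) →+* IsLocalRing.ResidueField 𝒪}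
  {T : Type} [CommRing T] [IsLocalRing T] [IsNoetherianRing T]
  [IsAdicComplete (IsLocalRing.maximalIdeal T) T] [Algebra 𝒪 T] [IsLocalHom (algebraMap 𝒪 T)]
  [Module.Finite 𝒪 T] [Module.Free 𝒪 T]

/-- The mod `p` cyclotomic character read on `p`-th roots of unity determines the determinant
modulo the maximal ideal. -/
theorem det_sub_natCast_mem_of_roots [Fact p.Prime]
    (hp𝒪 : (p : 𝒪) ∈ maximalIdeal 𝒪) (hpS : p ∈ S)
    (H : CuspForm.HeckeGaloisRepDatum N (↑S : Set ℕ) 𝒪 θ T) (σ : GQ) (a : ℕ)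
    (ha : ∀ μ : Qb, μ ^ p = 1 → σ μ = μ ^ a) :
    LinearMap.det (H.ρ.ρ σ) - (a : T) ∈ maximalIdeal T := by
  obtain ⟨ζ, hζ⟩ := Cyclo.exists_primitiveRoot p 1
  have h1 : σ ζ = ζ ^ a := ha ζ (by have := hζ.pow_eq_one; rwa [pow_one] at this)
  have h2 := Cyclo.toZModPow_cyclo_eq p 1 σ a hζ h1
  have h3 : (a : ℤ_[p]) - ((cyclo p σ : ℤ_[p]ˣ) : ℤ_[p]) ∈ Ideal.span {(p : ℤ_[p]) ^ 1} := by
    rw [← PadicInt.ker_toZModPow, RingHom.mem_ker, map_sub, map_natCast, h2, sub_self]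
  have h4 := Fermat.Agent.S31.det_sub_natCast_mem hp𝒪 hpS H 1 σ a h3
  rwa [pow_one] at h4

/-- **Nonzero inertia coinvariants at every minimal prime** (the REP half of the S33 glue). -/
theorem exists_inertia_functional [Fact p.Prime] [Finite (IsLocalRing.ResidueField 𝒪)]
    [CharZero 𝒪] (hp2 : p ≠ 2) (hp𝒪 : (p : 𝒪) ∈ IsLocalRing.maximalIdeal 𝒪) (hpS : p ∈ S)
    (hNS : ∀ q : ℕ, q.Prime → q ∣ N → q ∈ S)
    (H : CuspForm.HeckeGaloisRepDatum N (↑S : Set ℕ) 𝒪 θ T)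
    (hres : (GaloisRepAdic.ofResidualGaloisRep H.ρ.residual).IsOrdinaryAt p)
    (D : TateDatumA p N) (P : ValuationSubring Qb) (hP : P.LiesOverPrime p) (hR : RedKer D P)
    (𝔭 : Ideal T) (h𝔭 : 𝔭 ∈ minimalPrimes T) :
    ∃ (K : Type) (_ : Field K) (_ : Algebra T K) (φ : H.ρ.V →ₗ[T] K),
      RingHom.ker (algebraMap T K) ≤ 𝔭 ∧ φ ≠ 0 ∧
      ∀ σ ∈ P.inertiaSubgroupIn ℚ, ∀ v : H.ρ.V, φ (H.ρ.ρ σ v) = φ v := by
  classical
  have hp : p.Prime := Fact.out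
  obtain ⟨𝒪₁, _, _, _, _, _, _, ψ, χ₁, hker, hloc, hp₁, hχ₁⟩ := exists_dvr_point hp𝒪 H 𝔭 h𝔭
  obtain ⟨f₀⟩ := exists_padicInt_ringHom p 𝒪₁ hp₁
  letI : Algebra ℤ_[p] 𝒪₁ := f₀.toAlgebra
  obtain ⟨b, hb⟩ := exists_adapted_basis H.ρ p hres P hP
  obtain ⟨E, hsat, hu1, hnc⟩ := hR
  set Mψ := matPsi H b ψ with hMψ
  -- `2` is a unit of `𝒪₁`
  have h2 : IsUnit (2 : 𝒪₁) := by
    by_contra h
    have h2m : (2 : 𝒪₁) ∈ maximalIdeal 𝒪₁ := h
    obtain ⟨k, hk⟩ := hp.eq_two_or_odd'.resolve_left hp2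
    have h1 : (1 : 𝒪₁) = (p : 𝒪₁) - 2 * (k : 𝒪₁) := by
      rw [hk]
      push_cast
      ring
    have h1m : (1 : 𝒪₁) ∈ maximalIdeal 𝒪₁ := by
      rw [h1]
      exact Ideal.sub_mem _ hp₁ (Ideal.mul_mem_right _ _ h2m)
    exact (Ideal.ne_top_iff_one _).mp (Ideal.IsMaximal.ne_top inferInstance) h1m
  -- the equivariant primitive map into the eigen-lattice
  have hXne : AdicMod.latA D 𝒪₁ χ₁ ≠ ⊥ :=
    (Submodule.nontrivial_iff_ne_bot).mp (AdicMod.instNontrivialLatA D 𝒪₁ χ₁)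
  obtain ⟨j₀, hj₀eq, hj₀prim⟩ := exists_primitive_equivariant h2 (AdicMod.latA D 𝒪₁ χ₁) hXne
    (AdicMod.latA_saturated D 𝒪₁ χ₁) (AdicMod.rhoA D 𝒪₁ χ₁) Mψ (span_matPsi H b ψ)
    (rhoA_charpoly hp𝒪 hpS hNS H b D ψ χ₁ hloc hp₁ hχ₁)
  let j : (Fin 2 → 𝒪₁) →ₗ[𝒪₁] 𝒪₁ ⊗[ℤ_[p]] D.Ta := (AdicMod.latA D 𝒪₁ χ₁).subtype ∘ₗ j₀
  have hj : ∀ w, j w = (j₀ w : 𝒪₁ ⊗[ℤ_[p]] D.Ta) := fun w => rfl
  have hjeq : ∀ (g : GQ) (w : Fin 2 → 𝒪₁),
      j ((Mψ g).mulVec w) = (D.gal g).baseChange 𝒪₁ (j w) := by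
    intro g w
    rw [hj, hj₀eq, AdicMod.rhoA_apply_coe, AdicMod.galO_apply, hj]
  obtain ⟨ϖ, hϖ⟩ := IsDiscreteValuationRing.exists_irreducible 𝒪₁
  have hjprim : ∀ (w : Fin 2 → 𝒪₁) (y : 𝒪₁ ⊗[ℤ_[p]] D.Ta), j w = ϖ • y → ∀ i, ϖ ∣ w i :=
    fun w y hy => hj₀prim ϖ hϖ w y hy
  -- the matrix shape on inertia
  have h10 : ∀ σ ∈ (P.inertiaSubgroupIn ℚ : Set GQ), Mψ σ 1 0 ∈ maximalIdeal 𝒪₁ :=
    fun σ hσ => hloc _ (hb σ hσ).1
  have h11 : ∀ σ ∈ (P.inertiaSubgroupIn ℚ : Set GQ), Mψ σ 1 1 - 1 ∈ maximalIdeal 𝒪₁ := by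
    intro σ hσ
    have h := hloc _ (hb σ hσ).2
    rwa [map_sub, map_one] at h
  have h00 : ∀ σ ∈ (P.inertiaSubgroupIn ℚ : Set GQ), ∀ a : ℕ,
      (∀ μ : Qb, μ ^ p = 1 → σ μ = μ ^ a) → Mψ σ 0 0 - (a : 𝒪₁) ∈ maximalIdeal 𝒪₁ := by
    intro σ hσ a ha
    have hdet := det_sub_natCast_mem_of_roots hp𝒪 hpS H σ a ha
    rw [← LinearMap.det_toMatrix b, Matrix.det_fin_two] at hdet
    set M := LinearMap.toMatrix b b (H.ρ.ρ σ) with hM
    have e : M 0 0 - (a : T) = (M 0 0 * M 1 1 - M 0 1 * M 1 0 - (a : T))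
        - M 0 0 * (M 1 1 - 1) + M 0 1 * M 1 0 := by ring
    have hmem : M 0 0 - (a : T) ∈ maximalIdeal T := by
      rw [e]
      exact Ideal.add_mem _ (Ideal.sub_mem _ hdet (Ideal.mul_mem_left _ _ (hb σ hσ).2))
        (Ideal.mul_mem_left _ _ (hb σ hσ).1)
    have h := hloc _ hmem
    rwa [map_sub, map_natCast] at h
  -- inertia moves the `p`-th roots of unity
  have hne : ∃ σ ∈ (P.inertiaSubgroupIn ℚ : Set GQ), ∃ a : ℕ,
      (∀ μ : Qb, μ ^ p = 1 → σ μ = μ ^ a) ∧ (a : 𝒪₁) - 1 ∉ maximalIdeal 𝒪₁ := by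
    obtain ⟨ζ, hζ⟩ := Cyclo.exists_primitiveRoot p 1
    rw [pow_one] at hζ
    obtain ⟨σ₀, hσ₀, hmove⟩ :=
      Fermat.Agent.TW.KummerP.exists_mem_inertia_apply_ne p hp2 P hP hζ
    refine ⟨σ₀, hσ₀, (PadicInt.toZModPow 1 ((cyclo p σ₀ : ℤ_[p]ˣ) : ℤ_[p])).val,
      fun μ hμ => Cyclo.cyclo_spec p 1 σ₀ μ (by rwa [pow_one]), fun hmem => hmove ?_⟩
    set a₀ := (PadicInt.toZModPow 1 ((cyclo p σ₀ : ℤ_[p]ˣ) : ℤ_[p])).val with ha₀
    have hσζ : σ₀ ζ = ζ ^ a₀ :=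
      Cyclo.cyclo_spec p 1 σ₀ ζ (by rw [pow_one]; exact hζ.pow_eq_one)
    -- `p ∣ a₀ - 1`
    have hdvd : (p : ℤ) ∣ (a₀ : ℤ) - 1 := by
      by_contra hnd
      have hcop : IsCoprime (p : ℤ) ((a₀ : ℤ) - 1) :=
        (Nat.prime_iff_prime_int.mp hp).coprime_iff_not_dvd.mpr hnd
      obtain ⟨x, y, hxy⟩ := hcop
      have h1 : (1 : 𝒪₁) = (x : 𝒪₁) * (p : 𝒪₁) + (y : 𝒪₁) * ((a₀ : 𝒪₁) - 1) := by
        have := congrArg (fun z : ℤ => (z : 𝒪₁)) hxy
        push_cast at this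
        exact this.symm
      have h1m : (1 : 𝒪₁) ∈ maximalIdeal 𝒪₁ := by
        rw [h1]
        exact Ideal.add_mem _ (Ideal.mul_mem_left _ _ hp₁) (Ideal.mul_mem_left _ _ hmem)
      exact (Ideal.ne_top_iff_one _).mp (Ideal.IsMaximal.ne_top inferInstance) h1m
    have hmod : a₀ ≡ 1 [MOD p] := by
      rw [Nat.modEq_iff_dvd, Nat.cast_one, ← neg_sub]
      exact dvd_neg.mpr hdvd
    have hmod' : a₀ % p = 1 := by
      have h := hmod
      rw [Nat.ModEq, Nat.mod_eq_of_lt hp.one_lt] at h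
      exact h
    rw [hσζ, ← Nat.mod_add_div a₀ p, pow_add, pow_mul, hζ.pow_eq_one, one_pow, mul_one, hmod',
      pow_one]
  -- the end game
  obtain ⟨f, hfE, w, hw⟩ := exists_functional_of_nc hp₁ ϖ hϖ.maximalIdeal_eq D.gal
    (P.inertiaSubgroupIn ℚ : Set GQ) (fun σ a => ∀ μ : Qb, μ ^ p = 1 → σ μ = μ ^ a) E hsat hnc
    Mψ j hjeq hjprim h10 h11 h00 hne
  -- the functional
  let K := FractionRing 𝒪₁
  letI : Algebra T K := ((algebraMap 𝒪₁ K).comp ψ).toAlgebra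
  have halg : ∀ t : T, algebraMap T K t = algebraMap 𝒪₁ K (ψ t) := fun t => rfl
  let coordψ : H.ρ.V → (Fin 2 → 𝒪₁) := fun v i => ψ (b.repr v i)
  have hcadd : ∀ v v', coordψ (v + v') = coordψ v + coordψ v' := by
    intro v v'
    funext i
    simp only [coordψ, map_add, Finsupp.add_apply, Pi.add_apply]
  have hcsmul : ∀ (t : T) v, coordψ (t • v) = ψ t • coordψ v := by
    intro t v
    funext i
    simp only [coordψ, map_smul, Finsupp.smul_apply, smul_eq_mul, map_mul, Pi.smul_apply]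
  let φ : H.ρ.V →ₗ[T] K :=
    { toFun := fun v => algebraMap 𝒪₁ K (pair 𝒪₁ f (j (coordψ v)))
      map_add' := fun v v' => by rw [hcadd, map_add, map_add, map_add]
      map_smul' := fun t v => by
        rw [hcsmul, map_smul, map_smul, smul_eq_mul, map_mul, RingHom.id_apply, Algebra.smul_def,
          halg] }
  have hφ : ∀ v, φ v = algebraMap 𝒪₁ K (pair 𝒪₁ f (j (coordψ v))) := fun v => rfl
  have hKinj : Function.Injective (algebraMap 𝒪₁ K) := IsFractionRing.injective 𝒪₁ K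
  refine ⟨K, inferInstance, inferInstance, φ, ?_, ?_, ?_⟩
  · intro t ht
    rw [RingHom.mem_ker, halg] at ht
    rw [← hker, RingHom.mem_ker]
    exact hKinj (ht.trans (map_zero _).symm)
  · intro h0
    apply hw
    have hbi : ∀ i : Fin 2, pair 𝒪₁ f (j (Pi.single i 1)) = 0 := by
      intro i
      have h1 : φ (b i) = 0 := by rw [h0]; rfl
      rw [hφ] at h1
      have h2 : coordψ (b i) = Pi.single i 1 := by
        funext k
        simp only [coordψ, Module.Basis.repr_self, Finsupp.single_apply, Pi.single_apply]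
        by_cases hik : i = k
        · rw [if_pos hik, if_pos hik.symm, map_one]
        · rw [if_neg hik, if_neg (Ne.symm hik), map_zero]
      rw [h2] at h1
      exact hKinj (h1.trans (map_zero _).symm)
    have hwsum : w = w 0 • (Pi.single 0 1 : Fin 2 → 𝒪₁) + w 1 • (Pi.single 1 1 : Fin 2 → 𝒪₁) := by
      funext i
      fin_cases i <;> simp
    rw [hwsum, map_add, map_smul, map_smul, map_add, map_smul, map_smul, hbi 0, hbi 1, smul_zero,
      smul_zero, add_zero]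
  · intro σ hσ v
    rw [hφ, hφ]
    congr 1
    have h1 : coordψ (H.ρ.ρ σ v) = (Mψ σ).mulVec (coordψ v) := by
      funext i
      have h2 := congrFun (LinearMap.toMatrix_mulVec_repr b b (H.ρ.ρ σ) v) i
      simp only [coordψ]
      rw [← h2, Matrix.mulVec, dotProduct, map_sum, Matrix.mulVec, dotProduct]
      refine Finset.sum_congr rfl fun k _ => ?_
      rw [map_mul, hMψ, matPsi_apply]
    rw [h1, hjeq, pair_baseChange]
    have h3 : f ∘ₗ D.gal σ = f := by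
      refine LinearMap.ext fun x => ?_
      have h4 := hfE _ (hu1 σ hσ x)
      rw [map_sub, sub_eq_zero] at h4
      exact h4
    rw [h3]

end Fermat.Agent.Padic.S33
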