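import Mathlib
import Fermat.Agent.Padic.S33.Point
import Fermat.Agent.Padic.S33.PkgOfGeo
import Fermat.Agent.Padic.S33.OrdLine
import Fermat.Agent.Pet.DatumReduced
import Fermat.Agent.ESJ.Rep.TateTorsInst

/-!
# S33 from the geometric package

`GeoPkg` is the ONE statement S33 still needs from the geometry of `X₀(N)` at a prime `p ∥ N`:
for every place `P ∣ p` of `ℚ̄` a subgroup `Kr ⊆ J₀(N)(ℚ̄)` (the kernel of reduction) with (U1g)
and (NCg) (`Padic/S33/PkgOfGeo.lean`).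

`S33_of : GeoPkg → (frozen statement S33)`: the Tate datum with torsion level maps
(`ESJ.Rep.tateCmpATorsExists`), the package `RedKer` (`redKer_of_geo`), the nonzero inertia
coinvariants at every minimal prime (`exists_inertia_functional`), reducedness of `T`
(`Pet.isReduced_of_datum`) and the line `(I − 1)V` (`isOrdinaryAt_of_points`).
-/

set_option autoImplicit false
set_option linter.unusedSectionVars false
set_option linter.style.haveILetI false

open scoped TensorProduct MatrixGroups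
open CongruenceSubgroup ModularCurve AlgebraicCurve

namespace Fermat.Agent.Padic.S33

open Fermat.Agent.ESJ.Rep

/-- **The geometric package of S33**: at every place `P ∣ p` of `ℚ̄`, `p ∥ N` odd, a subgroup
`Kr` of `J₀(N)(ℚ̄)` with (U1g) and (NCg). -/
def GeoPkg : Prop :=
  ∀ (p N : ℕ) [NeZero N], p.Prime → p ≠ 2 → p ∣ N → ¬ p ^ 2 ∣ N →
    ∀ P : ValuationSubring Qb, P.LiesOverPrime p →
      ∃ Kr : AddSubgroup (JZero N), U1g p P Kr ∧ NCg p P Kr

variable {p : ℕ} {N : ℕ} [NeZero N] {S : Finset ℕ}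
  {𝒪 : Type} [CommRing 𝒪] [IsDomain 𝒪] [IsDiscreteValuationRing 𝒪]
  [IsAdicComplete (IsLocalRing.maximalIdeal 𝒪) 𝒪]
  {θ : CuspForm.heckeAlgebra N 2 (↑S : Set ℕ) →+* IsLocalRing.ResidueField 𝒪}
  {T : Type} [CommRing T] [IsLocalRing T] [IsNoetherianRing T]
  [IsAdicComplete (IsLocalRing.maximalIdeal T) T] [Algebra 𝒪 T] [IsLocalHom (algebraMap 𝒪 T)]
  [Module.Finite 𝒪 T] [Module.Free 𝒪 T]

/-- **S33 from the geometric package.** -/
theorem S33_of (hgeo : GeoPkg)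
    [Finite (IsLocalRing.ResidueField 𝒪)] [CharZero 𝒪]
    (hp : p.Prime) (hp2 : p ≠ 2) (hp𝒪 : (p : 𝒪) ∈ IsLocalRing.maximalIdeal 𝒪)
    (hN : p ∣ N ∧ ¬ p ^ 2 ∣ N)
    (hNS : ∀ q : ℕ, q.Prime → q ∣ N → q ∈ S)
    (H : CuspForm.HeckeGaloisRepDatum N (↑S : Set ℕ) 𝒪 θ T)
    (hres : (GaloisRepAdic.ofResidualGaloisRep H.ρ.residual).IsOrdinaryAt p) :
    H.ρ.IsOrdinaryAt p := by
  haveI : Fact p.Prime := ⟨hp⟩
  haveI : IsReduced T := Fermat.Agent.Pet.isReduced_of_datum hNS H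
  obtain ⟨D, -, ⟨TL⟩⟩ := tateCmpATorsExists p N
  refine isOrdinaryAt_of_points hp hp2 hp𝒪 (hNS p hp hN.1) H (fun P hP 𝔭 h𝔭 => ?_)
  obtain ⟨Kr, hU, hNC⟩ := hgeo p N hp hp2 hN.1 hN.2 P hP
  exact exists_inertia_functional hp2 hp𝒪 (hNS p hp hN.1) hNS H hres D P hP
    (redKer_of_geo TL P Kr hU hNC) 𝔭 h𝔭

end Fermat.Agent.Padic.S33
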