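import Mathlib
import Fermat.Agent.Padic.S33.Final
import Fermat.Agent.ESJ.Jac.Main

/-!
# S33: the local package `RedKer` through a Galois-equivariant map with `p`-torsion kernel

`NCgPlus P Kr'` is the strong form of (NCg) (no hypothesis on the action on `L`, no `p`-torsion
hypothesis): there are no finite subgroups `L ⊊ V ⊆ Kr'` with inertia acting trivially on
`V / L`.

`redKer_of_pull`: let `φ : J₀(N) → J'` be an additive Galois-equivariant map whose kernel is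
killed by `p`, and `Kr' ⊆ J'` a subgroup with (U1g) and (NCg+).  Then the package `RedKer D P`
holds, with `E = {t | ∀ n, φ (π n t) ∈ Kr'}`.  (`φ = id` recovers `redKer_of_geo` with the
stronger hypothesis; `φ` the pull-back `J₀(N) → J₀(2N)` is the case `p = 3`, `N / 3` odd, where
the nodal model exists only at level `2N`.)

`S33_of_pull : GeoPkgPull → (frozen statement S33)`.
-/

set_option autoImplicit false
set_option linter.unusedSectionVars false
set_option linter.style.haveILetI false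

open scoped TensorProduct MatrixGroups
open CongruenceSubgroup ModularCurve AlgebraicCurve

namespace Fermat.Agent.Padic.S33

open Fermat.Agent.ESJ.Rep

/-- (NCg+): no finite subgroups `L ⊊ V ⊆ Kr'` with inertia acting trivially on `V / L`. -/
def NCgPlus {J' : Type*} [AddCommGroup J'] [SMul GQ J'] (P : ValuationSubring Qb)
    (Kr' : AddSubgroup J') : Prop :=
  ∀ V L : AddSubgroup J', L ≤ V → V ≤ Kr' → Finite V →
    (∀ σ ∈ P.inertiaSubgroupIn ℚ, ∀ v ∈ V, σ • v - v ∈ L) → V ≤ L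

/-- The `n`-torsion of `J₀(N)` as a finite set, in `nsmul` form. -/
theorem finite_nsmul_eq_zero (N : ℕ) [NeZero N] {n : ℕ} (hn : 0 < n) :
    {x : JZero N | n • x = 0}.Finite := by
  refine (Fermat.Agent.ESJ.torsionFinite N n hn).subset ?_
  intro x hx
  show x ∈ Pic0.torsion (AlgebraicClosure ℚ) (modularFunctionFieldBar N) n
  rw [Pic0.mem_torsion, natCast_zsmul]
  exact hx

/-- (NCg+) implies (NCg). -/
theorem ncg_of_ncgPlus {p N : ℕ} [NeZero N] (hp : 0 < p) {P : ValuationSubring Qb}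
    {Kr : AddSubgroup (JZero N)} (h : NCgPlus P Kr) : NCg p P Kr := by
  intro V L hLV hVK hVp hVL _
  refine h V L hLV hVK ?_ hVL
  exact ((finite_nsmul_eq_zero N hp).subset (fun x hx => hVp x hx)).to_subtype

variable {p N : ℕ} [Fact p.Prime] [NeZero N]

/-- **The local package through an equivariant map with `p`-torsion kernel.** -/
theorem redKer_of_pull {D : TateDatumA p N} (T : TorsLevelMaps D) (P : ValuationSubring Qb)
    {J' : Type*} [AddCommGroup J'] [SMul GQ J'] (φ : JZero N →+ J')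
    (hφσ : ∀ (σ : GQ) (x : JZero N), φ (σ • x) = σ • φ x)
    (hker : ∀ x : JZero N, φ x = 0 → p • x = 0)
    (Kr' : AddSubgroup J')
    (hU : ∀ σ ∈ P.inertiaSubgroupIn ℚ, ∀ (x : J') (k : ℕ), p ^ k • x = 0 → σ • x - x ∈ Kr')
    (hNC : NCgPlus P Kr') : RedKer D P := by
  have hp : p.Prime := Fact.out
  let E : Submodule ℤ_[p] D.Ta :=
    { carrier := {t | ∀ n, φ (T.π n t) ∈ Kr'}
      add_mem' := by
        intro a b ha hb n
        rw [map_add, map_add]
        exact Kr'.add_mem (ha n) (hb n)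
      zero_mem' := by
        intro n
        rw [map_zero, map_zero]
        exact Kr'.zero_mem
      smul_mem' := by
        intro c t ht n
        obtain ⟨m, hm⟩ := TorsLevel_pi_smul T n c t
        show φ (T.π n (c • t)) ∈ Kr'
        rw [hm, map_nsmul]
        exact Kr'.nsmul_mem (ht n) m }
  have hE : ∀ t : D.Ta, t ∈ E ↔ ∀ n, φ (T.π n t) ∈ Kr' := fun t => Iff.rfl
  have hpsmul : ∀ v : D.Ta, (p : ℤ_[p]) • v = p • v := fun v => Nat.cast_smul_eq_nsmul ℤ_[p] p v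
  have hu1 : ∀ σ ∈ P.inertiaSubgroupIn ℚ, ∀ v : D.Ta, D.gal σ v - v ∈ E := by
    intro σ hσ v
    rw [hE]
    intro n
    rw [map_sub, T.gal, map_sub, hφσ]
    refine hU σ hσ (φ (T.π n v)) n ?_
    rw [← map_nsmul, T.pow_nsmul, map_zero]
  refine ⟨E, ?_, hu1, ?_⟩
  · -- saturation
    intro v hv
    rw [hE] at hv ⊢
    intro n
    have h1 := hv (n + 1)
    rw [hpsmul, map_nsmul, T.compat] at h1
    exact h1
  · -- (NC)
    intro V L hLV hpL hVE hVL _
    let ψ : D.Ta →+ J' := φ.comp (T.π 2)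
    have hψ : ∀ t, ψ t = φ (T.π 2 t) := fun t => rfl
    let Y : AddSubgroup D.Ta := V ⊓ E.toAddSubgroup
    let Z : AddSubgroup D.Ta := L ⊓ E.toAddSubgroup
    have hfin : Finite (Y.map ψ) := by
      have h1 : (φ '' {x : JZero N | p ^ 2 • x = 0}).Finite :=
        (finite_nsmul_eq_zero N (pow_pos hp.pos 2)).image _
      refine (h1.subset ?_).to_subtype
      rintro _ ⟨y, -, rfl⟩
      exact ⟨T.π 2 y, T.pow_nsmul 2 y, rfl⟩
    have key : Y.map ψ ≤ Z.map ψ := by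
      refine hNC (Y.map ψ) (Z.map ψ) (AddSubgroup.map_mono (inf_le_inf_right _ hLV)) ?_ hfin ?_
      · rintro _ ⟨y, ⟨-, hyE⟩, rfl⟩
        exact (hE y).mp hyE 2
      · rintro σ hσ _ ⟨y, ⟨hyV, -⟩, rfl⟩
        refine ⟨D.gal σ y - y, ⟨hVL σ hσ y hyV, hu1 σ hσ y⟩, ?_⟩
        rw [hψ, hψ, map_sub, T.gal, map_sub, hφσ]
    intro v hv
    obtain ⟨e, he, w, rfl⟩ := hVE v hv
    have heV : e ∈ V := by
      have h1 : e = (e + (p : ℤ_[p]) • w) - (p : ℤ_[p]) • w := by abel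
      rw [h1]
      exact V.sub_mem hv (hLV (hpL w))
    obtain ⟨z, ⟨hzL, -⟩, hz⟩ := key ⟨e, ⟨heV, he⟩, rfl⟩
    have h1 : φ (T.π 2 (e - z)) = 0 := by
      rw [map_sub, map_sub, ← hψ, ← hψ, hz, sub_self]
    have h2 : T.π 1 (e - z) = 0 := by
      rw [← T.compat 1]
      exact hker _ h1
    obtain ⟨w', hw'⟩ := (T.ker 1 _).mp h2
    rw [pow_one] at hw'
    have h3 : e = z + (p : ℤ_[p]) • w' := by rw [← hw']; abel
    rw [h3]
    exact L.add_mem (L.add_mem hzL (hpL w')) (hpL w)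

/-- **The geometric package of S33, pull-back form**: at every place `P ∣ p`, `p ∥ N` odd, an
equivariant map `φ : J₀(N) → J₀(N')` with kernel killed by `p` and a subgroup `Kr'` of
`J₀(N')(ℚ̄)` with (U1g) and (NCg+). -/
def GeoPkgPull : Prop :=
  ∀ (p N : ℕ) [NeZero N], p.Prime → p ≠ 2 → p ∣ N → ¬ p ^ 2 ∣ N →
    ∀ P : ValuationSubring Qb, P.LiesOverPrime p →
      ∃ (N' : ℕ) (_ : NeZero N') (φ : JZero N →+ JZero N') (Kr' : AddSubgroup (JZero N')),
        (∀ (σ : GQ) (x : JZero N), φ (σ • x) = σ • φ x) ∧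
        (∀ x : JZero N, φ x = 0 → p • x = 0) ∧ U1g p P Kr' ∧ NCgPlus P Kr'

variable {p : ℕ} {N : ℕ} [NeZero N] {S : Finset ℕ}
  {𝒪 : Type} [CommRing 𝒪] [IsDomain 𝒪] [IsDiscreteValuationRing 𝒪]
  [IsAdicComplete (IsLocalRing.maximalIdeal 𝒪) 𝒪]
  {θ : CuspForm.heckeAlgebra N 2 (↑S : Set ℕ) →+* IsLocalRing.ResidueField 𝒪}
  {T : Type} [CommRing T] [IsLocalRing T] [IsNoetherianRing T]
  [IsAdicComplete (IsLocalRing.maximalIdeal T) T] [Algebra 𝒪 T] [IsLocalHom (algebraMap 𝒪 T)]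
  [Module.Finite 𝒪 T] [Module.Free 𝒪 T]

/-- **S33 from the geometric package in pull-back form.** -/
theorem S33_of_pull (hgeo : GeoPkgPull)
    [Finite (IsLocalRing.ResidueField 𝒪)] [CharZero 𝒪]
    (hp : p.Prime) (hp2 : p ≠ 2) (hp𝒪 : (p : 𝒪) ∈ IsLocalRing.maximalIdeal 𝒪)
    (hN : p ∣ N ∧ ¬ p ^ 2 ∣ N)
    (hNS : ∀ q : ℕ, q.Prime → q ∣ N → q ∈ S)
    (H : CuspForm.HeckeGaloisRepDatum N (↑S : Set ℕ) 𝒪 θ T)
    (hres : (GaloisRepAdic.ofResidualGaloisRep H.ρ.residual).IsOrdinaryAt p) :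
    H.ρ.IsOrdinaryAt p := by
  haveI : Fact p.Prime := ⟨hp⟩
  haveI : IsReduced T := Fermat.Agent.Pet.isReduced_of_datum hNS H
  obtain ⟨D, -, ⟨TL⟩⟩ := tateCmpATorsExists p N
  refine isOrdinaryAt_of_points hp hp2 hp𝒪 (hNS p hp hN.1) H (fun P hP 𝔭 h𝔭 => ?_)
  obtain ⟨N', _, φ, Kr', hφσ, hker, hU, hNC⟩ := hgeo p N hp hp2 hN.1 hN.2 P hP
  exact exists_inertia_functional hp2 hp𝒪 (hNS p hp hN.1) hNS H hres D P hP
    (redKer_of_pull TL P φ hφσ hker Kr' hU hNC) 𝔭 h𝔭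

/-- The pull-back form follows from the plain form with (NCg+) (`φ = id`). -/
theorem geoPkgPull_of_plus
    (h : ∀ (p N : ℕ) [NeZero N], p.Prime → p ≠ 2 → p ∣ N → ¬ p ^ 2 ∣ N →
      ∀ P : ValuationSubring Qb, P.LiesOverPrime p →
        ∃ Kr : AddSubgroup (JZero N), U1g p P Kr ∧ NCgPlus P Kr) : GeoPkgPull := by
  intro p N _ hp hp2 hN1 hN2 P hP
  obtain ⟨Kr, hU, hNC⟩ := h p N hp hp2 hN1 hN2 P hP
  exact ⟨N, inferInstance, AddMonoidHom.id _, Kr, fun σ x => rfl,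
    fun x hx => by rw [show x = 0 from hx, smul_zero], hU, hNC⟩

end Fermat.Agent.Padic.S33
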