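import Mathlib
import Fermat.Agent.Padic.S33.PkgOfGeoPull
import Fermat.Agent.Padic.PullKummer

/-!
# S33: the local package `RedKer` through an INJECTIVE Galois-equivariant level map

The level pull-back `J₀(N) → J₀(N q)` (`q ∤ N` prime) is injective
(`Padic.PullKummer.levelPullbackInj_mul_prime`), so the geometric statements (U1g), (NCg) — in
the weak `ω`-form — may be proved at the auxiliary level `N' = N q` (needed for `p = 3`, `N / 3`
odd: the nodal model exists at level `2N` only):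

* `redKer_of_pull_inj` : `RedKer D P` from an injective equivariant `φ : J₀(N) → J₀(N')` and
  `Kr' ⊆ J₀(N')` with (U1g) and (NCg);
* `GeoPkgInj`, `S33_of_inj : GeoPkgInj → (frozen statement S33)`;
* `exists_levelMap_two` : the level map `J₀(N) → J₀(N * 2)` for odd `N`.
-/

set_option autoImplicit false
set_option linter.unusedSectionVars false
set_option linter.style.haveILetI false

open scoped TensorProduct MatrixGroups
open CongruenceSubgroup ModularCurve AlgebraicCurve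

namespace Fermat.Agent.Padic.S33

open Fermat.Agent.ESJ.Rep

section pkg

variable {p N : ℕ} [Fact p.Prime] [NeZero N]

/-- **The local package through an injective equivariant level map**, from (U1g) and the weak
form (NCg) at the target level. -/
theorem redKer_of_pull_inj {D : TateDatumA p N} (T : TorsLevelMaps D) (P : ValuationSubring Qb)
    {N' : ℕ} [NeZero N'] (φ : JZero N →+ JZero N')
    (hφσ : ∀ (σ : GQ) (x : JZero N), φ (σ • x) = σ • φ x) (hinj : Function.Injective φ)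
    (Kr' : AddSubgroup (JZero N')) (hU : U1g p P Kr') (hNC : NCg p P Kr') : RedKer D P := by
  refine redKer_of_geo T P (Kr'.comap φ) ?_ ?_
  · intro σ hσ x k hx
    show φ (σ • x - x) ∈ Kr'
    rw [map_sub, hφσ]
    refine hU σ hσ (φ x) k ?_
    rw [← map_nsmul, hx, map_zero]
  · intro V L hLV hVK hVp hVL hLω
    have key : V.map φ ≤ L.map φ := by
      refine hNC (V.map φ) (L.map φ) (AddSubgroup.map_mono hLV) ?_ ?_ ?_ ?_
      · rintro _ ⟨v, hv, rfl⟩
        exact hVK hv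
      · rintro _ ⟨v, hv, rfl⟩
        rw [← map_nsmul, hVp v hv, map_zero]
      · rintro σ hσ _ ⟨v, hv, rfl⟩
        refine ⟨σ • v - v, hVL σ hσ v hv, ?_⟩
        rw [map_sub, hφσ]
      · rintro σ hσ a ha _ ⟨v, hv, rfl⟩
        rw [← hφσ, hLω σ hσ a ha v hv, map_nsmul]
    intro v hv
    obtain ⟨l, hl, hlv⟩ := key ⟨v, hv, rfl⟩
    rw [← hinj hlv]
    exact hl

end pkg

/-- **The geometric package of S33, injective level-map form**: at every place `P ∣ p`, `p ∥ N`
odd, an injective equivariant map `φ : J₀(N) → J₀(N')` and a subgroup `Kr'` of `J₀(N')(ℚ̄)` with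
(U1g) and (NCg). -/
def GeoPkgInj : Prop :=
  ∀ (p N : ℕ) [NeZero N], p.Prime → p ≠ 2 → p ∣ N → ¬ p ^ 2 ∣ N →
    ∀ P : ValuationSubring Qb, P.LiesOverPrime p →
      ∃ (N' : ℕ) (_ : NeZero N') (φ : JZero N →+ JZero N') (Kr' : AddSubgroup (JZero N')),
        (∀ (σ : GQ) (x : JZero N), φ (σ • x) = σ • φ x) ∧ Function.Injective φ ∧
        U1g p P Kr' ∧ NCg p P Kr'

/-- The plain form is the case `φ = id`. -/
theorem geoPkgInj_of_geoPkg (h : GeoPkg) : GeoPkgInj := by
  intro p N _ hp hp2 hN1 hN2 P hP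
  obtain ⟨Kr, hU, hNC⟩ := h p N hp hp2 hN1 hN2 P hP
  exact ⟨N, inferInstance, AddMonoidHom.id _, Kr, fun σ x => rfl, fun x y hxy => hxy, hU, hNC⟩

/-- The level map `J₀(N) → J₀(N * 2)` for odd `N`: Galois-equivariant and injective. -/
theorem exists_levelMap_two (N : ℕ) [NeZero N] (h2 : ¬ 2 ∣ N) :
    haveI : NeZero (N * 2) := ⟨Nat.mul_ne_zero (NeZero.ne N) two_ne_zero⟩
    ∃ φ : JZero N →+ JZero (N * 2),
      (∀ (σ : GQ) (x : JZero N), φ (σ • x) = σ • φ x) ∧ Function.Injective φ :=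
  Fermat.Agent.Padic.PullKummer.levelPullbackInj_mul_prime N 2 Nat.prime_two h2

variable {p : ℕ} {N : ℕ} [NeZero N] {S : Finset ℕ}
  {𝒪 : Type} [CommRing 𝒪] [IsDomain 𝒪] [IsDiscreteValuationRing 𝒪]
  [IsAdicComplete (IsLocalRing.maximalIdeal 𝒪) 𝒪]
  {θ : CuspForm.heckeAlgebra N 2 (↑S : Set ℕ) →+* IsLocalRing.ResidueField 𝒪}
  {T : Type} [CommRing T] [IsLocalRing T] [IsNoetherianRing T]
  [IsAdicComplete (IsLocalRing.maximalIdeal T) T] [Algebra 𝒪 T] [IsLocalHom (algebraMap 𝒪 T)]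
  [Module.Finite 𝒪 T] [Module.Free 𝒪 T]

/-- **S33 from the geometric package in injective level-map form.** -/
theorem S33_of_inj (hgeo : GeoPkgInj)
    [Finite (IsLocalRing.ResidueField 𝒪)] [CharZero 𝒪]
    (hp : p.Prime) (hp2 : p ≠ 2) (hp𝒪 : (p : 𝒪) ∈ IsLocalRing.maximalIdeal 𝒪)
    (hN : p ∣ N ∧ ¬ p ^ 2 ∣ N)
    (hNS : ∀ q : ℕ, q.Prime → q ∣ N → q ∈ S)
    (H : CuspForm.HeckeGaloisRepDatum N (↑S : Set ℕ) 𝒪 θ T)
    (hres : (GaloisRepAdic.ofResidualGaloisRep H.ρ.residual).IsOrdinaryAt p) :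
    H.ρ.IsOrdinaryAt p := by
  haveI : Fact p.Prime := ⟨hp⟩
  haveI : IsReduced T := Fermat.Agent.Pet.isReduced_of_datum hNS H
  obtain ⟨D, -, ⟨TL⟩⟩ := tateCmpATorsExists p N
  refine isOrdinaryAt_of_points hp hp2 hp𝒪 (hNS p hp hN.1) H (fun P hP 𝔭 h𝔭 => ?_)
  obtain ⟨N', _, φ, Kr', hφσ, hinj, hU, hNC⟩ := hgeo p N hp hp2 hN.1 hN.2 P hP
  exact exists_inertia_functional hp2 hp𝒪 (hNS p hp hN.1) hNS H hres D P hP
    (redKer_of_pull_inj TL P φ hφσ hinj Kr' hU hNC) 𝔭 h𝔭

end Fermat.Agent.Padic.S33
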