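import Mathlib
import Fermat.Agent.Padic.S33.PkgOfGeoInj

/-!
# S33 from the geometric package at the good pairs, weak form of (NC)

`GeoPkgGoodW` asks, at the good pairs (`5 ≤ p`, or `p = 3` and `2 ∣ N`) only, for a subgroup `Kr`
of `J₀(N)(ℚ̄)` with (U1g) and the WEAK form (NCg) (`p`-torsion, `ω`-action on `L`) — the output
of `RC.ncg_of_smallOrders`.  For `p = 3` and `N` odd the level is raised to `2 N` along the
INJECTIVE pull-back of divisor classes `J₀(N) → J₀(2N)` (`exists_levelMap_two`).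

`S33_of_goodW : GeoPkgGoodW → (frozen statement S33)`.
-/

set_option autoImplicit false
set_option linter.unusedSectionVars false
set_option linter.style.haveILetI false

open ModularCurve

namespace Fermat.Agent.Padic.S33

open Fermat.Agent.ESJ.Rep

/-- **The geometric package of S33 at the good pairs, weak form**: for `p ∥ N` odd with `5 ≤ p`
or `2 ∣ N`, at every place `P ∣ p` a subgroup `Kr` of `J₀(N)(ℚ̄)` with (U1g) and (NCg). -/
def GeoPkgGoodW : Prop :=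
  ∀ (p N : ℕ) [NeZero N], p.Prime → p ≠ 2 → p ∣ N → ¬ p ^ 2 ∣ N → (5 ≤ p ∨ 2 ∣ N) →
    ∀ P : ValuationSubring Qb, P.LiesOverPrime p →
      ∃ Kr : AddSubgroup (JZero N), U1g p P Kr ∧ NCg p P Kr

/-- The injective level-map form of the geometric package from the weak package at the good
pairs. -/
theorem geoPkgInj_of_goodW (h : GeoPkgGoodW) : GeoPkgInj := by
  intro p N _ hp hp2 hN1 hN2 P hP
  by_cases hg : 5 ≤ p ∨ 2 ∣ N
  · obtain ⟨Kr, hU, hNC⟩ := h p N hp hp2 hN1 hN2 hg P hP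
    exact ⟨N, inferInstance, AddMonoidHom.id _, Kr, fun σ x => rfl, fun x y hxy => hxy, hU, hNC⟩
  · rw [not_or] at hg
    obtain ⟨h5, h2N⟩ := hg
    have hp3 : p = 3 := by
      have hlt : p < 5 := Nat.lt_of_not_ge h5
      have h2 := hp.two_le
      interval_cases p
      · exact absurd rfl hp2
      · rfl
      · exact absurd hp (by decide)
    subst hp3
    haveI hne : NeZero (N * 2) := ⟨Nat.mul_ne_zero (NeZero.ne N) (by norm_num)⟩
    obtain ⟨φ, hφσ, hinj⟩ := exists_levelMap_two N h2N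
    have h9 : ¬ 3 ^ 2 ∣ N * 2 := by
      intro h9
      have hcop : Nat.Coprime (3 ^ 2) 2 := by decide
      exact hN2 (hcop.dvd_of_dvd_mul_right h9)
    obtain ⟨Kr, hU, hNC⟩ := h 3 (N * 2) hp hp2 (Dvd.dvd.mul_right hN1 2) h9
      (Or.inr (Dvd.intro_left N rfl)) P hP
    exact ⟨N * 2, hne, φ, Kr, hφσ, hinj, hU, hNC⟩

variable {p : ℕ} {N : ℕ} [NeZero N] {S : Finset ℕ}
  {𝒪 : Type} [CommRing 𝒪] [IsDomain 𝒪] [IsDiscreteValuationRing 𝒪]
  [IsAdicComplete (IsLocalRing.maximalIdeal 𝒪) 𝒪]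
  {θ : CuspForm.heckeAlgebra N 2 (↑S : Set ℕ) →+* IsLocalRing.ResidueField 𝒪}
  {T : Type} [CommRing T] [IsLocalRing T] [IsNoetherianRing T]
  [IsAdicComplete (IsLocalRing.maximalIdeal T) T] [Algebra 𝒪 T] [IsLocalHom (algebraMap 𝒪 T)]
  [Module.Finite 𝒪 T] [Module.Free 𝒪 T]

/-- **S33 from the weak geometric package at the good pairs.** -/
theorem S33_of_goodW (hgeo : GeoPkgGoodW)
    [Finite (IsLocalRing.ResidueField 𝒪)] [CharZero 𝒪]
    (hp : p.Prime) (hp2 : p ≠ 2) (hp𝒪 : (p : 𝒪) ∈ IsLocalRing.maximalIdeal 𝒪)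
    (hN : p ∣ N ∧ ¬ p ^ 2 ∣ N)
    (hNS : ∀ q : ℕ, q.Prime → q ∣ N → q ∈ S)
    (H : CuspForm.HeckeGaloisRepDatum N (↑S : Set ℕ) 𝒪 θ T)
    (hres : (GaloisRepAdic.ofResidualGaloisRep H.ρ.residual).IsOrdinaryAt p) :
    H.ρ.IsOrdinaryAt p :=
  S33_of_inj (geoPkgInj_of_goodW hgeo) hp hp2 hp𝒪 hN hNS H hres

end Fermat.Agent.Padic.S33
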