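import Mathlib
import Fermat.Agent.Padic.S33.FinalGoodW
import Fermat.Agent.Padic.S33.RC.SmallOrder
import Fermat.Agent.BAD.KerRed
import Fermat.Agent.BAD.NodalGood

/-!
# S33 from small local orders on the kernel of reduction

`KerRedSmall` is the ONE remaining geometric statement of S33 (Route C): for every valuation
subring `A` of `ℚ̄` over an odd prime `q`, every level `M` prime to `q` at a good pair (`5 ≤ q` or
`2 ∣ M`) and every Atkin–Lehner involution `W`, every finite inertia-stable subgroup of the kernel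
of reduction `BAD.KerRed.kerRed h W ⊆ J₀(Mq)(ℚ̄)` carries a small local order
(`RC.SmallOrders A (M * q) (kerRed h W)`).

`geoPkgGoodW_of_kerRedSmall : KerRedSmall → GeoPkgGoodW`: (U1g) is
`BAD.KerRed.smul_sub_mem_kerRed`, (NCg) is `RC.ncg_of_smallOrders`; the level `N` with `p ∥ N` is
written `M * p`.

`S33_of_kerRedSmall : KerRedSmall → (frozen statement S33)`.
-/

set_option autoImplicit false
set_option linter.unusedSectionVars false
set_option linter.style.haveILetI false

open ModularCurve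

namespace Fermat.Agent.Padic.S33

open Fermat.Agent.ESJ.Rep Fermat.Agent.BAD.TwoVal Fermat.Agent.BAD.BadU Fermat.Agent.BAD.KerRed

/-- **Small local orders on the kernel of reduction at the good pairs** (odd residue
characteristic). -/
def KerRedSmall : Prop :=
  ∀ (A : ValuationSubring Qb) (M q : ℕ) [NeZero M] [NeZero q]
    (h : BadSetup A (IsLocalRing.residue A) M q), A.LiesOverPrime q → q ≠ 2 → (5 ≤ q ∨ 2 ∣ M) →
    ∀ W : laurentBaseChange Qb (modularFunctionFieldFull (M * q)) ≃ₐ[Qb]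
      laurentBaseChange Qb (modularFunctionFieldFull (M * q)), IsAL M q W →
    RC.SmallOrders A (M * q) (kerRed h W)

/-- The weak geometric package at the good pairs, from small local orders on the kernel of
reduction. -/
theorem geoPkgGoodW_of_kerRedSmall (hS : KerRedSmall) : GeoPkgGoodW := by
  intro p N _ hp hp2 hN1 hN2 hg P hP
  obtain ⟨M, hM⟩ := hN1
  have hN : N = M * p := by rw [hM, mul_comm]
  subst hN
  haveI : NeZero p := ⟨hp.ne_zero⟩
  haveI : NeZero M := ⟨by
    rintro rfl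
    exact (NeZero.ne (0 * p)) (zero_mul p)⟩
  have hpM : ¬ p ∣ M := by
    rintro ⟨t, rfl⟩
    exact hN2 ⟨t, by ring⟩
  have hg' : 5 ≤ p ∨ 2 ∣ M := by
    rcases hg with h5 | h2
    · exact Or.inl h5
    · refine Or.inr ((Nat.Coprime.dvd_of_dvd_mul_right ?_ h2))
      exact (Nat.coprime_primes Nat.prime_two hp).mpr (Ne.symm hp2)
  haveI : IsAlgClosed (IsLocalRing.ResidueField P) :=
    Fermat.Agent.Lib.FF.CharP.isAlgClosed_residueField P
  have hπ0 : ∀ a : P, ¬ IsUnit a → IsLocalRing.residue P a = 0 := fun a ha =>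
    (IsLocalRing.residue_eq_zero_iff a).mpr ((IsLocalRing.mem_maximalIdeal a).mpr ha)
  have h : BadSetup P (IsLocalRing.residue P) M p := badSetup_of_liesOver P _ hπ0 M p hp hP hpM
  obtain ⟨W, hW⟩ := exists_isAL_Qb h
  refine ⟨kerRed h W, ?_, ?_⟩
  · intro σ hσ x k hx
    exact smul_sub_mem_kerRed IsLocalRing.residue_surjective h W hW hP σ hσ x k hx
  · exact RC.ncg_of_smallOrders hp hp2 hP (kerRed h W) (hS P M p h hP hp2 hg' W hW)

variable {p : ℕ} {N : ℕ} [NeZero N] {S : Finset ℕ}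
  {𝒪 : Type} [CommRing 𝒪] [IsDomain 𝒪] [IsDiscreteValuationRing 𝒪]
  [IsAdicComplete (IsLocalRing.maximalIdeal 𝒪) 𝒪]
  {θ : CuspForm.heckeAlgebra N 2 (↑S : Set ℕ) →+* IsLocalRing.ResidueField 𝒪}
  {T : Type} [CommRing T] [IsLocalRing T] [IsNoetherianRing T]
  [IsAdicComplete (IsLocalRing.maximalIdeal T) T] [Algebra 𝒪 T] [IsLocalHom (algebraMap 𝒪 T)]
  [Module.Finite 𝒪 T] [Module.Free 𝒪 T]

/-- **S33 from small local orders on the kernel of reduction at the good pairs.** -/
theorem S33_of_kerRedSmall (hS : KerRedSmall)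
    [Finite (IsLocalRing.ResidueField 𝒪)] [CharZero 𝒪]
    (hp : p.Prime) (hp2 : p ≠ 2) (hp𝒪 : (p : 𝒪) ∈ IsLocalRing.maximalIdeal 𝒪)
    (hN : p ∣ N ∧ ¬ p ^ 2 ∣ N)
    (hNS : ∀ q : ℕ, q.Prime → q ∣ N → q ∈ S)
    (H : CuspForm.HeckeGaloisRepDatum N (↑S : Set ℕ) 𝒪 θ T)
    (hres : (GaloisRepAdic.ofResidualGaloisRep H.ρ.residual).IsOrdinaryAt p) :
    H.ρ.IsOrdinaryAt p :=
  S33_of_goodW (geoPkgGoodW_of_kerRedSmall hS) hp hp2 hp𝒪 hN hNS H hres

end Fermat.Agent.Padic.S33
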