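/-
S33, closing step of Route C: `KerRedSmall` (the one geometric statement of
`Padic/S33/AsmSmall.lean`) is a theorem.

Composition of
* `BAD.NodalGood.nodalFibreAt_of_good` (the nodal fibre of `X₀(Mq)` at the good pairs),
* `RC.GeoLift.smallOrders_kerRed_of_lift` (small local orders on the kernel of reduction from a
  nodal datum and the per-point lifts),
* `BAD.SmoothLiftInst.hlift_fst`, `hlift_snd` (the per-point lifts: inertia-fixed places with
  prescribed smooth reduction).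
-/
import Mathlib
import Fermat.Agent.Padic.S33.AsmSmall
import Fermat.Agent.Padic.S33.RC.GeoLift
import Fermat.Agent.BAD.SmoothLiftInst

set_option autoImplicit false
set_option maxHeartbeats 1600000

open ModularCurve AlgebraicCurve

namespace Fermat.Agent.Padic.S33.KRS61

open Fermat.Agent.ESJ.Rep Fermat.Agent.BAD.TwoVal Fermat.Agent.BAD.BadU Fermat.Agent.BAD.KerRed
  Fermat.Agent.Padic.S33

/-- **Small local orders on the kernel of reduction at the good pairs.** -/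
theorem kerRedSmall_closed : KerRedSmall := by
  intro A M q _ _ h hA hq2 hg W hW
  have hAC : IsAlgClosed (IsLocalRing.ResidueField A) :=
    Fermat.Agent.Lib.FF.CharP.isAlgClosed_residueField A
  have hπs : Function.Surjective (IsLocalRing.residue A) := IsLocalRing.residue_surjective
  have hq : q.Prime := h.hℓ
  have hgood : 5 ≤ q ∨ (q = 3 ∧ 2 ∣ M) ∨ (q = 2 ∧ 3 ∣ M) := by
    rcases hg with h5 | hM
    · exact Or.inl h5
    · by_cases h3 : q = 3
      · exact Or.inr (Or.inl ⟨h3, hM⟩)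
      · left
        by_contra hlt
        push Not at hlt
        interval_cases q
        · exact absurd hq (by decide)
        · exact absurd hq (by decide)
        · exact hq2 rfl
        · exact h3 rfl
        · exact absurd hq (by decide)
  have hNod : NodalFibreAt h W :=
    Fermat.Agent.BAD.NodalGood.nodalFibreAt_of_good A M q h hA hgood W hW
  obtain ⟨E1, E2, hNF⟩ := (nodalFibreAt_iff h W).1 hNod
  have hNF' := hNF
  obtain ⟨ι, _, _, e₁, e₂, P₁, Z₁, P₂, Z₂, hinj₁, hinj₂, hP₁, hZ₁, hP₂, hZ₂, -, -, hdegP₁,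
    hdegP₂, hE1, hE2, -, hdegE1, hdegE2, hgalE, N₀, hN₀⟩ := hNF'
  exact Fermat.Agent.Padic.S33.RC.GeoLift.smallOrders_kerRed_of_lift hA h hW hNF e₁ e₂
    P₁ Z₁ P₂ Z₂ hinj₁ hinj₂ hP₁ hZ₁ hP₂ hZ₂ hdegP₁ hdegP₂ hE1 hE2 hdegE1 hdegE2 hgalE
    ⟨N₀, hN₀⟩ ∅ ∅
    (fun Qt _ hQt hQP hQZ => Fermat.Agent.BAD.SmoothLiftInst.hlift_fst hπs h W hW hA E1 E2
      e₁ e₂ P₁ Z₁ P₂ Z₂ hinj₁ hinj₂ hP₁ hZ₁ hP₂ hZ₂ hdegP₁ hdegP₂ hE1 hE2 hdegE1 hgalE N₀ hN₀
      Qt hQt hQP hQZ)
    (fun Qt _ hQt hQP hQZ => Fermat.Agent.BAD.SmoothLiftInst.hlift_snd hπs h W hW hA E1 E2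
      e₁ e₂ P₁ Z₁ P₂ Z₂ hinj₁ hinj₂ hP₁ hZ₁ hP₂ hZ₂ hdegP₁ hdegP₂ hE1 hE2 hdegE1 hgalE N₀ hN₀
      Qt hQt hQP hQZ)

end Fermat.Agent.Padic.S33.KRS61
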