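/-
S33's base as named theorems about the kernel of reduction `BAD.KerRed.kerRed h W` of `J₀(Mq)` at
`q` (for consumers outside S33, e.g. the (TR) track): at every good pair with odd residue
characteristic `q`,

* `smallOrders_kerRed` : every finite inertia-stable subgroup of `kerRed h W` carries a small local
  order (`RC.SmallOrders`; = `KRS61.kerRedSmall_closed` at one tuple);
* `u1g_kerRed` : (U1g) — inertia moves `q`-power torsion inside `kerRed h W`
  (`BAD.KerRed.smul_sub_mem_kerRed`; no condition on the pair);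
* `ncg_kerRed` : (NCg) — a `q`-torsion subgroup `V ≤ kerRed h W` on which inertia acts trivially
  modulo `L` and through the mod `q` cyclotomic character on `L` is contained in `L`;
* `not_le_kerRed` : hence no such `V` with `L ≠ V` lies in `kerRed h W`.
-/
import Mathlib
import Fermat.Agent.Padic.S33.KerRedSmall61

set_option autoImplicit false

open ModularCurve AlgebraicCurve

namespace Fermat.Agent.Padic.S33.KerRedPkg

open Fermat.Agent.BAD.TwoVal Fermat.Agent.BAD.BadU Fermat.Agent.BAD.KerRed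
  Fermat.Agent.Padic.S33

local notation "Qb" => AlgebraicClosure ℚ

variable (A : ValuationSubring Qb) (M q : ℕ) [NeZero M] [NeZero q]
  (h : BadSetup A (IsLocalRing.residue A) M q)

/-- Small local orders on the kernel of reduction (one tuple of `KerRedSmall`). -/
theorem smallOrders_kerRed (hA : A.LiesOverPrime q) (hq2 : q ≠ 2) (hg : 5 ≤ q ∨ 2 ∣ M)
    (W : laurentBaseChange Qb (modularFunctionFieldFull (M * q)) ≃ₐ[Qb]
      laurentBaseChange Qb (modularFunctionFieldFull (M * q))) (hW : IsAL M q W) :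
    RC.SmallOrders A (M * q) (kerRed h W) :=
  KRS61.kerRedSmall_closed A M q h hA hq2 hg W hW

/-- **(U1g)** for the kernel of reduction. -/
theorem u1g_kerRed (hA : A.LiesOverPrime q)
    (W : laurentBaseChange Qb (modularFunctionFieldFull (M * q)) ≃ₐ[Qb]
      laurentBaseChange Qb (modularFunctionFieldFull (M * q))) (hW : IsAL M q W) :
    U1g q A (kerRed h W) := by
  haveI : IsAlgClosed (IsLocalRing.ResidueField A) :=
    Fermat.Agent.Lib.FF.CharP.isAlgClosed_residueField A
  intro σ hσ x k hx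
  exact smul_sub_mem_kerRed IsLocalRing.residue_surjective h W hW hA σ hσ x k hx

/-- **(NCg)** for the kernel of reduction at the good pairs. -/
theorem ncg_kerRed (hA : A.LiesOverPrime q) (hq2 : q ≠ 2) (hg : 5 ≤ q ∨ 2 ∣ M)
    (W : laurentBaseChange Qb (modularFunctionFieldFull (M * q)) ≃ₐ[Qb]
      laurentBaseChange Qb (modularFunctionFieldFull (M * q))) (hW : IsAL M q W) :
    NCg q A (kerRed h W) :=
  RC.ncg_of_smallOrders h.hℓ hq2 hA (kerRed h W) (smallOrders_kerRed A M q h hA hq2 hg W hW)

/-- No `q`-torsion subgroup `V` with inertia acting by `[ω *; 0 1]` relative to a proper subgroup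
`L ⊊ V` lies in the kernel of reduction. -/
theorem not_le_kerRed (hA : A.LiesOverPrime q) (hq2 : q ≠ 2) (hg : 5 ≤ q ∨ 2 ∣ M)
    (W : laurentBaseChange Qb (modularFunctionFieldFull (M * q)) ≃ₐ[Qb]
      laurentBaseChange Qb (modularFunctionFieldFull (M * q))) (hW : IsAL M q W)
    (V L : AddSubgroup (JZero (M * q))) (hLV : L ≤ V) (hne : ¬ V ≤ L)
    (hVq : ∀ x ∈ V, q • x = 0)
    (hquot : ∀ σ ∈ A.inertiaSubgroupIn ℚ, ∀ v ∈ V, σ • v - v ∈ L)
    (hcyc : ∀ σ ∈ A.inertiaSubgroupIn ℚ, ∀ a : ℕ, (∀ μ : Qb, μ ^ q = 1 → σ μ = μ ^ a) →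
      ∀ v ∈ L, σ • v = a • v) :
    ¬ V ≤ kerRed h W := fun hVK =>
  hne (ncg_kerRed A M q h hA hq2 hg W hW V L hLV hVK hVq hquot hcyc)

end Fermat.Agent.Padic.S33.KerRedPkg
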