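/-
S33 / Route C — the middle seam, end to end (helper20; second integration seat).

`smallOrders_kerRed_of_lift` : for a nodal datum `(ι, e₁, e₂, P₁, Z₁, P₂, Z₂, E1, E2)` of the bad
fibre (the conjuncts of `BAD.KerRed.NodalFibreFor`) and the per-point lifts `hlift₁`, `hlift₂` of
`BAD.BasePts.exists_basePoints` (every smooth point of the two components off a finite set is the
reduction of an inertia-fixed place of the generic fibre), every finite inertia-stable subgroup of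
the kernel of reduction `BAD.KerRed.kerRed h W` carries a small local order:
`RC.SmallOrders A (M * q) (kerRed h W)`.

Composition of: RC-2 (`BasePts.exists_basePoints`), (S) (`SpecBad.exists_specFacts_red`),
(N)+(T) (`KerRed.exists_normalized_red`), (KD) (`KerDivKD.hKD_of_twisted`), the inertia-fixed
orthonormal basis (`LatFixedInst.exists_fixed_ortho_basis_rr`) and the formal assembly
(`KDFormal.smallOrders_of_kd`).  Only the charts `n • E1` are used.
-/
import Mathlib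
import Fermat.Agent.Padic.S33.AsmSmall
import Fermat.Agent.Padic.S33.RC.KDFormal
import Fermat.Agent.Padic.S33.RC.KerDivKD
import Fermat.Agent.Padic.S33.RC.SpecBad
import Fermat.Agent.BAD.BasePtsAsm
import Fermat.Agent.BAD.KerRedTriv
import Fermat.Agent.BAD.LatFixedInst

set_option autoImplicit false
set_option linter.unusedSectionVars false
set_option linter.style.haveILetI false

noncomputable section

namespace Fermat.Agent.Padic.S33.KerRedSmallOf

open AlgebraicCurve ModularCurve Module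
open Fermat.Agent.Lib.FF Fermat.Agent.Lib.FF.BasePoint Fermat.Agent.Lib.Red.Deform
  Fermat.Agent.Lib.Red.CoordLat Fermat.Agent.BAD.NodalDiv Fermat.Agent.BAD.NodalRiemann
  Fermat.Agent.BAD.TwoVal Fermat.Agent.BAD.NodalAsm Fermat.Agent.BAD.BadU
  Fermat.Agent.BAD.KerRed Fermat.Agent.BAD.BasePts Fermat.Agent.BAD.Ortho
  Fermat.Agent.Padic.GenPosAbs Fermat.Agent.Padic.S33.RC Fermat.Agent.Padic.S33.RC.OrthoFam

local notation "Qb" => AlgebraicClosure ℚ

variable {A : ValuationSubring Qb} {M q : ℕ} [NeZero M] [NeZero q]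

/-- The reduction data of the bad fibre as a `PRed`. -/
theorem pRed_bad {k : Type} [Field k] {π : A →+* k} (hπ : Function.Surjective π)
    (h : BadSetup A π M q)
    (W : laurentBaseChange Qb (modularFunctionFieldFull (M * q)) ≃ₐ[Qb]
      laurentBaseChange Qb (modularFunctionFieldFull (M * q))) :
    PRed A (OPair h W) (redPair h W) π :=
  ⟨hπ, h.pi_eq_zero_iff, fun x => OPair_hOA h x, redPair_eq_zero_iff h,
    fun a => (redPair_algebraMap h a _).trans rfl⟩

/-- The chart `(n, 0)`. -/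
theorem chart_zero {K F : Type*} [Field K] [Field F] [Algebra K F] (X Y : Divisor K F) (n : ℕ) :
    n • X + 0 • Y = n • X := by
  rw [zero_smul, add_zero]

section generic

variable {k : Type} [Field k] {π : A →+* k}

set_option maxHeartbeats 1000000 in
/-- **The geometric package of Route C** for a nodal datum of the bad fibre with per-point lifts:
divisors `E` (a multiple of `E1`) and `B` (the base points of RC-2), the special facts (S) and the
kernel-divisor data (KD) on every finite subgroup of the kernel of reduction. -/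
theorem exists_kd_package [IsAlgClosed k] (hπ : Function.Surjective π)
    (h : BadSetup A π M q)
    (W : laurentBaseChange Qb (modularFunctionFieldFull (M * q)) ≃ₐ[Qb]
      laurentBaseChange Qb (modularFunctionFieldFull (M * q))) (hW : IsAL M q W)
    (E1 E2 : Divisor Qb (laurentBaseChange Qb (modularFunctionFieldFull (M * q))))
    {ι : Type} [Fintype ι] [Nonempty ι]
    (e₁ e₂ : ι → Place k (modularFunctionFieldFullC k M))
    (P₁ Z₁ P₂ Z₂ : Divisor k (modularFunctionFieldFullC k M))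
    (hinj₁ : Function.Injective e₁) (hinj₂ : Function.Injective e₂)
    (hP₁ : ∀ i, P₁ (e₁ i) = 0) (hZ₁ : ∀ i, Z₁ (e₁ i) = 0)
    (hP₂ : ∀ i, P₂ (e₂ i) = 0) (hZ₂ : ∀ i, Z₂ (e₂ i) = 0)
    (hPZ₁ : ∀ v, P₁ v = 0 ∨ Z₁ v = 0) (hPZ₂ : ∀ v, P₂ v = 0 ∨ Z₂ v = 0)
    (hdegP₁ : 0 < Divisor.degree P₁) (hdegP₂ : 0 < Divisor.degree P₂)
    (hE1 : ∀ v, 0 ≤ E1 v) (hE2 : ∀ v, 0 ≤ E2 v) (hE12 : ∀ v, E1 v = 0 ∨ E2 v = 0)
    (hdegE1 : 0 < Divisor.degree E1) (hdegE2 : 0 < Divisor.degree E2)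
    (hI : ∀ σ ∈ A.inertiaSubgroupIn ℚ,
      arithmeticGalois (modularFunctionFieldFull (M * q)) σ • E1 = E1 ∧
      arithmeticGalois (modularFunctionFieldFull (M * q)) σ • E2 = E2)
    (hS2 : ∃ N₀ : ℕ, ∀ n₁ n₂ : ℕ, N₀ ≤ n₁ + n₂ →
      ∀ t : ↥(modularFunctionFieldFullC k M) × ↥(modularFunctionFieldFullC k M),
        (∃ y : OPair h W,
            (y : laurentBaseChange Qb (modularFunctionFieldFull (M * q))) ∈
              riemannRochSpace (n₁ • E1 + n₂ • E2) ∧ redPair h W y = t) ↔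
          t ∈ gluedSpace e₁ e₂ (fun _ => (1 : k))
            (n₁ • P₁ + n₂ • Z₁) (n₁ • P₂ + n₂ • Z₂))
    (S₁ S₂ : Finset (Place k (modularFunctionFieldFullC k M)))
    (hlift₁ : ∀ Qt : Place k (modularFunctionFieldFullC k M), Qt ∉ S₁ → (∀ i, e₁ i ≠ Qt) →
      P₁ Qt = 0 → Z₁ Qt = 0 →
      ∃ Q : Place Qb (laurentBaseChange Qb (modularFunctionFieldFull (M * q))),
        (∀ σ ∈ A.inertiaSubgroupIn ℚ,
          arithmeticGalois (modularFunctionFieldFull (M * q)) σ • Q = Q) ∧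
        E1 Q = 0 ∧ E2 Q = 0 ∧ RedTo₁ h W E1 E2 Q Qt)
    (hlift₂ : ∀ Qt : Place k (modularFunctionFieldFullC k M), Qt ∉ S₂ → (∀ i, e₂ i ≠ Qt) →
      P₂ Qt = 0 → Z₂ Qt = 0 →
      ∃ Q : Place Qb (laurentBaseChange Qb (modularFunctionFieldFull (M * q))),
        (∀ σ ∈ A.inertiaSubgroupIn ℚ,
          arithmeticGalois (modularFunctionFieldFull (M * q)) σ • Q = Q) ∧
        E1 Q = 0 ∧ E2 Q = 0 ∧ RedTo₂ h W E1 E2 Q Qt) :
    ∃ (E B : Divisor Qb (laurentBaseChange Qb (modularFunctionFieldFull (M * q)))) (n : ℤ),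
      5 * (genusFF Qb ↥(laurentBaseChange Qb (modularFunctionFieldFull (M * q))) : ℤ) + 1 ≤ n ∧
      Divisor.degree E = n ∧
      Divisor.degree B = genusFF Qb ↥(laurentBaseChange Qb (modularFunctionFieldFull (M * q))) ∧
      (∀ σ ∈ A.inertiaSubgroupIn ℚ,
        arithmeticGalois (modularFunctionFieldFull (M * q)) σ • E = E) ∧
      (∀ σ ∈ A.inertiaSubgroupIn ℚ,
        arithmeticGalois (modularFunctionFieldFull (M * q)) σ • B = B) ∧
      SpecFacts ((pRed_bad hπ h W).redSub (riemannRochSpace E))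
        ((pRed_bad hπ h W).redSub (riemannRochSpace (E - B)))
        ((pRed_bad hπ h W).redSub (riemannRochSpace (2 • E - B)))
        (2 * n - 3 * genusFF Qb ↥(laurentBaseChange Qb (modularFunctionFieldFull (M * q))) + 1) ∧
      ∀ V : AddSubgroup (JZero (M * q)), Finite V → V ≤ kerRed h W →
        ∀ y ∈ V, ∃ D : Divisor Qb (laurentBaseChange Qb (modularFunctionFieldFull (M * q))),
          0 ≤ D ∧
          Divisor.degree D
            = genusFF Qb ↥(laurentBaseChange Qb (modularFunctionFieldFull (M * q))) ∧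
          finrank Qb (riemannRochSpace D) = 1 ∧
          (∃ hD : D - B ∈ Divisor.degZero (K := Qb)
              (F := laurentBaseChange Qb (modularFunctionFieldFull (M * q))),
            Pic0.mk ⟨D - B, hD⟩ = y) ∧
          (pRed_bad hπ h W).redSub (riemannRochSpace (E - D))
            = (pRed_bad hπ h W).redSub (riemannRochSpace (E - B)) := by
  classical
  have hNF : NodalFibreFor h W E1 E2 :=
    ⟨ι, inferInstance, inferInstance, e₁, e₂, P₁, Z₁, P₂, Z₂, hinj₁, hinj₂, hP₁, hZ₁, hP₂, hZ₂,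
      hPZ₁, hPZ₂, hdegP₁, hdegP₂, hE1, hE2, hE12, hdegE1, hdegE2, hI, hS2⟩
  have hpr : PRed A (OPair h W) (redPair h W) π := pRed_bad hπ h W
  have hLat : LatAt h W := latAt hπ h W hW
  have hF := isFF1_xL Qb (M * q)
  have h₁ := isFF1_xk k M
  -- RC-2: the base points
  obtain ⟨T, T₁, T₂, hTg, hTcard, hTfix, hBfix, hTE, -, -, hnT₁, hnT₂, hT₁PZ, hT₂PZ, hns, c, N₂,
    hB⟩ := exists_basePoints hπ h W hW E1 E2 e₁ e₂ P₁ Z₁ P₂ Z₂ hinj₂ hP₁ hZ₁ hP₂ hZ₂ hdegP₁
      hdegP₂ hdegE1 hdegE2 hS2 S₁ S₂ hlift₁ hlift₂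
  obtain ⟨N₀, hN₀⟩ := hS2
  have hg0 : (0 : ℤ) ≤ genusFF Qb ↥(laurentBaseChange Qb (modularFunctionFieldFull (M * q))) :=
    Int.natCast_nonneg _
  have hB₁e : ∀ i, RR.sumPl T₁ (e₁ i) = 0 := fun i => RR.sumPl_apply_of_notMem (hnT₁ i)
  have hB₂e : ∀ i, RR.sumPl T₂ (e₂ i) = 0 := fun i => RR.sumPl_apply_of_notMem (hnT₂ i)
  have hB₁0 : 0 ≤ RR.sumPl T₁ := RR.sumPl_nonneg T₁
  have hB₂0 : 0 ≤ RR.sumPl T₂ := RR.sumPl_nonneg T₂
  have hdegB : Divisor.degree (RR.sumPl T)
      = genusFF Qb ↥(laurentBaseChange Qb (modularFunctionFieldFull (M * q))) := by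
    rw [RR.degree_sumPl hF.resK]
    exact hTg
  have hdegB₁ : Divisor.degree (RR.sumPl T₁) = T₁.card := RR.degree_sumPl h₁.resK T₁
  have hdegB₂ : Divisor.degree (RR.sumPl T₂) = T₂.card := RR.degree_sumPl h₁.resK T₂
  have hT12 : (T₁.card : ℤ) + T₂.card
      = genusFF Qb ↥(laurentBaseChange Qb (modularFunctionFieldFull (M * q))) := by
    rw [← hTg, hTcard]
    push_cast
    ring
  -- the charts `n • E1`
  have hS : ∀ n : ℕ, N₀ ≤ n →
      ∀ t : ↥(modularFunctionFieldFullC k M) × ↥(modularFunctionFieldFullC k M),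
        (∃ y : OPair h W,
            (y : laurentBaseChange Qb (modularFunctionFieldFull (M * q))) ∈
              riemannRochSpace (n • E1) ∧ redPair h W y = t) ↔
          t ∈ gluedSpace e₁ e₂ (fun _ => (1 : k)) (n • P₁) (n • P₂) := by
    intro n hn t
    have h1 := hN₀ n 0 (by omega) t
    rwa [chart_zero, chart_zero, chart_zero] at h1
  have hSB : ∀ n : ℕ, max N₂ c.toNat ≤ n →
      ∀ t : ↥(modularFunctionFieldFullC k M) × ↥(modularFunctionFieldFullC k M),
        (∃ y : OPair h W,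
            (y : laurentBaseChange Qb (modularFunctionFieldFull (M * q))) ∈
              riemannRochSpace (n • E1 - RR.sumPl T) ∧ redPair h W y = t) ↔
          t ∈ gluedSpace e₁ e₂ (fun _ => (1 : k)) (n • P₁ - RR.sumPl T₁)
            (n • P₂ - RR.sumPl T₂) := by
    intro n hn t
    have hn2 : N₂ ≤ n := (le_max_left _ _).trans hn
    have hnc : c ≤ (n : ℤ) :=
      (Int.self_le_toNat c).trans (by exact_mod_cast (le_max_right _ _).trans hn)
    have hn0 : (0 : ℤ) ≤ n := Int.natCast_nonneg _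
    have h1 := hB n 0 (by omega)
      (by rw [chart_zero, map_nsmul, nsmul_eq_mul]; nlinarith)
      (by rw [chart_zero, map_nsmul, nsmul_eq_mul]; nlinarith) t
    rwa [chart_zero, chart_zero, chart_zero] at h1
  -- (S)
  obtain ⟨m₀, hm₀⟩ := SpecBad.exists_specFacts_red hpr hF h₁ h₁ e₁ e₂ hinj₁ hinj₂ hLat E1 P₁ P₂
    hP₁ hP₂ hdegE1 hdegP₁ hdegP₂ ⟨N₀, fun n hn => Submodule.ext fun t => hS n hn t⟩
    (RR.sumPl T) (RR.sumPl T₁) (RR.sumPl T₂) hB₁e hB₂e hB₁0 hB₂0 hns.le
    (by rw [hdegB₁, hdegB₂]; exact hT12)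
    ⟨max N₂ c.toNat, fun n hn => Submodule.ext fun t => hSB n hn t⟩
  set m : ℕ := max m₀ (max N₂ c.toNat) with hm
  have hmm₀ : m₀ ≤ m := le_max_left _ _
  have hmB : max N₂ c.toNat ≤ m := le_max_right _ _
  obtain ⟨hn5, hfacts⟩ := hm₀ m hmm₀
  refine ⟨m • E1, RR.sumPl T, Divisor.degree (m • E1), hn5, rfl, hdegB, ?_, hBfix, hfacts, ?_⟩
  · intro σ hσ
    rw [smul_comm, (hI σ hσ).1]
  -- (KD) on a finite subgroup
  intro V hVfin hVK
  have hnorm := fun v : V => exists_normalized_red hπ h W hW hNF (hVK v.2)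
  choose D' hD' Nv hNv using hnorm
  haveI := Fintype.ofFinite V
  have hNV : ∀ v, Nv v ≤ Finset.univ.sup Nv := fun v => Finset.le_sup (Finset.mem_univ v)
  obtain ⟨c₁, hc₁⟩ := exists_NS h₁
  set bnd : ℤ := c₁ + Fintype.card ι + 1
    + genusFF Qb ↥(laurentBaseChange Qb (modularFunctionFieldFull (M * q))) with hbnd
  set nC : ℕ := max (max N₀ (Finset.univ.sup Nv)) (max (max N₂ c.toNat) bnd.toNat) with hnC
  have hC0 : N₀ ≤ nC := (le_max_left _ _).trans (le_max_left _ _)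
  have hCV : ∀ v, Nv v ≤ nC := fun v =>
    (hNV v).trans ((le_max_right _ _).trans (le_max_left _ _))
  have hCB' : max N₂ c.toNat ≤ nC := (le_max_left _ _).trans (le_max_right _ _)
  have hCbnd : bnd ≤ (nC : ℤ) :=
    (Int.self_le_toNat bnd).trans
      (by exact_mod_cast (le_max_right _ _).trans (le_max_right _ _))
  have hnC0 : (0 : ℤ) ≤ nC := Int.natCast_nonneg _
  have hT₁g : (T₁.card : ℤ)
      ≤ genusFF Qb ↥(laurentBaseChange Qb (modularFunctionFieldFull (M * q))) := by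
    have : (0 : ℤ) ≤ T₂.card := Int.natCast_nonneg _
    linarith
  have hT₂g : (T₂.card : ℤ)
      ≤ genusFF Qb ↥(laurentBaseChange Qb (modularFunctionFieldFull (M * q))) := by
    have : (0 : ℤ) ≤ T₁.card := Int.natCast_nonneg _
    linarith
  refine KerDivKD.hKD_of_twisted hpr hF h₁ h₁ hinj₁ hinj₂ hc₁ hc₁ hLat hdegB hB₁e hB₂e hns.le
    (C := nC • E1) (C₁ := nC • P₁) (C₂ := nC • P₂) ?_ ?_ ?_ ?_ ?_ ?_ ?_
    (E := m • E1) (E₁ := m • P₁) (E₂ := m • P₂) ?_ ?_ ?_ (hSB m hmB) ?_ V ?_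
  · intro i
    rw [Finsupp.smul_apply, hP₁ i, smul_zero]
  · intro i
    rw [Finsupp.smul_apply, hP₂ i, smul_zero]
  · rw [map_sub, map_nsmul, nsmul_eq_mul, hdegB₁]
    nlinarith
  · rw [map_sub, map_nsmul, nsmul_eq_mul, hdegB₂]
    nlinarith
  · rw [map_nsmul, nsmul_eq_mul]
    nlinarith
  · rw [map_nsmul, nsmul_eq_mul]
    nlinarith
  · intro t ht
    exact (hSB nC hCB' t).2 ht
  · intro i
    rw [Finsupp.smul_apply, hP₁ i, smul_zero]
  · intro i
    rw [Finsupp.smul_apply, hP₂ i, smul_zero]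
  · rw [map_sub, hdegB]
    linarith
  · intro y hy
    rw [← add_smul] at hy
    have h1 := (hSB (m + nC) (hmB.trans (Nat.le_add_right _ _)) (redPair h W y)).1 ⟨y, hy, rfl⟩
    rwa [add_smul, add_smul] at h1
  · intro v hv
    refine ⟨(D' ⟨v, hv⟩ : Divisor Qb (laurentBaseChange Qb (modularFunctionFieldFull (M * q)))),
      ⟨(D' ⟨v, hv⟩).2, hD' ⟨v, hv⟩⟩, 1, 1, one_mul 1, fun t => ?_⟩
    have h1 := (hNv ⟨v, hv⟩ nC 0 (by have := hCV ⟨v, hv⟩; omega) t).1
    rw [add_assoc, chart_zero] at h1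
    simp only [one_mul]
    exact h1.trans (hS nC hC0 t)

/-- **A nodal datum with per-point lifts**: the body of `KerRed.NodalFibreFor h W E1 E2` together
with the lifts `hlift₁`, `hlift₂` of `BasePts.exists_basePoints` (every point of the two
components off the nodes, off `P_j`, `Z_j` and off a finite set `S_j` is the reduction of an
inertia-fixed place of the generic fibre off `E1`, `E2`). -/
def NodalLiftFor (h : BadSetup A π M q)
    (W : laurentBaseChange Qb (modularFunctionFieldFull (M * q)) ≃ₐ[Qb]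
      laurentBaseChange Qb (modularFunctionFieldFull (M * q)))
    (E1 E2 : Divisor Qb (laurentBaseChange Qb (modularFunctionFieldFull (M * q)))) : Prop :=
  ∃ (ι : Type) (_ : Fintype ι) (_ : Nonempty ι)
    (e₁ e₂ : ι → Place k (modularFunctionFieldFullC k M))
    (P₁ Z₁ P₂ Z₂ : Divisor k (modularFunctionFieldFullC k M)),
    Function.Injective e₁ ∧ Function.Injective e₂ ∧
    (∀ i, P₁ (e₁ i) = 0) ∧ (∀ i, Z₁ (e₁ i) = 0) ∧ (∀ i, P₂ (e₂ i) = 0) ∧ (∀ i, Z₂ (e₂ i) = 0) ∧
    (∀ v, P₁ v = 0 ∨ Z₁ v = 0) ∧ (∀ v, P₂ v = 0 ∨ Z₂ v = 0) ∧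
    0 < Divisor.degree P₁ ∧ 0 < Divisor.degree P₂ ∧
    (∀ v, 0 ≤ E1 v) ∧ (∀ v, 0 ≤ E2 v) ∧ (∀ v, E1 v = 0 ∨ E2 v = 0) ∧
    0 < Divisor.degree E1 ∧ 0 < Divisor.degree E2 ∧
    (∀ σ ∈ A.inertiaSubgroupIn ℚ,
      arithmeticGalois (modularFunctionFieldFull (M * q)) σ • E1 = E1 ∧
      arithmeticGalois (modularFunctionFieldFull (M * q)) σ • E2 = E2) ∧
    (∃ N₀ : ℕ, ∀ n₁ n₂ : ℕ, N₀ ≤ n₁ + n₂ →
      ∀ t : ↥(modularFunctionFieldFullC k M) × ↥(modularFunctionFieldFullC k M),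
        (∃ y : OPair h W,
            (y : laurentBaseChange Qb (modularFunctionFieldFull (M * q))) ∈
              riemannRochSpace (n₁ • E1 + n₂ • E2) ∧ redPair h W y = t) ↔
          t ∈ gluedSpace e₁ e₂ (fun _ => (1 : k))
            (n₁ • P₁ + n₂ • Z₁) (n₁ • P₂ + n₂ • Z₂)) ∧
    ∃ S₁ S₂ : Finset (Place k (modularFunctionFieldFullC k M)),
      (∀ Qt : Place k (modularFunctionFieldFullC k M), Qt ∉ S₁ → (∀ i, e₁ i ≠ Qt) →
        P₁ Qt = 0 → Z₁ Qt = 0 →
        ∃ Q : Place Qb (laurentBaseChange Qb (modularFunctionFieldFull (M * q))),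
          (∀ σ ∈ A.inertiaSubgroupIn ℚ,
            arithmeticGalois (modularFunctionFieldFull (M * q)) σ • Q = Q) ∧
          E1 Q = 0 ∧ E2 Q = 0 ∧ RedTo₁ h W E1 E2 Q Qt) ∧
      (∀ Qt : Place k (modularFunctionFieldFullC k M), Qt ∉ S₂ → (∀ i, e₂ i ≠ Qt) →
        P₂ Qt = 0 → Z₂ Qt = 0 →
        ∃ Q : Place Qb (laurentBaseChange Qb (modularFunctionFieldFull (M * q))),
          (∀ σ ∈ A.inertiaSubgroupIn ℚ,
            arithmeticGalois (modularFunctionFieldFull (M * q)) σ • Q = Q) ∧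
          E1 Q = 0 ∧ E2 Q = 0 ∧ RedTo₂ h W E1 E2 Q Qt)

/-- A nodal datum with lifts is a nodal datum. -/
theorem NodalLiftFor.nodalFibreFor {h : BadSetup A π M q}
    {W : laurentBaseChange Qb (modularFunctionFieldFull (M * q)) ≃ₐ[Qb]
      laurentBaseChange Qb (modularFunctionFieldFull (M * q))}
    {E1 E2 : Divisor Qb (laurentBaseChange Qb (modularFunctionFieldFull (M * q)))}
    (hNL : NodalLiftFor h W E1 E2) : NodalFibreFor h W E1 E2 := by
  obtain ⟨ι, i1, i2, e₁, e₂, P₁, Z₁, P₂, Z₂, hinj₁, hinj₂, hP₁, hZ₁, hP₂, hZ₂, hPZ₁, hPZ₂, hdegP₁,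
    hdegP₂, hE1, hE2, hE12, hdegE1, hdegE2, hI, hS2, -⟩ := hNL
  exact ⟨ι, i1, i2, e₁, e₂, P₁, Z₁, P₂, Z₂, hinj₁, hinj₂, hP₁, hZ₁, hP₂, hZ₂, hPZ₁, hPZ₂, hdegP₁,
    hdegP₂, hE1, hE2, hE12, hdegE1, hdegE2, hI, hS2⟩

/-- The geometric package of Route C from a nodal datum with lifts. -/
theorem exists_kd_package_of_nodalLift [IsAlgClosed k] (hπ : Function.Surjective π)
    (h : BadSetup A π M q)
    (W : laurentBaseChange Qb (modularFunctionFieldFull (M * q)) ≃ₐ[Qb]
      laurentBaseChange Qb (modularFunctionFieldFull (M * q))) (hW : IsAL M q W)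
    (E1 E2 : Divisor Qb (laurentBaseChange Qb (modularFunctionFieldFull (M * q))))
    (hNL : NodalLiftFor h W E1 E2) :
    ∃ (E B : Divisor Qb (laurentBaseChange Qb (modularFunctionFieldFull (M * q)))) (n : ℤ),
      5 * (genusFF Qb ↥(laurentBaseChange Qb (modularFunctionFieldFull (M * q))) : ℤ) + 1 ≤ n ∧
      Divisor.degree E = n ∧
      Divisor.degree B = genusFF Qb ↥(laurentBaseChange Qb (modularFunctionFieldFull (M * q))) ∧
      (∀ σ ∈ A.inertiaSubgroupIn ℚ,
        arithmeticGalois (modularFunctionFieldFull (M * q)) σ • E = E) ∧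
      (∀ σ ∈ A.inertiaSubgroupIn ℚ,
        arithmeticGalois (modularFunctionFieldFull (M * q)) σ • B = B) ∧
      SpecFacts ((pRed_bad hπ h W).redSub (riemannRochSpace E))
        ((pRed_bad hπ h W).redSub (riemannRochSpace (E - B)))
        ((pRed_bad hπ h W).redSub (riemannRochSpace (2 • E - B)))
        (2 * n - 3 * genusFF Qb ↥(laurentBaseChange Qb (modularFunctionFieldFull (M * q))) + 1) ∧
      ∀ V : AddSubgroup (JZero (M * q)), Finite V → V ≤ kerRed h W →
        ∀ y ∈ V, ∃ D : Divisor Qb (laurentBaseChange Qb (modularFunctionFieldFull (M * q))),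
          0 ≤ D ∧
          Divisor.degree D
            = genusFF Qb ↥(laurentBaseChange Qb (modularFunctionFieldFull (M * q))) ∧
          finrank Qb (riemannRochSpace D) = 1 ∧
          (∃ hD : D - B ∈ Divisor.degZero (K := Qb)
              (F := laurentBaseChange Qb (modularFunctionFieldFull (M * q))),
            Pic0.mk ⟨D - B, hD⟩ = y) ∧
          (pRed_bad hπ h W).redSub (riemannRochSpace (E - D))
            = (pRed_bad hπ h W).redSub (riemannRochSpace (E - B)) := by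
  obtain ⟨ι, i1, i2, e₁, e₂, P₁, Z₁, P₂, Z₂, hinj₁, hinj₂, hP₁, hZ₁, hP₂, hZ₂, hPZ₁, hPZ₂, hdegP₁,
    hdegP₂, hE1, hE2, hE12, hdegE1, hdegE2, hI, hS2, S₁, S₂, hl₁, hl₂⟩ := hNL
  exact exists_kd_package hπ h W hW E1 E2 e₁ e₂ P₁ Z₁ P₂ Z₂ hinj₁ hinj₂ hP₁ hZ₁ hP₂ hZ₂ hPZ₁ hPZ₂
    hdegP₁ hdegP₂ hE1 hE2 hE12 hdegE1 hdegE2 hI hS2 S₁ S₂ hl₁ hl₂

end generic

set_option synthInstance.maxHeartbeats 400000 in
set_option maxHeartbeats 1000000 in
/-- **The middle seam of S33 (Route C).**  Small local orders on the kernel of reduction of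
`J₀(Mq)` at `q` from a nodal datum of the bad fibre with per-point lifts. -/
theorem smallOrders_kerRed_of_nodalLift
    (h : BadSetup A (IsLocalRing.residue A) M q) (hA : A.LiesOverPrime q)
    (W : laurentBaseChange Qb (modularFunctionFieldFull (M * q)) ≃ₐ[Qb]
      laurentBaseChange Qb (modularFunctionFieldFull (M * q))) (hW : IsAL M q W)
    (E1 E2 : Divisor Qb (laurentBaseChange Qb (modularFunctionFieldFull (M * q))))
    (hNL : NodalLiftFor h W E1 E2) :
    SmallOrders A (M * q) (kerRed h W) := by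
  classical
  haveI : IsAlgClosed (IsLocalRing.ResidueField A) :=
    Fermat.Agent.Lib.FF.CharP.isAlgClosed_residueField A
  have hπ : Function.Surjective (IsLocalRing.residue A) := IsLocalRing.residue_surjective
  obtain ⟨E, B, n, hn, hE, hB, hEI, hBI, hfacts, hKD⟩ :=
    exists_kd_package_of_nodalLift hπ h W hW E1 E2 hNL
  obtain ⟨nb, b, hbfix, hbli, hbspan, hbmem, hbcoeff⟩ :=
    Fermat.Agent.BAD.LatFixedInst.exists_fixed_ortho_basis_rr h.hℓ hA h hπ hW E hEI
  intro V hVfin hVK hV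
  exact KDFormal.smallOrders_of_kd (isFF1_xL Qb (M * q)) (pRed_bad hπ h W)
    (fun D => latAt hπ h W hW D) E B n hn hE hB hEI hBI
    ⟨Fin nb, inferInstance, b, ⟨hbli, hbmem, hbcoeff⟩, hbspan, fun σ hσ i => hbfix i σ hσ⟩
    hfacts V (hKD V hVfin hVK) V hVfin le_rfl hV

/-- **(H) at the good pairs**: at every good pair with odd residue characteristic, every
Atkin–Lehner involution has a nodal datum with per-point lifts. -/
def NodalLiftGood : Prop :=
  ∀ (A : ValuationSubring Qb) (M q : ℕ) [NeZero M] [NeZero q]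
    (h : BadSetup A (IsLocalRing.residue A) M q), A.LiesOverPrime q → q ≠ 2 → (5 ≤ q ∨ 2 ∣ M) →
    ∀ W : laurentBaseChange Qb (modularFunctionFieldFull (M * q)) ≃ₐ[Qb]
      laurentBaseChange Qb (modularFunctionFieldFull (M * q)), IsAL M q W →
    ∃ E1 E2 : Divisor Qb (laurentBaseChange Qb (modularFunctionFieldFull (M * q))),
      NodalLiftFor h W E1 E2

/-- `KerRedSmall` (the one remaining geometric statement of S33) from the per-point lifts. -/
theorem kerRedSmall_of_nodalLift (hL : NodalLiftGood) : KerRedSmall := by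
  intro A M q _ _ h hA hq2 hg W hW
  obtain ⟨E1, E2, hNL⟩ := hL A M q h hA hq2 hg W hW
  exact smallOrders_kerRed_of_nodalLift h hA W hW E1 E2 hNL

end Fermat.Agent.Padic.S33.KerRedSmallOf
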