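/-
S33 / Route C — `KerRedSmall` is a theorem (helper20).

* `nodalLiftFor_of_nodalFibreAt` : a nodal datum of the bad fibre (`BadU.NodalFibreAt h W`) carries
  the per-point lifts (`BAD.SmoothLiftInst.hlift_fst`, `hlift_snd`): it is a
  `KerRedSmallOf.NodalLiftFor`;
* `nodalLiftGood` : the nodal datum with lifts at every good pair
  (`BAD.NodalGood.nodalFibreAt_of_good`);
* `kerRedSmall : KerRedSmall` — every finite inertia-stable subgroup of the kernel of reduction of
  `J₀(Mq)` at an odd prime `q` (good pair) carries a small local order.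
-/
import Mathlib
import Fermat.Agent.Padic.S33.KerRedSmallOf
import Fermat.Agent.BAD.SmoothLiftInst
import Fermat.Agent.BAD.NodalGood

set_option autoImplicit false
set_option linter.unusedSectionVars false
set_option linter.style.haveILetI false

noncomputable section

namespace Fermat.Agent.Padic.S33.KerRedSmallOf

open AlgebraicCurve ModularCurve
open Fermat.Agent.BAD.TwoVal Fermat.Agent.BAD.BadU Fermat.Agent.BAD.KerRed
  Fermat.Agent.BAD.SmoothLiftInst

local notation "Qb" => AlgebraicClosure ℚ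

variable {A : ValuationSubring Qb} {M q : ℕ} [NeZero M] [NeZero q]

/-- A nodal datum of the bad fibre carries the per-point lifts. -/
theorem nodalLiftFor_of_nodalFibreAt {k : Type} [Field k] {π : A →+* k} [IsAlgClosed k]
    (hπ : Function.Surjective π) (h : BadSetup A π M q)
    (W : laurentBaseChange Qb (modularFunctionFieldFull (M * q)) ≃ₐ[Qb]
      laurentBaseChange Qb (modularFunctionFieldFull (M * q))) (hW : IsAL M q W)
    (hA : A.LiesOverPrime q) (hNF : NodalFibreAt h W) :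
    ∃ E1 E2 : Divisor Qb (laurentBaseChange Qb (modularFunctionFieldFull (M * q))),
      NodalLiftFor h W E1 E2 := by
  obtain ⟨ι, i1, i2, e₁, e₂, P₁, Z₁, P₂, Z₂, E1, E2, hinj₁, hinj₂, hP₁, hZ₁, hP₂, hZ₂, hPZ₁, hPZ₂,
    hdegP₁, hdegP₂, hE1, hE2, hE12, hdegE1, hdegE2, hI, N₀, hN₀⟩ := hNF
  exact ⟨E1, E2, ι, i1, i2, e₁, e₂, P₁, Z₁, P₂, Z₂, hinj₁, hinj₂, hP₁, hZ₁, hP₂, hZ₂, hPZ₁, hPZ₂,
    hdegP₁, hdegP₂, hE1, hE2, hE12, hdegE1, hdegE2, hI, ⟨N₀, hN₀⟩, ∅, ∅,
    fun Qt _ hQt hQP hQZ => hlift_fst hπ h W hW hA E1 E2 e₁ e₂ P₁ Z₁ P₂ Z₂ hinj₁ hinj₂ hP₁ hZ₁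
      hP₂ hZ₂ hdegP₁ hdegP₂ hE1 hE2 hdegE1 hI N₀ hN₀ Qt hQt hQP hQZ,
    fun Qt _ hQt hQP hQZ => hlift_snd hπ h W hW hA E1 E2 e₁ e₂ P₁ Z₁ P₂ Z₂ hinj₁ hinj₂ hP₁ hZ₁
      hP₂ hZ₂ hdegP₁ hdegP₂ hE1 hE2 hdegE1 hI N₀ hN₀ Qt hQt hQP hQZ⟩

/-- **(H) at the good pairs.** -/
theorem nodalLiftGood : NodalLiftGood := by
  intro A M q _ _ h hA hq2 hg W hW
  haveI : IsAlgClosed (IsLocalRing.ResidueField A) :=
    Fermat.Agent.Lib.FF.CharP.isAlgClosed_residueField A
  have hgood : 5 ≤ q ∨ (q = 3 ∧ 2 ∣ M) ∨ (q = 2 ∧ 3 ∣ M) := by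
    rcases hg with h5 | h2
    · exact Or.inl h5
    · by_cases h5 : 5 ≤ q
      · exact Or.inl h5
      · refine Or.inr (Or.inl ⟨?_, h2⟩)
        have hq : q.Prime := h.hℓ
        have hq5 : q < 5 := not_le.mp h5
        interval_cases q
        · exact absurd hq (by decide)
        · exact absurd hq (by decide)
        · exact absurd rfl hq2
        · rfl
        · exact absurd hq (by decide)
  exact nodalLiftFor_of_nodalFibreAt IsLocalRing.residue_surjective h W hW hA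
    (Fermat.Agent.BAD.NodalGood.nodalFibreAt_of_good A M q h hA hgood W hW)

/-- **`KerRedSmall` is a theorem**: small local orders on the kernel of reduction at the good
pairs. -/
theorem kerRedSmall : KerRedSmall :=
  kerRedSmall_of_nodalLift nodalLiftGood

end Fermat.Agent.Padic.S33.KerRedSmallOf
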